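import Mathlib
import Fermat.Prelude.Def_ModularCurve_GenusNumerics

set_option autoImplicit false

open UpperHalfPlane ModularForm Matrix.SpecialLinearGroup
open scoped MatrixGroups ModularForm Manifold

namespace Fermat.Agent.S20

/-- Γ₀(N) as a subgroup of GL(2,ℝ) (this is what the coercion in the frozen statement unfolds to). -/
abbrev G0 (N : ℕ) : Subgroup (GL (Fin 2) ℝ) :=
  (CongruenceSubgroup.Gamma0 N).map (mapGL ℝ)

/-- the coset space SL(2,ℤ)/Γ₀(N) -/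
abbrev Q (N : ℕ) := SL(2, ℤ) ⧸ CongruenceSubgroup.Gamma0 N

instance instFiniteQ (N : ℕ) [NeZero N] : Finite (Q N) := by
  unfold Q
  infer_instance

noncomputable instance instFintypeQ (N : ℕ) [NeZero N] : Fintype (Q N) := Fintype.ofFinite _

noncomputable instance instDecEqQ (N : ℕ) : DecidableEq (Q N) := Classical.decEq _

theorem mapGL_mem_G0 {N : ℕ} {γ : SL(2, ℤ)} :
    (mapGL ℝ γ : GL (Fin 2) ℝ) ∈ G0 N ↔ γ ∈ CongruenceSubgroup.Gamma0 N := by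
  constructor
  · rintro ⟨δ, hδ, h⟩
    have : δ = γ := mapGL_injective h
    exact this ▸ hδ
  · intro h
    exact ⟨γ, h, rfl⟩

/-- slash invariance, in SL(2,ℤ) form -/
theorem slash_eq_of_mem {N : ℕ} {k : ℤ} {F : Type*} [FunLike F ℍ ℂ]
    [SlashInvariantFormClass F (G0 N) k] (f : F) {γ : SL(2, ℤ)}
    (hγ : γ ∈ CongruenceSubgroup.Gamma0 N) : (f : ℍ → ℂ) ∣[k] γ = f := by
  rw [SL_slash]
  exact SlashInvariantFormClass.slash_action_eq f _ (mapGL_mem_G0.mpr hγ)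

/-- every cusp of SL(2,ℤ) is a cusp of Γ₀(N) -/
theorem isCusp_G0 (N : ℕ) [NeZero N] (γ : SL(2, ℤ)) :
    IsCusp (mapGL ℝ γ • (OnePoint.infty : OnePoint ℝ)) (G0 N) := by
  rw [Subgroup.IsArithmetic.isCusp_iff_isCusp_SL2Z]
  exact isCusp_SL2Z_iff'.mpr ⟨γ, rfl⟩

/-- translates of modular forms are bounded at `i∞` -/
theorem isBoundedAtImInfty_slash {N : ℕ} [NeZero N] {k : ℤ} {F : Type*} [FunLike F ℍ ℂ]
    [ModularFormClass F (G0 N) k] (f : F) (γ : SL(2, ℤ)) :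
    IsBoundedAtImInfty ((f : ℍ → ℂ) ∣[k] γ) := by
  have h := ModularFormClass.bdd_at_cusps f (isCusp_G0 N γ)
  rw [SL_slash]
  exact h _ rfl

/-- translates of cusp forms vanish at `i∞` -/
theorem isZeroAtImInfty_slash {N : ℕ} [NeZero N] {k : ℤ} {F : Type*} [FunLike F ℍ ℂ]
    [CuspFormClass F (G0 N) k] (f : F) (γ : SL(2, ℤ)) :
    IsZeroAtImInfty ((f : ℍ → ℂ) ∣[k] γ) := by
  have h := CuspFormClass.zero_at_cusps f (isCusp_G0 N γ)
  rw [SL_slash]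
  exact h _ rfl

/-- Constructor for modular forms on Γ₀(N) from SL(2,ℤ)-data. -/
noncomputable def mkMF (N : ℕ) [NeZero N] (k : ℤ) (f : ℍ → ℂ) (hol : MDiff f)
    (inv : ∀ γ ∈ CongruenceSubgroup.Gamma0 N, f ∣[k] γ = f)
    (bdd : ∀ γ : SL(2, ℤ), IsBoundedAtImInfty (f ∣[k] γ)) : ModularForm (G0 N) k where
  toFun := f
  slash_action_eq' := by
    rintro _ ⟨γ, hγ, rfl⟩
    have := inv γ hγ
    rwa [SL_slash] at this
  holo' := hol
  bdd_at_cusps' := by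
    intro c hc
    rw [Subgroup.IsArithmetic.isCusp_iff_isCusp_SL2Z] at hc
    rw [OnePoint.isBoundedAt_iff_forall_SL2Z hc]
    intro γ _
    exact bdd γ

@[simp] theorem mkMF_apply (N : ℕ) [NeZero N] (k : ℤ) (f : ℍ → ℂ) (hol : MDiff f)
    (inv : ∀ γ ∈ CongruenceSubgroup.Gamma0 N, f ∣[k] γ = f)
    (bdd : ∀ γ : SL(2, ℤ), IsBoundedAtImInfty (f ∣[k] γ)) (z : ℍ) :
    mkMF N k f hol inv bdd z = f z := rfl

/-- Constructor for cusp forms on Γ₀(N) from SL(2,ℤ)-data. -/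
noncomputable def mkCF (N : ℕ) [NeZero N] (k : ℤ) (f : ℍ → ℂ) (hol : MDiff f)
    (inv : ∀ γ ∈ CongruenceSubgroup.Gamma0 N, f ∣[k] γ = f)
    (zero : ∀ γ : SL(2, ℤ), IsZeroAtImInfty (f ∣[k] γ)) : CuspForm (G0 N) k where
  toFun := f
  slash_action_eq' := by
    rintro _ ⟨γ, hγ, rfl⟩
    have := inv γ hγ
    rwa [SL_slash] at this
  holo' := hol
  zero_at_cusps' := by
    intro c hc
    rw [Subgroup.IsArithmetic.isCusp_iff_isCusp_SL2Z] at hc
    rw [OnePoint.isZeroAt_iff_forall_SL2Z hc]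
    intro γ _
    exact zero γ

@[simp] theorem mkCF_apply (N : ℕ) [NeZero N] (k : ℤ) (f : ℍ → ℂ) (hol : MDiff f)
    (inv : ∀ γ ∈ CongruenceSubgroup.Gamma0 N, f ∣[k] γ = f)
    (zero : ∀ γ : SL(2, ℤ), IsZeroAtImInfty (f ∣[k] γ)) (z : ℍ) :
    mkCF N k f hol inv zero z = f z := rfl

/-- level one forms are invariant under the slash action of SL(2,ℤ) -/
theorem levelOne_slash {k : ℤ} {F : Type*} [FunLike F ℍ ℂ]
    [SlashInvariantFormClass F 𝒮ℒ k] (r : F) (γ : SL(2, ℤ)) : (r : ℍ → ℂ) ∣[k] γ = r := by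
  rw [SL_slash]
  exact SlashInvariantFormClass.slash_action_eq r _ ⟨γ, rfl⟩

/-! ### conjugates -/

/-- conjugates of a function: `cj N k f x = f ∣[k] g⁻¹` for `x = g Γ₀(N)` -/
noncomputable def cj (N : ℕ) (k : ℤ) (f : ℍ → ℂ) (x : Q N) : ℍ → ℂ :=
  f ∣[k] (Quotient.out x)⁻¹

theorem cj_mk {N : ℕ} {k : ℤ} {F : Type*} [FunLike F ℍ ℂ]
    [SlashInvariantFormClass F (G0 N) k] (f : F) (g : SL(2, ℤ)) :
    cj N k f (QuotientGroup.mk g) = (f : ℍ → ℂ) ∣[k] g⁻¹ := by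
  unfold cj
  have h : (Quotient.out (QuotientGroup.mk g : Q N))⁻¹ * g ∈ CongruenceSubgroup.Gamma0 N := by
    have := QuotientGroup.mk_out_eq_mul (CongruenceSubgroup.Gamma0 N) g
    obtain ⟨h, hh⟩ := this
    rw [hh]
    simp
  have h2 : (Quotient.out (QuotientGroup.mk g : Q N))⁻¹ =
      ((Quotient.out (QuotientGroup.mk g : Q N))⁻¹ * g) * g⁻¹ := by group
  rw [h2, SlashAction.slash_mul, slash_eq_of_mem f h]

theorem cj_one {N : ℕ} {k : ℤ} {F : Type*} [FunLike F ℍ ℂ]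
    [SlashInvariantFormClass F (G0 N) k] (f : F) :
    cj N k f (QuotientGroup.mk 1) = f := by
  rw [cj_mk]; simp

theorem cj_slash {N : ℕ} {k : ℤ} {F : Type*} [FunLike F ℍ ℂ]
    [SlashInvariantFormClass F (G0 N) k] (f : F) (x : Q N) (g : SL(2, ℤ)) :
    (cj N k f x) ∣[k] g = cj N k f (g⁻¹ • x) := by
  induction x using QuotientGroup.induction_on with
  | H a =>
    rw [MulAction.Quotient.smul_mk, cj_mk, cj_mk, ← SlashAction.slash_mul]
    congr 1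
    simp [smul_eq_mul, mul_inv_rev]

/-- pointwise form of equivariance -/
theorem cj_smul_apply {N : ℕ} {k : ℤ} {F : Type*} [FunLike F ℍ ℂ]
    [SlashInvariantFormClass F (G0 N) k] (f : F) (x : Q N) (g : SL(2, ℤ)) (z : ℍ) :
    cj N k f x (g • z) = denom g z ^ k * cj N k f (g⁻¹ • x) z := by
  rw [← cj_slash, SL_slash_apply]
  have := denom_ne_zero g z
  rw [mul_comm, mul_assoc, ← zpow_add₀ (by simp)]
  simp

theorem cj_mdifferentiable {N : ℕ} {k : ℤ} {F : Type*} [FunLike F ℍ ℂ]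
    [ModularFormClass F (G0 N) k] (f : F) (x : Q N) : MDiff (cj N k f x) := by
  unfold cj
  rw [SL_slash]
  exact (ModularFormClass.holo f).slash k _

theorem cj_isBoundedAtImInfty {N : ℕ} [NeZero N] {k : ℤ} {F : Type*} [FunLike F ℍ ℂ]
    [ModularFormClass F (G0 N) k] (f : F) (x : Q N) : IsBoundedAtImInfty (cj N k f x) :=
  isBoundedAtImInfty_slash f _

theorem cj_isZeroAtImInfty {N : ℕ} [NeZero N] {k : ℤ} {F : Type*} [FunLike F ℍ ℂ]
    [CuspFormClass F (G0 N) k] (f : F) (x : Q N) : IsZeroAtImInfty (cj N k f x) :=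
  isZeroAtImInfty_slash f _

/-- conjugate of (level one form) * (form) -/
theorem cj_mul_levelOne (N : ℕ) {k₁ k₂ : ℤ} {F : Type*} [FunLike F ℍ ℂ]
    [SlashInvariantFormClass F 𝒮ℒ k₁] (r : F) (f : ℍ → ℂ) (x : Q N) :
    cj N (k₁ + k₂) ((r : ℍ → ℂ) * f) x = (r : ℍ → ℂ) * cj N k₂ f x := by
  unfold cj
  rw [mul_slash_SL2, levelOne_slash]

theorem cj_add (N : ℕ) (k : ℤ) (f g : ℍ → ℂ) (x : Q N) :
    cj N k (f + g) x = cj N k f x + cj N k g x := by
  unfold cj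
  exact SlashAction.add_slash _ _ _ _

theorem cj_sum (N : ℕ) (k : ℤ) {ι : Type*} (s : Finset ι) (f : ι → ℍ → ℂ) (x : Q N) :
    cj N k (∑ i ∈ s, f i) x = ∑ i ∈ s, cj N k (f i) x := by
  unfold cj
  exact SlashAction.sum_slash _ _

theorem cj_smul (N : ℕ) (k : ℤ) (c : ℂ) (f : ℍ → ℂ) (x : Q N) :
    cj N k (c • f) x = c • cj N k f x := by
  unfold cj
  exact SL_smul_slash _ _ _ _

end Fermat.Agent.S20
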