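import Fermat.Agent.S20.Basic

/-!
S20, packages PB9a and PB9b of the helper8180 skeleton v3 (author: helper3093).

* `Bdry.finrank_mf_eq_of_limits` (PB9a, any weight): if every `T`-invariant vector of constant
  terms is realised by a form of weight `k` (PB6b), then `dim M_k = dim S_k + #(T-orbits)`.
  Boundary map `bd N k f x = lim_{i∞} cj N k f x`; kernel = cusp forms, range = invariants.
* `Bdry.card_wt_cusp_of` (PB9b, raw data): `n₀ + n₂ = n₁₀ + #(T-orbits)` from PB9a, PB2f, PB8a.

`Basic.lean` is the verbatim copy of origin/helper8180.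
-/

set_option autoImplicit false

open UpperHalfPlane ModularForm Filter Topology Function
open scoped MatrixGroups ModularForm Manifold

namespace Fermat.Agent.S20

namespace Bdry

variable {N : ℕ}

/-- `T ^ N` acts trivially on `SL(2,ℤ)/Γ₀(N)`. -/
theorem T_zpow_smul (x : Q N) : (ModularGroup.T ^ (N : ℤ)) • x = x := by
  induction x using QuotientGroup.induction_on with
  | H g =>
    rw [MulAction.Quotient.smul_mk]
    refine QuotientGroup.eq.mpr ?_
    rw [CongruenceSubgroup.Gamma0_mem]
    simp only [smul_eq_mul, Matrix.SpecialLinearGroup.coe_mul, Matrix.SpecialLinearGroup.coe_inv,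
      ModularGroup.coe_T_zpow, Matrix.adjugate_fin_two, Matrix.mul_apply, Fin.sum_univ_two]
    simp
    ring_nf

/-- translation by one permutes the conjugates -/
theorem cj_vadd_one {k : ℤ} {F : Type*} [FunLike F ℍ ℂ]
    [SlashInvariantFormClass F (G0 N) k] (f : F) (x : Q N) (z : ℍ) :
    cj N k f x ((1 : ℝ) +ᵥ z) = cj N k f (ModularGroup.T⁻¹ • x) z := by
  have h := cj_smul_apply f x ModularGroup.T z
  rw [modular_T_smul] at h
  rw [h]
  have hd : denom (ModularGroup.T : SL(2, ℤ)) z = 1 := by
    rw [ModularGroup.denom_apply]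
    simp [ModularGroup.coe_T]
  rw [hd, one_zpow, one_mul]

/-- translation by `N` fixes the conjugates -/
theorem cj_vadd_N {k : ℤ} {F : Type*} [FunLike F ℍ ℂ]
    [SlashInvariantFormClass F (G0 N) k] (f : F) (x : Q N) (z : ℍ) :
    cj N k f x ((N : ℝ) +ᵥ z) = cj N k f x z := by
  have h := cj_smul_apply f x (ModularGroup.T ^ (N : ℤ)) z
  rw [modular_T_zpow_smul] at h
  have hd : denom ((ModularGroup.T ^ (N : ℤ) : SL(2, ℤ))) z = 1 := by
    rw [ModularGroup.denom_apply, ModularGroup.coe_T_zpow]
    simp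
  rw [hd, one_zpow, one_mul, ← zpow_neg] at h
  have hx : (ModularGroup.T ^ (-(N : ℤ))) • x = x := by
    conv_lhs => rw [← T_zpow_smul x]
    rw [← mul_smul, ← zpow_add]
    simp
  rw [hx] at h
  simpa using h

/-- periodicity on `ℍ` transfers to `∘ ofComplex` -/
theorem periodic_comp_ofComplex {g : ℍ → ℂ} {h : ℝ} (hg : ∀ z : ℍ, g (h +ᵥ z) = g z) :
    Function.Periodic (g ∘ ofComplex) h := by
  intro w
  by_cases! hw : 0 < Complex.im w
  · have hw' : 0 < Complex.im (w + h) := by simp [hw]
    simp only [comp_apply, ofComplex_apply_of_im_pos hw', ofComplex_apply_of_im_pos hw]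
    rw [← hg ⟨w, hw⟩]
    congr 1
    ext
    simp [add_comm]
  · have hw' : Complex.im (w + h) ≤ 0 := by simpa using hw
    simp [ofComplex_apply_of_im_nonpos hw', ofComplex_apply_of_im_nonpos hw]

/-- a periodic holomorphic function on `ℍ` which is bounded at `i∞` has a limit at `i∞` -/
theorem tendsto_valueAtInfty {g : ℍ → ℂ} {h : ℝ} (hh : 0 < h)
    (hg : ∀ z : ℍ, g (h +ᵥ z) = g z) (hol : MDiff g) (bdd : IsBoundedAtImInfty g) :
    Tendsto g atImInfty (𝓝 (valueAtInfty g)) := by
  have hper := periodic_comp_ofComplex hg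
  have han := analyticAt_cuspFunction_zero hh hper hol bdd
  rw [← cuspFunction_apply_zero hh han hper]
  have : (cuspFunction h g ∘ fun τ : ℍ ↦ Function.Periodic.qParam h τ : ℍ → ℂ) = g := by
    funext τ
    simpa using eq_cuspFunction τ hh.ne' hper
  simpa [this] using han.continuousAt.tendsto.comp (qParam_tendsto_atImInfty hh)

variable [NeZero N]

/-- the conjugates of a modular form have limits at `i∞` -/
theorem tendsto_cj {k : ℤ} (f : ModularForm (G0 N) k) (x : Q N) :
    Tendsto (cj N k f x) atImInfty (𝓝 (valueAtInfty (cj N k f x))) :=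
  tendsto_valueAtInfty (h := (N : ℝ)) (by exact_mod_cast Nat.pos_of_ne_zero (NeZero.ne N))
    (cj_vadd_N f x) (cj_mdifferentiable f x) (cj_isBoundedAtImInfty f x)

/-- the boundary map: the vector of limits of the conjugates at `i∞` -/
noncomputable def bd (N : ℕ) [NeZero N] (k : ℤ) : ModularForm (G0 N) k →ₗ[ℂ] (Q N → ℂ) where
  toFun f x := valueAtInfty (cj N k f x)
  map_add' f g := by
    funext x
    have h1 := (tendsto_cj f x).add (tendsto_cj g x)
    have h3 : cj N k (⇑(f + g)) x = fun z => cj N k f x z + cj N k g x z := by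
      rw [show (⇑(f + g) : ℍ → ℂ) = ⇑f + ⇑g from rfl, cj_add]; rfl
    have h2 := (tendsto_cj (f + g) x).congr (fun z => congrFun h3 z)
    exact tendsto_nhds_unique h2 h1
  map_smul' c f := by
    funext x
    have h1 := (tendsto_cj f x).const_smul c
    have h3 : cj N k (⇑(c • f)) x = fun z => c • cj N k f x z := by
      rw [show (⇑(c • f) : ℍ → ℂ) = c • ⇑f from rfl, cj_smul]; rfl
    have h2 := (tendsto_cj (c • f) x).congr (fun z => congrFun h3 z)
    exact tendsto_nhds_unique h2 h1

theorem bd_apply {k : ℤ} (f : ModularForm (G0 N) k) (x : Q N) :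
    bd N k f x = valueAtInfty (cj N k f x) := rfl

theorem tendsto_bd {k : ℤ} (f : ModularForm (G0 N) k) (x : Q N) :
    Tendsto (cj N k f x) atImInfty (𝓝 (bd N k f x)) := tendsto_cj f x

theorem bd_eq_of_tendsto {k : ℤ} (f : ModularForm (G0 N) k) {e : Q N → ℂ}
    (he : ∀ x, Tendsto (cj N k f x) atImInfty (𝓝 (e x))) : bd N k f = e := by
  funext x
  exact tendsto_nhds_unique (tendsto_bd f x) (he x)

theorem tendsto_vadd_one : Tendsto (fun z : ℍ => (1 : ℝ) +ᵥ z) atImInfty atImInfty := by
  rw [atImInfty, tendsto_comap_iff]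
  have : (UpperHalfPlane.im ∘ fun z : ℍ => (1 : ℝ) +ᵥ z) = UpperHalfPlane.im := by
    funext z; simp [UpperHalfPlane.vadd_im]
  rw [this]
  exact tendsto_comap

/-- the limit vector is `T`-invariant -/
theorem bd_T {k : ℤ} (f : ModularForm (G0 N) k) (x : Q N) :
    bd N k f (ModularGroup.T • x) = bd N k f x := by
  have h1 : Tendsto (fun z : ℍ => cj N k f (ModularGroup.T • x) ((1 : ℝ) +ᵥ z)) atImInfty
      (𝓝 (bd N k f (ModularGroup.T • x))) := (tendsto_bd f (ModularGroup.T • x)).comp tendsto_vadd_one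
  have h2 : (fun z : ℍ => cj N k f (ModularGroup.T • x) ((1 : ℝ) +ᵥ z)) = cj N k f x := by
    funext z
    rw [cj_vadd_one, inv_smul_smul]
  rw [h2] at h1
  exact tendsto_nhds_unique h1 (tendsto_bd f x)

/-- kernel of the boundary map = cusp forms -/
theorem bd_eq_zero_iff {k : ℤ} (f : ModularForm (G0 N) k) :
    bd N k f = 0 ↔ ∃ g : CuspForm (G0 N) k, CuspForm.toModularFormₗ g = f := by
  constructor
  · intro h
    have hz : ∀ γ : SL(2, ℤ), IsZeroAtImInfty ((f : ℍ → ℂ) ∣[k] γ) := by
      intro γ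
      have h1 := tendsto_bd f (QuotientGroup.mk γ⁻¹)
      rw [h, cj_mk, inv_inv] at h1
      exact h1
    refine ⟨mkCF N k f (ModularFormClass.holo f) (fun γ hγ => slash_eq_of_mem f hγ) hz, ?_⟩
    ext z
    rfl
  · rintro ⟨g, rfl⟩
    funext x
    have h1 : IsZeroAtImInfty (cj N k g x) := cj_isZeroAtImInfty g x
    exact h1.valueAtInfty_eq_zero

/-! ### `T`-invariant vectors -/

/-- the orbit space of `⟨T⟩` on `SL(2,ℤ)/Γ₀(N)` -/
abbrev Orb (N : ℕ) := MulAction.orbitRel.Quotient (Subgroup.zpowers ModularGroup.T) (Q N)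

/-- the submodule of `T`-invariant vectors -/
def invSub (N : ℕ) : Submodule ℂ (Q N → ℂ) where
  carrier := {e | ∀ x, e (ModularGroup.T • x) = e x}
  add_mem' := by
    intro a b ha hb x
    have h1 := ha x
    have h2 := hb x
    simp [h1, h2]
  zero_mem' := by intro x; simp
  smul_mem' := by
    intro c a ha x
    have h1 := ha x
    simp [h1]

omit [NeZero N] in
theorem mem_invSub {e : Q N → ℂ} : e ∈ invSub N ↔ ∀ x, e (ModularGroup.T • x) = e x := Iff.rfl

/-- pull-back of functions on the orbit space -/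
def pull (N : ℕ) : (Orb N → ℂ) →ₗ[ℂ] (Q N → ℂ) where
  toFun φ x := φ (Quotient.mk'' x)
  map_add' _ _ := rfl
  map_smul' _ _ := rfl

omit [NeZero N] in
theorem pull_injective : Function.Injective (pull N) := by
  intro φ ψ h
  funext o
  induction o using Quotient.inductionOn' with
  | h x => exact congrFun h x

omit [NeZero N] in
theorem inv_zpow_smul {e : Q N → ℂ} (he : ∀ x, e (ModularGroup.T • x) = e x) (n : ℤ) (x : Q N) :
    e ((ModularGroup.T ^ n) • x) = e x := by
  induction n using Int.induction_on generalizing x with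
  | zero => simp
  | succ n ih =>
    rw [zpow_add_one, mul_smul, ih]
    exact he x
  | pred n ih =>
    rw [zpow_sub_one, mul_smul, ih]
    have := he (ModularGroup.T⁻¹ • x)
    rw [smul_inv_smul] at this
    exact this.symm

omit [NeZero N] in
theorem range_pull : LinearMap.range (pull N) = invSub N := by
  ext e
  constructor
  · rintro ⟨φ, rfl⟩ x
    show φ (Quotient.mk'' (ModularGroup.T • x)) = φ (Quotient.mk'' x)
    congr 1
    refine Quotient.sound' ?_
    rw [MulAction.orbitRel_apply]
    exact ⟨⟨ModularGroup.T, Subgroup.mem_zpowers _⟩, rfl⟩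
  · intro he
    rw [mem_invSub] at he
    refine ⟨fun o => Quotient.liftOn' o e ?_, ?_⟩
    · intro a b hab
      rw [MulAction.orbitRel_apply] at hab
      obtain ⟨⟨t, n, rfl⟩, ht⟩ := hab
      rw [← ht]
      exact inv_zpow_smul he n b
    · funext x
      rfl

theorem finrank_invSub : Module.finrank ℂ (invSub N) = Nat.card (Orb N) := by
  rw [← range_pull, LinearMap.finrank_range_of_inj pull_injective]
  have : Fintype (Orb N) := Fintype.ofFinite _
  rw [Module.finrank_fintype_fun_eq_card, Nat.card_eq_fintype_card]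

theorem range_bd {k : ℤ}
    (hsurj : ∀ e : Q N → ℂ, (∀ x, e (ModularGroup.T • x) = e x) →
      ∃ f : ModularForm (G0 N) k, ∀ x, Tendsto (cj N k f x) atImInfty (𝓝 (e x))) :
    LinearMap.range (bd N k) = invSub N := by
  ext e
  constructor
  · rintro ⟨f, rfl⟩ x
    exact bd_T f x
  · intro he
    obtain ⟨f, hf⟩ := hsurj e he
    exact ⟨f, bd_eq_of_tendsto f hf⟩

theorem ker_bd (k : ℤ) :
    LinearMap.ker (bd N k) = LinearMap.range (CuspForm.toModularFormₗ (Γ := G0 N) (k := k)) := by
  ext f
  rw [LinearMap.mem_ker, bd_eq_zero_iff, LinearMap.mem_range]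

/-- **PB9a** (general weight): if every `T`-invariant vector of constant terms is realised in
weight `k`, then `dim M_k = dim S_k + #cusps`. -/
theorem finrank_mf_eq_of_limits {k : ℤ} [FiniteDimensional ℂ (ModularForm (G0 N) k)]
    (hsurj : ∀ e : Q N → ℂ, (∀ x, e (ModularGroup.T • x) = e x) →
      ∃ f : ModularForm (G0 N) k, ∀ x, Tendsto (cj N k f x) atImInfty (𝓝 (e x))) :
    Module.finrank ℂ (ModularForm (G0 N) k) = Module.finrank ℂ (CuspForm (G0 N) k)
      + Nat.card (MulAction.orbitRel.Quotient (Subgroup.zpowers ModularGroup.T) (Q N)) := by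
  have h := LinearMap.finrank_range_add_finrank_ker (bd N k)
  rw [range_bd hsurj, finrank_invSub, ker_bd,
    LinearMap.finrank_range_of_inj CuspForm.toModularFormₗ_injective] at h
  rw [← h]
  exact add_comm _ _

/-! ### PB9b: the weight count -/

/-- level one dimensions, `finrank` form -/
theorem finrank_levelOne_nat (k : ℕ) (hk : Even k) :
    Module.finrank ℂ (ModularForm 𝒮ℒ (k : ℤ)) = if k % 12 = 2 then k / 12 else k / 12 + 1 := by
  have h := ModularForm.dimension_level_one k hk
  unfold Module.finrank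
  rw [h]
  split_ifs with h1 h2 h2
  · simp
  · exact absurd h1 h2
  · exact absurd h2 h1
  · simp

theorem finrank_levelOne_two : Module.finrank ℂ (ModularForm 𝒮ℒ 2) = 0 := by
  have := finrank_levelOne_nat 2 (by decide)
  simpa using this

theorem finrank_levelOne_four : Module.finrank ℂ (ModularForm 𝒮ℒ 4) = 1 := by
  have := finrank_levelOne_nat 4 (by decide)
  simpa using this

theorem finrank_levelOne_six : Module.finrank ℂ (ModularForm 𝒮ℒ 6) = 1 := by
  have := finrank_levelOne_nat 6 (by decide)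
  simpa using this

theorem finrank_levelOne_eight : Module.finrank ℂ (ModularForm 𝒮ℒ 8) = 1 := by
  have := finrank_levelOne_nat 8 (by decide)
  simpa using this

theorem finrank_levelOne_ten : Module.finrank ℂ (ModularForm 𝒮ℒ 10) = 1 := by
  have := finrank_levelOne_nat 10 (by decide)
  simpa using this

theorem finrank_levelOne_twelve : Module.finrank ℂ (ModularForm 𝒮ℒ 12) = 2 := by
  have := finrank_levelOne_nat 12 (by decide)
  simpa using this

theorem finrank_levelOne_fourteen : Module.finrank ℂ (ModularForm 𝒮ℒ 14) = 1 := by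
  have := finrank_levelOne_nat 14 (by decide)
  simpa using this

/-- level one dimension as a function of the weight -/
noncomputable def lvl (k : ℤ) : ℕ := Module.finrank ℂ (ModularForm 𝒮ℒ k)

theorem lvl_pointwise (w : ℤ) (h0 : 0 ≤ w) (h10 : w ≤ 10) (hev : Even w) :
    lvl (14 - w) + (if w = 10 then 1 else 0)
      = lvl (14 + w - 12) + (if w = 0 then 1 else 0) + (if w = 2 then 1 else 0) := by
  obtain ⟨m, rfl⟩ := hev
  have hm0 : 0 ≤ m := by omega
  have hm5 : m ≤ 5 := by omega
  have e2 : lvl 2 = 0 := finrank_levelOne_two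
  have e4 : lvl 4 = 1 := finrank_levelOne_four
  have e6 : lvl 6 = 1 := finrank_levelOne_six
  have e10 : lvl 10 = 1 := finrank_levelOne_ten
  have e12 : lvl 12 = 2 := finrank_levelOne_twelve
  have e14 : lvl 14 = 1 := finrank_levelOne_fourteen
  interval_cases m <;> norm_num <;> simp [e2, e4, e6, e10, e12, e14]

theorem natCard_subtype_eq_sum {ι : Type} [Fintype ι] (wt : ι → ℤ) (a : ℤ) :
    Nat.card {i : ι // wt i = a} = ∑ i, (if wt i = a then 1 else 0) := by
  classical
  rw [Nat.card_eq_fintype_card, Fintype.card_subtype, Finset.card_filter]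

omit [NeZero N] in
/-- **PB9b** (raw form): `n₀ + n₂ = n₁₀ + #cusps` from the weight-14 dimension count. -/
theorem card_wt_cusp_of {ι : Type} [Fintype ι] (wt : ι → ℤ)
    (hwt : ∀ i, 0 ≤ wt i ∧ wt i ≤ 10 ∧ Even (wt i))
    (hM : Module.finrank ℂ (ModularForm (G0 N) 14)
      = ∑ i, Module.finrank ℂ (ModularForm 𝒮ℒ (14 - wt i)))
    (hS : Module.finrank ℂ (CuspForm (G0 N) 14)
      = ∑ i, Module.finrank ℂ (ModularForm 𝒮ℒ (14 + wt i - 12)))
    (h14 : Module.finrank ℂ (ModularForm (G0 N) 14) = Module.finrank ℂ (CuspForm (G0 N) 14)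
      + Nat.card (MulAction.orbitRel.Quotient (Subgroup.zpowers ModularGroup.T) (Q N))) :
    Nat.card {i : ι // wt i = 0} + Nat.card {i : ι // wt i = 2}
      = Nat.card {i : ι // wt i = 10}
        + Nat.card (MulAction.orbitRel.Quotient (Subgroup.zpowers ModularGroup.T) (Q N)) := by
  have key : ∑ i, (lvl (14 - wt i) + (if wt i = 10 then 1 else 0))
      = ∑ i, (lvl (14 + wt i - 12) + (if wt i = 0 then 1 else 0) + (if wt i = 2 then 1 else 0)) :=
    Finset.sum_congr rfl fun i _ => lvl_pointwise (wt i) (hwt i).1 (hwt i).2.1 (hwt i).2.2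
  simp only [Finset.sum_add_distrib] at key
  rw [natCard_subtype_eq_sum wt 0, natCard_subtype_eq_sum wt 2, natCard_subtype_eq_sum wt 10]
  have hM' : Module.finrank ℂ (ModularForm (G0 N) 14) = ∑ i, lvl (14 - wt i) := hM
  have hS' : Module.finrank ℂ (CuspForm (G0 N) 14) = ∑ i, lvl (14 + wt i - 12) := hS
  omega

end Bdry

end Fermat.Agent.S20
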