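import Mathlib

set_option autoImplicit false

namespace Fermat.Agent.S20

/-- the final arithmetic: abstract version -/
theorem arith_core {ι : Type} [Fintype ι] (wt : ι → ℤ) (μ c f2 f3 : ℕ)
    (hw : ∀ i, 0 ≤ wt i ∧ wt i ≤ 10 ∧ Even (wt i))
    (h0 : Nat.card {i : ι // wt i = 0} = 1)
    (hcard : Fintype.card ι = μ)
    (hcusp : Nat.card {i : ι // wt i = 0} + Nat.card {i : ι // wt i = 2}
      = Nat.card {i : ι // wt i = 10} + c)
    (hI : ∑ i, (Complex.I : ℂ) ^ (wt i) = (f2 : ℂ))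
    (hω : ∑ i, (Complex.exp (Real.pi * Complex.I / 3)) ^ (wt i) = (f3 : ℂ)) :
    (12 : ℤ) * Nat.card {i : ι // wt i = 10} = 12 + μ - 3 * f2 - 4 * f3 - 6 * c := by
  classical
  -- counts
  set n : ℤ → ℤ := fun w => ((Finset.univ.filter fun i => wt i = w).card : ℤ) with hn
  have hcardn : ∀ w : ℤ, (Nat.card {i : ι // wt i = w} : ℤ) = n w := by
    intro w
    simp [hn, Nat.card_eq_fintype_card, Fintype.card_subtype]
  -- fiberwise decomposition
  have hmem : ∀ i, wt i ∈ ({0, 2, 4, 6, 8, 10} : Finset ℤ) := by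
    intro i
    obtain ⟨h1, h2, h3⟩ := hw i
    obtain ⟨m, hm⟩ := h3
    have : m ∈ Finset.Icc (0 : ℤ) 5 := by simp; omega
    have hm' : wt i = 2 * m := by omega
    rw [hm']
    fin_cases this <;> simp
  have hfib : ∀ (M : Type) [AddCommMonoid M] (φ : ℤ → M),
      ∑ i, φ (wt i) = ∑ w ∈ ({0, 2, 4, 6, 8, 10} : Finset ℤ),
        (Finset.univ.filter fun i => wt i = w).card • φ w := by
    intro M _ φ
    rw [← Finset.sum_fiberwise_of_maps_to (s := Finset.univ) (t := ({0, 2, 4, 6, 8, 10} : Finset ℤ))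
      (g := wt) (fun i _ => hmem i)]
    refine Finset.sum_congr rfl fun w _ => ?_
    rw [Finset.sum_congr rfl (fun i hi => by rw [(Finset.mem_filter.mp hi).2]), Finset.sum_const]
  have e1 : (μ : ℤ) = n 0 + n 2 + n 4 + n 6 + n 8 + n 10 := by
    have := hfib ℤ (fun _ => 1)
    simp only [Finset.sum_const, Finset.card_univ, mul_one, nsmul_eq_mul] at this
    rw [hcard] at this
    rw [this]
    simp [hn, Finset.sum_insert]
    ring
  have e2 : n 0 + n 2 = n 10 + c := by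
    rw [← hcardn 0, ← hcardn 2, ← hcardn 10]
    exact_mod_cast hcusp
  have hI2 : (Complex.I : ℂ) ^ (2 : ℤ) = -1 := by
    rw [show (2 : ℤ) = ((2 : ℕ) : ℤ) by rfl, zpow_natCast]; exact Complex.I_sq
  have e3 : (f2 : ℂ) = n 0 - n 2 + n 4 - n 6 + n 8 - n 10 := by
    have := hfib ℂ (fun w => Complex.I ^ w)
    rw [hI] at this
    rw [this]
    have p4 : (Complex.I : ℂ) ^ (4 : ℤ) = 1 := by
      rw [show (4 : ℤ) = 2 + 2 by norm_num, zpow_add₀ Complex.I_ne_zero, hI2]; norm_num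
    have p6 : (Complex.I : ℂ) ^ (6 : ℤ) = -1 := by
      rw [show (6 : ℤ) = 4 + 2 by norm_num, zpow_add₀ Complex.I_ne_zero, hI2, p4]; norm_num
    have p8 : (Complex.I : ℂ) ^ (8 : ℤ) = 1 := by
      rw [show (8 : ℤ) = 4 + 4 by norm_num, zpow_add₀ Complex.I_ne_zero, p4]; norm_num
    have p10 : (Complex.I : ℂ) ^ (10 : ℤ) = -1 := by
      rw [show (10 : ℤ) = 8 + 2 by norm_num, zpow_add₀ Complex.I_ne_zero, hI2, p8]; norm_num
    simp [hn, Finset.sum_insert, hI2, p4, p6, p8, p10]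
    ring
  -- the sixth root of unity
  set ω : ℂ := Complex.exp (Real.pi * Complex.I / 3) with hωdef
  have hω0 : ω ≠ 0 := Complex.exp_ne_zero _
  have hω3 : ω ^ (3 : ℤ) = -1 := by
    rw [show (3 : ℤ) = ((3 : ℕ) : ℤ) by rfl, zpow_natCast, hωdef, ← Complex.exp_nat_mul]
    rw [show ((3 : ℕ) : ℂ) * (Real.pi * Complex.I / 3) = Real.pi * Complex.I by push_cast; ring]
    exact Complex.exp_pi_mul_I
  have hωre : ω.re = 1 / 2 := by
    rw [hωdef, show (Real.pi : ℂ) * Complex.I / 3 = ((Real.pi / 3 : ℝ) : ℂ) * Complex.I by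
      push_cast; ring, Complex.exp_ofReal_mul_I_re, Real.cos_pi_div_three]
  have hωim : ω.im = Real.sqrt 3 / 2 := by
    rw [hωdef, show (Real.pi : ℂ) * Complex.I / 3 = ((Real.pi / 3 : ℝ) : ℂ) * Complex.I by
      push_cast; ring, Complex.exp_ofReal_mul_I_im, Real.sin_pi_div_three]
  have hω2 : ω ^ (2 : ℤ) = ω - 1 := by
    have h1 : (ω + 1) * (ω ^ 2 - ω + 1) = 0 := by
      have : ω ^ 3 = -1 := by exact_mod_cast hω3
      ring_nf; rw [this]; ring
    have h2 : ω + 1 ≠ 0 := by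
      intro h
      have := congrArg Complex.re h
      simp [hωre] at this
      norm_num at this
    have h3 := (mul_eq_zero.mp h1).resolve_left h2
    rw [show (2 : ℤ) = ((2 : ℕ) : ℤ) by rfl, zpow_natCast]
    linear_combination h3
  have q4 : ω ^ (4 : ℤ) = -ω := by
    rw [show (4 : ℤ) = 3 + 1 by norm_num, zpow_add₀ hω0, hω3]; simp
  have q6 : ω ^ (6 : ℤ) = 1 := by
    rw [show (6 : ℤ) = 3 + 3 by norm_num, zpow_add₀ hω0, hω3]; norm_num
  have q8 : ω ^ (8 : ℤ) = ω - 1 := by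
    rw [show (8 : ℤ) = 6 + 2 by norm_num, zpow_add₀ hω0, hω2, q6]; ring
  have q10 : ω ^ (10 : ℤ) = -ω := by
    rw [show (10 : ℤ) = 6 + 4 by norm_num, zpow_add₀ hω0, q4, q6]; ring
  have e4 : (f3 : ℂ) = (n 0 - n 2 + n 6 - n 8 : ℤ) + ω * (n 2 - n 4 + n 8 - n 10 : ℤ) := by
    have := hfib ℂ (fun w => ω ^ w)
    rw [hω] at this
    rw [this]
    simp [hn, Finset.sum_insert, hω2, q4, q6, q8, q10]
    ring
  have e5 : n 2 - n 4 + n 8 - n 10 = 0 := by
    have := congrArg Complex.im e4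
    simp [hωim] at this
    exact_mod_cast this
  have e6 : (f3 : ℤ) = n 0 - n 2 + n 6 - n 8 := by
    have := congrArg Complex.re e4
    rw [e5] at this
    simp at this
    exact_mod_cast this
  have e3' : (f2 : ℤ) = n 0 - n 2 + n 4 - n 6 + n 8 - n 10 := by exact_mod_cast e3
  have e0 : n 0 = 1 := by rw [← hcardn 0, h0]; rfl
  rw [hcardn 10]
  linarith

end Fermat.Agent.S20
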