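import Fermat.Agent.S20.CardLe

/-!
Easy facts about a free basis of `⨁ₖ M_k(Γ₀(N))` over the level one forms, stated with explicit
hypotheses `span`, `indep` (the fields of `FreeBasis` in the skeleton):
weights are even and nonnegative, exactly one generator has weight `0`,
and the number of generators is at most the index.
-/

set_option autoImplicit false

open UpperHalfPlane ModularForm
open scoped MatrixGroups ModularForm Manifold

namespace Fermat.Agent.S20

theorem wt_even_of_indep (N : ℕ) [NeZero N] {ι : Type} [Fintype ι] (wt : ι → ℤ)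
    (F : (i : ι) → ModularForm (G0 N) (wt i))
    (indep : ∀ (k : ℤ) (r : (i : ι) → ModularForm 𝒮ℒ (k - wt i)),
      (∀ z, ∑ i, r i z * F i z = 0) → ∀ i, r i = 0) (i : ι) : Even (wt i) :=
  (even_nonneg_of_ne_zero N (F i) (F_ne_zero_of_indep N wt F indep i)).1

theorem wt_nonneg_of_indep (N : ℕ) [NeZero N] {ι : Type} [Fintype ι] (wt : ι → ℤ)
    (F : (i : ι) → ModularForm (G0 N) (wt i))
    (indep : ∀ (k : ℤ) (r : (i : ι) → ModularForm 𝒮ℒ (k - wt i)),
      (∀ z, ∑ i, r i z * F i z = 0) → ∀ i, r i = 0) (i : ι) : 0 ≤ wt i :=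
  (even_nonneg_of_ne_zero N (F i) (F_ne_zero_of_indep N wt F indep i)).2

theorem combₗ_surjective (N : ℕ) [NeZero N] {ι : Type} [Fintype ι] (wt : ι → ℤ)
    (F : (i : ι) → ModularForm (G0 N) (wt i))
    (span : ∀ (k : ℤ) (f : ModularForm (G0 N) k),
      ∃ r : (i : ι) → ModularForm 𝒮ℒ (k - wt i), ∀ z, f z = ∑ i, r i z * F i z) (k : ℤ) :
    Function.Surjective (combₗ N wt F k) := by
  intro f
  obtain ⟨r, hr⟩ := span k f
  refine ⟨r, ?_⟩
  ext z
  rw [hr z]
  rfl

/-- the dimension of `M_k(Γ₀(N))` in terms of a free basis -/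
theorem finrank_eq_sum_of_basis (N : ℕ) [NeZero N] {ι : Type} [Fintype ι] (wt : ι → ℤ)
    (F : (i : ι) → ModularForm (G0 N) (wt i))
    (span : ∀ (k : ℤ) (f : ModularForm (G0 N) k),
      ∃ r : (i : ι) → ModularForm 𝒮ℒ (k - wt i), ∀ z, f z = ∑ i, r i z * F i z)
    (indep : ∀ (k : ℤ) (r : (i : ι) → ModularForm 𝒮ℒ (k - wt i)),
      (∀ z, ∑ i, r i z * F i z = 0) → ∀ i, r i = 0) (k : ℤ) :
    Module.finrank ℂ (ModularForm (G0 N) k)
      = ∑ i, Module.finrank ℂ (ModularForm 𝒮ℒ (k - wt i)) := by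
  have e := LinearEquiv.ofBijective (combₗ N wt F k)
    ⟨combₗ_injective N wt F indep k, combₗ_surjective N wt F span k⟩
  rw [← e.finrank_eq, Module.finrank_pi_fintype]

theorem finrank_levelOne_of_eq_zero {m : ℤ} (h : m = 0) :
    Module.finrank ℂ (ModularForm 𝒮ℒ m) = 1 := by
  subst h
  have := ModularForm.levelOne_weight_zero_rank_one
  unfold Module.finrank
  rw [this]
  simp

theorem finrank_levelOne_of_neg {m : ℤ} (h : m < 0) :
    Module.finrank ℂ (ModularForm 𝒮ℒ m) = 0 := by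
  have := ModularForm.levelOne_neg_weight_rank_zero h
  unfold Module.finrank
  rw [this]
  simp

theorem finrank_weight_zero_G0 (N : ℕ) [NeZero N] :
    Module.finrank ℂ (ModularForm (G0 N) 0) = 1 := by
  refine (finrank_eq_one_iff_of_nonzero' (ModularForm.const 1 : ModularForm (G0 N) 0) ?_).mpr ?_
  · intro h
    have := DFunLike.congr_fun h UpperHalfPlane.I
    simp at this
  · intro f
    obtain ⟨c, hc⟩ := ModularForm.eq_const_of_weight_zero f
    refine ⟨c, ?_⟩
    ext z
    simp [hc]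

theorem card_wt_zero_of_basis (N : ℕ) [NeZero N] {ι : Type} [Fintype ι] (wt : ι → ℤ)
    (F : (i : ι) → ModularForm (G0 N) (wt i))
    (span : ∀ (k : ℤ) (f : ModularForm (G0 N) k),
      ∃ r : (i : ι) → ModularForm 𝒮ℒ (k - wt i), ∀ z, f z = ∑ i, r i z * F i z)
    (indep : ∀ (k : ℤ) (r : (i : ι) → ModularForm 𝒮ℒ (k - wt i)),
      (∀ z, ∑ i, r i z * F i z = 0) → ∀ i, r i = 0) :
    Nat.card {i : ι // wt i = 0} = 1 := by
  classical
  have h := finrank_eq_sum_of_basis N wt F span indep 0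
  rw [finrank_weight_zero_G0] at h
  have h2 : ∀ i, Module.finrank ℂ (ModularForm 𝒮ℒ (0 - wt i)) = if wt i = 0 then 1 else 0 := by
    intro i
    have h0 := wt_nonneg_of_indep N wt F indep i
    split_ifs with hi
    · exact finrank_levelOne_of_eq_zero (by omega)
    · exact finrank_levelOne_of_neg (by omega)
  simp_rw [h2] at h
  rw [Nat.card_eq_fintype_card, Fintype.card_subtype, h]
  simp

end Fermat.Agent.S20
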