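import Mathlib
import Fermat.Prelude.Def_ModularCurve_GenusNumerics

set_option autoImplicit false

open Matrix MatrixGroups CongruenceSubgroup

namespace Fermat.Agent.S20.CuspCount

theorem inv_mul_one_zero (g h : SL(2, ℤ)) :
    (g⁻¹ * h) 1 0 = g 0 0 * h 1 0 - g 1 0 * h 0 0 := by
  have h1 := (Matrix.two_mul_expl (g⁻¹).1 h.1).2.2.1
  have h2 : ((g⁻¹ * h : SL(2, ℤ)) : Matrix (Fin 2) (Fin 2) ℤ) = (g⁻¹).1 * h.1 := rfl
  have h3 := Matrix.SpecialLinearGroup.SL2_inv_expl g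
  have h4 : (g⁻¹).1 1 0 = - g 1 0 := by rw [h3]; rfl
  have h5 : (g⁻¹).1 1 1 = g 0 0 := by rw [h3]; rfl
  show ((g⁻¹ * h : SL(2, ℤ)) : Matrix (Fin 2) (Fin 2) ℤ) 1 0 = _
  rw [h2, h1, h4, h5]
  ring

theorem coset_eq_iff (N : ℕ) (g h : SL(2, ℤ)) :
    (QuotientGroup.mk g : SL(2, ℤ) ⧸ Gamma0 N) = QuotientGroup.mk h ↔
      (N : ℤ) ∣ g 0 0 * h 1 0 - g 1 0 * h 0 0 := by
  rw [QuotientGroup.eq, Gamma0_mem, ZMod.intCast_zmod_eq_zero_iff_dvd, inv_mul_one_zero]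

theorem isCoprime_col (g : SL(2, ℤ)) : IsCoprime (g 0 0) (g 1 0) := by
  have h := g.2
  rw [Matrix.det_fin_two] at h
  exact ⟨g 1 1, -g 0 1, by linarith⟩

theorem exists_col (a c : ℤ) (h : IsCoprime a c) :
    ∃ g : SL(2, ℤ), g 0 0 = a ∧ g 1 0 = c := by
  obtain ⟨u, v, huv⟩ := h
  refine ⟨⟨!![a, -v; c, u], ?_⟩, rfl, rfl⟩
  rw [Matrix.det_fin_two_of]; linarith

theorem T_zpow_mul_col (j : ℤ) (g : SL(2, ℤ)) :
    (ModularGroup.T ^ j * g) 0 0 = g 0 0 + j * g 1 0 ∧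
      (ModularGroup.T ^ j * g) 1 0 = g 1 0 := by
  have h2 : ((ModularGroup.T ^ j * g : SL(2, ℤ)) : Matrix (Fin 2) (Fin 2) ℤ)
      = (ModularGroup.T ^ j).1 * g.1 := rfl
  have h1 := Matrix.two_mul_expl (ModularGroup.T ^ j).1 g.1
  have h3 := ModularGroup.coe_T_zpow j
  constructor
  · show ((ModularGroup.T ^ j * g : SL(2, ℤ)) : Matrix (Fin 2) (Fin 2) ℤ) 0 0 = _
    rw [h2, h1.1, h3]; simp
  · show ((ModularGroup.T ^ j * g : SL(2, ℤ)) : Matrix (Fin 2) (Fin 2) ℤ) 1 0 = _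
    rw [h2, h1.2.2.1, h3]; simp

/-- The orbit relation for `⟨T⟩` acting on `SL(2,ℤ) ⧸ Γ₀(N)`. -/
theorem orbit_mk_eq_iff (N : ℕ) (g h : SL(2, ℤ)) :
    (Quotient.mk'' (QuotientGroup.mk g : SL(2, ℤ) ⧸ Gamma0 N) :
       MulAction.orbitRel.Quotient (Subgroup.zpowers ModularGroup.T) (SL(2, ℤ) ⧸ Gamma0 N))
      = Quotient.mk'' (QuotientGroup.mk h) ↔
    ∃ j : ℤ, (N : ℤ) ∣ (h 0 0 + j * h 1 0) * g 1 0 - h 1 0 * g 0 0 := by
  rw [Quotient.eq'']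
  constructor
  · rintro ⟨⟨t, ht⟩, hts⟩
    obtain ⟨j, rfl⟩ := Subgroup.mem_zpowers_iff.mp ht
    refine ⟨j, ?_⟩
    have h1 : (QuotientGroup.mk (ModularGroup.T ^ j * h) : SL(2, ℤ) ⧸ Gamma0 N)
        = QuotientGroup.mk g := hts
    rw [coset_eq_iff, (T_zpow_mul_col j h).1, (T_zpow_mul_col j h).2] at h1
    exact h1
  · rintro ⟨j, hj⟩
    refine ⟨⟨ModularGroup.T ^ j, Subgroup.zpow_mem_zpowers _ _⟩, ?_⟩
    show (QuotientGroup.mk (ModularGroup.T ^ j * h) : SL(2, ℤ) ⧸ Gamma0 N)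
        = QuotientGroup.mk g
    rw [coset_eq_iff, (T_zpow_mul_col j h).1, (T_zpow_mul_col j h).2]
    exact hj



theorem exists_lift (d g r : ℕ) (hd : 0 < d) (hg : g ∣ d) (hr : Nat.Coprime r g) :
    ∃ a : ℤ, (g : ℤ) ∣ a - r ∧ IsCoprime a (d : ℤ) := by
  have : NeZero d := ⟨hd.ne'⟩
  obtain ⟨u, hu⟩ := ZMod.unitsMap_surjective hg (ZMod.unitOfCoprime r hr)
  refine ⟨((u : ZMod d).val : ℤ), ?_, ?_⟩
  · have h1 : ((ZMod.unitsMap hg u : (ZMod g)ˣ) : ZMod g) = (r : ZMod g) := by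
      rw [hu]; rfl
    rw [ZMod.unitsMap_val, ← ZMod.natCast_val, ZMod.natCast_eq_natCast_iff] at h1
    have h2 := (Int.natCast_modEq_iff.mpr h1).symm
    exact (Int.modEq_iff_dvd.mp h2)
  · exact Nat.isCoprime_iff_coprime.mpr (ZMod.val_coe_unit_coprime u)

theorem inj_core (N d d' : ℕ) (hN : 0 < N) (hd : d ∣ N) (hd' : d' ∣ N) (a a' j : ℤ)
    (ha : IsCoprime a (d : ℤ)) (ha' : IsCoprime a' (d' : ℤ))
    (h : (N : ℤ) ∣ (a' + j * d') * d - d' * a) :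
    d = d' ∧ ((Nat.gcd d (N / d) : ℕ) : ℤ) ∣ a' - a := by
  have hdN : (d : ℤ) ∣ (N : ℤ) := Int.natCast_dvd_natCast.mpr hd
  have hd'N : (d' : ℤ) ∣ (N : ℤ) := Int.natCast_dvd_natCast.mpr hd'
  have h1 : (d : ℤ) ∣ d' * a := by
    have := dvd_sub (Dvd.intro_left (a' + j * d') rfl : (d : ℤ) ∣ (a' + j * d') * d) (hdN.trans h)
    simpa using this
  have h2 : (d : ℤ) ∣ d' := IsCoprime.dvd_of_dvd_mul_right ha.symm h1
  have h3 : (d' : ℤ) ∣ a' * d := by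
    have e : a' * (d : ℤ) = ((a' + j * d') * d - d' * a) - d' * (j * d - a) := by ring
    rw [e]
    exact dvd_sub (hd'N.trans h) (Dvd.intro _ rfl)
  have h4 : (d' : ℤ) ∣ d := IsCoprime.dvd_of_dvd_mul_left ha'.symm h3
  have hdd : d = d' := Nat.dvd_antisymm (Int.natCast_dvd_natCast.mp h2) (Int.natCast_dvd_natCast.mp h4)
  subst hdd
  refine ⟨rfl, ?_⟩
  have hd0 : (d : ℤ) ≠ 0 := by
    intro h0
    have : d = 0 := by exact_mod_cast h0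
    subst this
    simp at hd
    omega
  have hN' : (N : ℤ) = d * ((N / d : ℕ) : ℤ) := by
    exact_mod_cast (Nat.mul_div_cancel' hd).symm
  have h5 : ((N / d : ℕ) : ℤ) ∣ a' + j * d - a := by
    have e : (a' + j * d) * d - d * a = d * (a' + j * d - a) := by ring
    rw [e, hN'] at h
    exact (mul_dvd_mul_iff_left hd0).mp h
  have h6 : ((Nat.gcd d (N / d) : ℕ) : ℤ) ∣ ((N / d : ℕ) : ℤ) :=
    Int.natCast_dvd_natCast.mpr (Nat.gcd_dvd_right _ _)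
  have h7 : ((Nat.gcd d (N / d) : ℕ) : ℤ) ∣ (d : ℤ) :=
    Int.natCast_dvd_natCast.mpr (Nat.gcd_dvd_left _ _)
  have e : a' - a = (a' + j * d - a) - j * d := by ring
  rw [e]
  exact dvd_sub (h6.trans h5) (Dvd.dvd.mul_left h7 j)



theorem surj_core (N : ℕ) (hN : 0 < N) (a c : ℤ) (hac : IsCoprime a c) :
    Int.gcd c N ∣ N ∧ 0 < Int.gcd c N ∧ (Int.gcd c N : ℤ) ∣ c ∧
    ∃ t : ℤ, IsCoprime t ((Nat.gcd (Int.gcd c N) (N / Int.gcd c N) : ℕ) : ℤ) ∧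
      ∀ a₀ : ℤ, ((Nat.gcd (Int.gcd c N) (N / Int.gcd c N) : ℕ) : ℤ) ∣ a₀ - t →
        ∃ j : ℤ, (N : ℤ) ∣ (a₀ + j * (Int.gcd c N : ℤ)) * c - (Int.gcd c N : ℤ) * a := by
  set d : ℕ := Int.gcd c N with hd
  have hNz : (N : ℤ) ≠ 0 := by exact_mod_cast hN.ne'
  have hdpos : 0 < d := Int.gcd_pos_of_ne_zero_right c hNz
  have hdN' : (d : ℤ) ∣ (N : ℤ) := Int.gcd_dvd_right c N
  have hdN : d ∣ N := Int.natCast_dvd_natCast.mp hdN'
  have hdc : (d : ℤ) ∣ c := Int.gcd_dvd_left c N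
  refine ⟨hdN, hdpos, hdc, ?_⟩
  obtain ⟨c₁, hc₁⟩ := hdc
  set N₁ : ℕ := N / d with hN₁
  have hNN : (N : ℤ) = d * (N₁ : ℤ) := by
    exact_mod_cast (Nat.mul_div_cancel' hdN).symm
  have hd0 : (d : ℤ) ≠ 0 := by exact_mod_cast hdpos.ne'
  have hcop : IsCoprime c₁ (N₁ : ℤ) := by
    rw [Int.isCoprime_iff_gcd_eq_one]
    have h1 := Int.gcd_div_gcd_div_gcd (i := c) (j := (N : ℤ)) (by rw [← hd]; exact hdpos)
    rw [← hd] at h1
    have e1 : c / (d : ℤ) = c₁ := by rw [hc₁]; exact Int.mul_ediv_cancel_left _ hd0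
    have e2 : (N : ℤ) / (d : ℤ) = (N₁ : ℤ) := by rw [hNN]; exact Int.mul_ediv_cancel_left _ hd0
    rw [e1, e2] at h1
    exact h1
  obtain ⟨u, v, huv⟩ := hcop
  set g : ℕ := Nat.gcd d N₁ with hg
  have hgd : (g : ℤ) ∣ (d : ℤ) := Int.natCast_dvd_natCast.mpr (Nat.gcd_dvd_left _ _)
  have hgN₁ : (g : ℤ) ∣ (N₁ : ℤ) := Int.natCast_dvd_natCast.mpr (Nat.gcd_dvd_right _ _)
  refine ⟨a * u, ?_, ?_⟩
  · have ha : IsCoprime a (g : ℤ) := by
      refine IsCoprime.of_isCoprime_of_dvd_right hac ?_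
      rw [hc₁]
      exact Dvd.dvd.mul_right hgd c₁
    have hu : IsCoprime u (g : ℤ) := by
      obtain ⟨m, hm⟩ := hgN₁
      exact ⟨c₁, v * m, by rw [hm] at huv; linear_combination huv⟩
    exact IsCoprime.mul_left ha hu
  · intro a₀ ha₀
    obtain ⟨q, hq⟩ := ha₀
    have hbez : (g : ℤ) = d * Nat.gcdA d N₁ + N₁ * Nat.gcdB d N₁ := Nat.gcd_eq_gcd_ab d N₁
    set x := Nat.gcdA d N₁
    set y := Nat.gcdB d N₁
    refine ⟨-q * x, q * y * c₁ - a * v, ?_⟩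
    rw [hc₁, hNN]
    linear_combination (d * c₁ : ℤ) * hq + (d * c₁ * q : ℤ) * hbez + (d * a : ℤ) * huv


/-- Index type for the cusps of `Γ₀(N)`. -/
abbrev Idx (N : ℕ) : Type :=
  Σ d : ↥N.divisors, ↥((Finset.range (Nat.gcd d (N / d))).filter (Nat.Coprime (Nat.gcd d (N / d))))

theorem card_Idx (N : ℕ) : Fintype.card (Idx N) = ModularCurve.cuspCount N := by
  unfold Idx ModularCurve.cuspCount
  rw [Fintype.card_sigma]
  simp only [Fintype.card_coe]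
  rw [Finset.sum_coe_sort N.divisors
    (fun d => ((Finset.range (Nat.gcd d (N / d))).filter (Nat.Coprime (Nat.gcd d (N / d)))).card)]
  refine Finset.sum_congr rfl fun d _ => ?_
  rw [Nat.totient_eq_card_coprime]

theorem exists_rep (N : ℕ) (i : Idx N) :
    ∃ gm : SL(2, ℤ), gm 1 0 = ((i.1 : ℕ) : ℤ) ∧
      ((Nat.gcd (i.1 : ℕ) (N / (i.1 : ℕ)) : ℕ) : ℤ) ∣ gm 0 0 - ((i.2 : ℕ) : ℤ) := by
  obtain ⟨⟨d, hd⟩, ⟨r, hr⟩⟩ := i
  have hdN : d ∣ N := Nat.dvd_of_mem_divisors hd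
  have hN0 : N ≠ 0 := (Nat.mem_divisors.mp hd).2
  have hdpos : 0 < d := Nat.pos_of_dvd_of_pos hdN (Nat.pos_of_ne_zero hN0)
  rw [Finset.mem_filter] at hr
  obtain ⟨a, ha1, ha2⟩ := exists_lift d (Nat.gcd d (N / d)) r hdpos (Nat.gcd_dvd_left _ _)
    hr.2.symm
  obtain ⟨gm, h1, h2⟩ := exists_col a d ha2
  exact ⟨gm, h2, by rw [h1]; exact ha1⟩

theorem card_orbits_T (N : ℕ) [NeZero N] :
    Nat.card (MulAction.orbitRel.Quotient (Subgroup.zpowers ModularGroup.T)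
      (SL(2, ℤ) ⧸ CongruenceSubgroup.Gamma0 N)) = ModularCurve.cuspCount N := by
  have hNpos : 0 < N := Nat.pos_of_ne_zero (NeZero.ne N)
  choose f hf1 hf2 using exists_rep N
  let Ψ : Idx N → MulAction.orbitRel.Quotient (Subgroup.zpowers ModularGroup.T)
      (SL(2, ℤ) ⧸ CongruenceSubgroup.Gamma0 N) :=
    fun i => Quotient.mk'' (QuotientGroup.mk (f i))
  have hinj : Function.Injective Ψ := by
    rintro ⟨⟨d, hd⟩, ⟨r, hr⟩⟩ ⟨⟨d', hd'⟩, ⟨r', hr'⟩⟩ h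
    have h' := (orbit_mk_eq_iff N _ _).mp h
    obtain ⟨j, hj⟩ := h'
    have e1 := hf1 ⟨⟨d, hd⟩, ⟨r, hr⟩⟩
    have e2 := hf1 ⟨⟨d', hd'⟩, ⟨r', hr'⟩⟩
    have e3 := hf2 ⟨⟨d, hd⟩, ⟨r, hr⟩⟩
    have e4 := hf2 ⟨⟨d', hd'⟩, ⟨r', hr'⟩⟩
    simp only at e1 e2 e3 e4
    rw [e1, e2] at hj
    have hc1 : IsCoprime (f ⟨⟨d, hd⟩, ⟨r, hr⟩⟩ 0 0) (d : ℤ) := by
      have := isCoprime_col (f ⟨⟨d, hd⟩, ⟨r, hr⟩⟩)
      rwa [e1] at this
    have hc2 : IsCoprime (f ⟨⟨d', hd'⟩, ⟨r', hr'⟩⟩ 0 0) (d' : ℤ) := by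
      have := isCoprime_col (f ⟨⟨d', hd'⟩, ⟨r', hr'⟩⟩)
      rwa [e2] at this
    obtain ⟨hdd, hdiv⟩ := inj_core N d d' hNpos (Nat.dvd_of_mem_divisors hd)
      (Nat.dvd_of_mem_divisors hd') _ _ j hc1 hc2 hj
    subst hdd
    have hrr : r = r' := by
      have hr2 := Finset.mem_filter.mp hr
      have hr2' := Finset.mem_filter.mp hr'
      rw [Finset.mem_range] at hr2 hr2'
      have h5 : ((Nat.gcd d (N / d) : ℕ) : ℤ) ∣ (r : ℤ) - (r' : ℤ) := by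
        have e : (r : ℤ) - (r' : ℤ) = (f ⟨⟨d, hd'⟩, ⟨r', hr'⟩⟩ 0 0 - r')
            - (f ⟨⟨d, hd⟩, ⟨r, hr⟩⟩ 0 0 - r)
            - (f ⟨⟨d, hd'⟩, ⟨r', hr'⟩⟩ 0 0 - f ⟨⟨d, hd⟩, ⟨r, hr⟩⟩ 0 0) := by ring
        rw [e]
        exact dvd_sub (dvd_sub e4 e3) hdiv
      have h6 : (r' : ℤ) ≡ (r : ℤ) [ZMOD ((Nat.gcd d (N / d) : ℕ) : ℤ)] :=
        (Int.modEq_iff_dvd.mpr h5)
      have h7 : r' ≡ r [MOD Nat.gcd d (N / d)] := Int.natCast_modEq_iff.mp h6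
      exact (Nat.ModEq.eq_of_lt_of_lt h7 hr2'.1 hr2.1).symm
    subst hrr
    rfl
  have hsurj : Function.Surjective Ψ := by
    intro x
    induction x using Quotient.inductionOn' with
    | h q =>
      induction q using QuotientGroup.induction_on with
      | H g =>
        obtain ⟨hdN, hdpos, hdc, t, ht, hall⟩ :=
          surj_core N hNpos (g 0 0) (g 1 0) (isCoprime_col g)
        set d : ℕ := Int.gcd (g 1 0) N with hd
        set gg : ℕ := Nat.gcd d (N / d) with hgg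
        have hggpos : 0 < gg := Nat.gcd_pos_of_pos_left _ hdpos
        have hdmem : d ∈ N.divisors := Nat.mem_divisors.mpr ⟨hdN, hNpos.ne'⟩
        have hrlt : (t % (gg : ℤ)).toNat < gg := by
          have h1 : t % (gg : ℤ) < gg := Int.emod_lt_of_pos t (by exact_mod_cast hggpos)
          have h2 : 0 ≤ t % (gg : ℤ) := Int.emod_nonneg t (by exact_mod_cast hggpos.ne')
          omega
        have hrcast : (((t % (gg : ℤ)).toNat : ℕ) : ℤ) = t % (gg : ℤ) :=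
          Int.toNat_of_nonneg (Int.emod_nonneg t (by exact_mod_cast hggpos.ne'))
        have hrcop : Nat.Coprime gg (t % (gg : ℤ)).toNat := by
          rw [← Nat.isCoprime_iff_coprime, hrcast]
          have h1 : IsCoprime (gg : ℤ) t := ht.symm
          have e : t % (gg : ℤ) = t + (gg : ℤ) * (-(t / (gg : ℤ))) := by
            have := Int.emod_add_mul_ediv t (gg : ℤ)
            linarith
          rw [e]
          exact h1.add_mul_left_right _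
        have hrmem : (t % (gg : ℤ)).toNat ∈
            (Finset.range (Nat.gcd d (N / d))).filter (Nat.Coprime (Nat.gcd d (N / d))) := by
          rw [Finset.mem_filter, Finset.mem_range]
          exact ⟨hrlt, hrcop⟩
        refine ⟨⟨⟨d, hdmem⟩, ⟨(t % (gg : ℤ)).toNat, hrmem⟩⟩, ?_⟩
        have e1 := hf1 ⟨⟨d, hdmem⟩, ⟨(t % (gg : ℤ)).toNat, hrmem⟩⟩
        have e3 := hf2 ⟨⟨d, hdmem⟩, ⟨(t % (gg : ℤ)).toNat, hrmem⟩⟩
        simp only at e1 e3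
        have h8 : (gg : ℤ) ∣ f ⟨⟨d, hdmem⟩, ⟨(t % (gg : ℤ)).toNat, hrmem⟩⟩ 0 0 - t := by
          rw [hrcast] at e3
          have e : f ⟨⟨d, hdmem⟩, ⟨(t % (gg : ℤ)).toNat, hrmem⟩⟩ 0 0 - t =
              (f ⟨⟨d, hdmem⟩, ⟨(t % (gg : ℤ)).toNat, hrmem⟩⟩ 0 0 - t % (gg : ℤ))
                - (gg : ℤ) * (t / (gg : ℤ)) := by
            have := Int.emod_add_mul_ediv t (gg : ℤ)
            linarith
          rw [e]
          exact dvd_sub e3 (Dvd.intro _ rfl)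
        obtain ⟨j, hj⟩ := hall _ h8
        symm
        show Quotient.mk'' (QuotientGroup.mk g) = Quotient.mk'' (QuotientGroup.mk (f _))
        rw [orbit_mk_eq_iff]
        exact ⟨j, by rw [e1]; exact hj⟩
  rw [Nat.card_eq_of_bijective Ψ ⟨hinj, hsurj⟩ |>.symm, Nat.card_eq_fintype_card, card_Idx]

end Fermat.Agent.S20.CuspCount
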