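import Mathlib

/-!
# Scalar twist lemma at the cusp `∞` (work package B6 of S20, DFT-basis-free form)

For `g : ℍ → ℂ` holomorphic, bounded at `i∞` and `N`-periodic we define, for `b < N`,
`tw N b g z = exp(-2πi b z / N) * (1/N) ∑_{j<N} ζ_N^{-jb} g(z+j)`.
It is `1`-periodic, holomorphic and bounded at `i∞`, hence has a limit `twLim N b g`.
-/

set_option autoImplicit false

open UpperHalfPlane hiding I
open Complex Filter Function Asymptotics
open scoped Real Topology Manifold MatrixGroups ModularForm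

namespace Fermat.Agent.S20
namespace Cusp

/-- `ζ_N^m = exp(2πi m / N)` -/
noncomputable def zet (N : ℕ) (m : ℤ) : ℂ := cexp (2 * π * I * m / N)

theorem zet_zero (N : ℕ) : zet N 0 = 1 := by simp [zet]

theorem zet_add (N : ℕ) (m n : ℤ) : zet N (m + n) = zet N m * zet N n := by
  unfold zet
  rw [← Complex.exp_add]
  congr 1
  push_cast
  ring

theorem zet_neg (N : ℕ) (m : ℤ) : zet N (-m) = (zet N m)⁻¹ := by
  unfold zet
  rw [← Complex.exp_neg]
  congr 1
  push_cast
  ring

theorem zet_ne_zero (N : ℕ) (m : ℤ) : zet N m ≠ 0 := Complex.exp_ne_zero _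

theorem zet_mul_self (N : ℕ) [NeZero N] (m : ℤ) : zet N (N * m) = 1 := by
  unfold zet
  have hN : (N : ℂ) ≠ 0 := Nat.cast_ne_zero.mpr (NeZero.ne N)
  rw [Complex.exp_eq_one_iff]
  refine ⟨m, ?_⟩
  push_cast
  field_simp

theorem zet_natCast_mul (N : ℕ) [NeZero N] (m : ℤ) (j : ℕ) : zet N (j * m) = zet N m ^ j := by
  unfold zet
  rw [← Complex.exp_nat_mul]
  congr 1
  push_cast
  ring

theorem norm_zet (N : ℕ) (m : ℤ) : ‖zet N m‖ = 1 := by
  unfold zet
  rw [Complex.norm_exp]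
  have : (2 * π * I * m / N : ℂ).re = 0 := by
    simp [Complex.div_re, Complex.mul_re]
  rw [this, Real.exp_zero]

theorem zet_eq_one_iff (N : ℕ) [NeZero N] (m : ℤ) : zet N m = 1 ↔ (N : ℤ) ∣ m := by
  unfold zet
  have hN : (N : ℂ) ≠ 0 := Nat.cast_ne_zero.mpr (NeZero.ne N)
  rw [Complex.exp_eq_one_iff]
  constructor
  · rintro ⟨n, hn⟩
    refine ⟨n, ?_⟩
    have h2 : (m : ℂ) = N * n := by
      have hpi : (2 * π * I : ℂ) ≠ 0 := Complex.two_pi_I_ne_zero
      field_simp at hn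
      exact hn
    exact_mod_cast h2
  · rintro ⟨n, rfl⟩
    refine ⟨n, ?_⟩
    push_cast
    field_simp

/-- orthogonality of characters of `ℤ/N` -/
theorem sum_zet (N : ℕ) [NeZero N] (m : ℤ) :
    ∑ j ∈ Finset.range N, zet N (j * m) = if (N : ℤ) ∣ m then (N : ℂ) else 0 := by
  simp_rw [zet_natCast_mul]
  split_ifs with h
  · rw [(zet_eq_one_iff N m).mpr h]
    simp
  · have h1 : zet N m ≠ 1 := fun h' => h ((zet_eq_one_iff N m).mp h')
    rw [geom_sum_eq h1, ← zet_natCast_mul, zet_mul_self]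
    simp

/-! ### general helpers on `ℍ` -/

theorem mdiff_vadd {g : ℍ → ℂ} (hg : MDiff g) (t : ℝ) : MDiff (fun z : ℍ => g (t +ᵥ z)) := by
  rw [UpperHalfPlane.mdifferentiable_iff] at hg ⊢
  have h1 : DifferentiableOn ℂ ((g ∘ ofComplex) ∘ (fun w : ℂ => (t : ℂ) + w)) {z | 0 < z.im} := by
    refine hg.comp (by fun_prop) ?_
    intro w hw
    simpa using hw
  refine h1.congr ?_
  intro w hw
  have hw' : 0 < ((t : ℂ) + w).im := by simpa using hw
  simp only [comp_apply, ofComplex_apply_of_im_pos hw, ofComplex_apply_of_im_pos hw']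
  congr 1

theorem mdiff_of_differentiable {F : ℂ → ℂ} (hF : Differentiable ℂ F) :
    MDiff (fun z : ℍ => F z) := by
  rw [UpperHalfPlane.mdifferentiable_iff]
  refine hF.differentiableOn.congr ?_
  intro w hw
  simp only [comp_apply, ofComplex_apply_of_im_pos hw]

theorem periodic_of_vadd {f : ℍ → ℂ} {h : ℝ} (hf : ∀ z : ℍ, f (h +ᵥ z) = f z) :
    Periodic (f ∘ ofComplex) h := by
  intro w
  by_cases hw : 0 < im w
  · have hw' : 0 < im (w + h) := by simpa using hw
    simp only [comp_apply, ofComplex_apply_of_im_pos hw', ofComplex_apply_of_im_pos hw]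
    rw [← hf ⟨w, hw⟩]
    congr 1
    ext
    simp [add_comm]
  · have hw0 : im w ≤ 0 := not_lt.mp hw
    have hw' : im (w + h) ≤ 0 := by simpa using hw0
    simp [ofComplex_apply_of_im_nonpos hw', ofComplex_apply_of_im_nonpos hw0]

theorem vadd_natCast_of_vadd {f : ℍ → ℂ} {h : ℝ} (hf : ∀ z : ℍ, f (h +ᵥ z) = f z) (j : ℕ)
    (z : ℍ) : f ((j * h : ℝ) +ᵥ z) = f z := by
  induction j with
  | zero => simp
  | succ j ih =>
    have : ((j + 1 : ℕ) * h : ℝ) +ᵥ z = h +ᵥ ((j * h : ℝ) +ᵥ z) := by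
      rw [vadd_vadd]; congr 1; push_cast; ring
    rw [this, hf, ih]

/-! ### the isotypic parts -/

/-- the `b`-th isotypic part of `g` under `z ↦ z + 1` -/
noncomputable def iso (N : ℕ) (b : ℕ) (g : ℍ → ℂ) : ℍ → ℂ :=
  fun z => (N : ℂ)⁻¹ * ∑ j ∈ Finset.range N, zet N (-((j : ℤ) * (b : ℤ))) * g ((j : ℝ) +ᵥ z)

/-- the twisted `b`-th isotypic part of `g`; it is `1`-periodic if `g` is `N`-periodic -/
noncomputable def tw (N : ℕ) (b : ℕ) (g : ℍ → ℂ) : ℍ → ℂ :=
  fun z => cexp (-(2 * π * I * b * z / N)) * iso N b g z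

theorem iso_sum (N : ℕ) [NeZero N] (g : ℍ → ℂ) (z : ℍ) :
    ∑ b ∈ Finset.range N, iso N b g z = g z := by
  have hN : (N : ℂ) ≠ 0 := Nat.cast_ne_zero.mpr (NeZero.ne N)
  have hN0 : 0 < N := Nat.pos_of_ne_zero (NeZero.ne N)
  unfold iso
  rw [← Finset.mul_sum, Finset.sum_comm]
  have key : ∀ j ∈ Finset.range N,
      ∑ b ∈ Finset.range N, zet N (-((j : ℤ) * (b : ℤ))) * g ((j : ℝ) +ᵥ z)
        = if j = 0 then (N : ℂ) * g z else 0 := by
    intro j hj
    rw [← Finset.sum_mul]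
    have h1 : ∑ b ∈ Finset.range N, zet N (-((j : ℤ) * (b : ℤ)))
        = ∑ b ∈ Finset.range N, zet N ((b : ℤ) * (-(j : ℤ))) := by
      refine Finset.sum_congr rfl fun b _ => ?_
      congr 1; ring
    rw [h1, sum_zet]
    have hj' : j < N := Finset.mem_range.mp hj
    by_cases h0 : j = 0
    · subst h0; simp
    · have h2 : ¬ (N : ℤ) ∣ -(j : ℤ) := by
        rw [dvd_neg]
        intro h
        have := Int.le_of_dvd (by omega) h
        omega
      simp [h2, h0]
  rw [Finset.sum_congr rfl key]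
  simp [hN0, hN]

theorem iso_vadd_one (N : ℕ) [NeZero N] (b : ℕ) {g : ℍ → ℂ}
    (hper : ∀ z : ℍ, g ((N : ℝ) +ᵥ z) = g z) (z : ℍ) :
    iso N b g ((1 : ℝ) +ᵥ z) = zet N b * iso N b g z := by
  unfold iso
  set F : ℕ → ℂ := fun j => zet N (-((j : ℤ) * (b : ℤ))) * g ((j : ℝ) +ᵥ z) with hF
  have h1 : ∀ j : ℕ, zet N (-((j : ℤ) * (b : ℤ))) * g ((j : ℝ) +ᵥ ((1 : ℝ) +ᵥ z))
      = zet N b * F (j + 1) := by
    intro j
    simp only [hF]
    rw [vadd_vadd, ← mul_assoc, ← zet_add]
    congr 2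
    · push_cast; ring
    · push_cast; ring_nf
  have h2 : F N = F 0 := by
    simp only [hF]
    rw [hper]
    have : -((N : ℤ) * (b : ℤ)) = (N : ℤ) * (-(b : ℤ)) := by ring
    rw [this, zet_mul_self]
    simp [zet_zero]
  have h3 : ∑ j ∈ Finset.range N, F (j + 1) = ∑ j ∈ Finset.range N, F j := by
    have e1 := Finset.sum_range_succ F N
    have e2 := Finset.sum_range_succ' F N
    rw [e1] at e2
    rw [h2] at e2
    exact (add_right_cancel e2).symm
  rw [Finset.sum_congr rfl (fun j _ => h1 j), ← Finset.mul_sum, h3]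
  ring

theorem tw_vadd_one (N : ℕ) [NeZero N] (b : ℕ) {g : ℍ → ℂ}
    (hper : ∀ z : ℍ, g ((N : ℝ) +ᵥ z) = g z) (z : ℍ) :
    tw N b g ((1 : ℝ) +ᵥ z) = tw N b g z := by
  unfold tw
  rw [iso_vadd_one N b hper]
  have h1 : cexp (-(2 * π * I * b * ((1 : ℝ) +ᵥ z : ℍ) / N))
      = cexp (-(2 * π * I * b * z / N)) * zet N (-(b : ℤ)) := by
    unfold zet
    rw [← Complex.exp_add]
    congr 1
    rw [UpperHalfPlane.coe_vadd]
    push_cast
    ring
  rw [h1, zet_neg]
  have := zet_ne_zero N b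
  field_simp

/-! ### holomorphy and boundedness -/

theorem iso_mdiff (N b : ℕ) {g : ℍ → ℂ} (hg : MDiff g) : MDiff (iso N b g) := by
  unfold iso
  have h : MDiff (fun z : ℍ =>
      ∑ j ∈ Finset.range N, zet N (-((j : ℤ) * (b : ℤ))) * g ((j : ℝ) +ᵥ z)) := by
    have := MDifferentiable.sum (t := Finset.range N)
      (f := fun j (z : ℍ) => zet N (-((j : ℤ) * (b : ℤ))) * g ((j : ℝ) +ᵥ z))
      (I := 𝓘(ℂ)) (fun j _ => mdifferentiable_const.mul (mdiff_vadd hg j))
    convert this using 1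
    ext z
    simp [Finset.sum_apply]
  exact mdifferentiable_const.mul h

theorem tw_mdiff (N b : ℕ) {g : ℍ → ℂ} (hg : MDiff g) : MDiff (tw N b g) := by
  unfold tw
  have h1 : MDiff (fun z : ℍ => cexp (-(2 * π * I * b * z / N))) :=
    mdiff_of_differentiable (F := fun w : ℂ => cexp (-(2 * π * I * b * w / N))) (by fun_prop)
  exact h1.mul (iso_mdiff N b hg)

theorem iso_bounded (N b : ℕ) {g : ℍ → ℂ} (hg : IsBoundedAtImInfty g) :
    IsBoundedAtImInfty (iso N b g) := by
  rw [isBoundedAtImInfty_iff] at hg ⊢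
  obtain ⟨M, A, hM⟩ := hg
  refine ⟨‖(N : ℂ)⁻¹‖ * (N * M), A, fun z hz => ?_⟩
  unfold iso
  rw [norm_mul]
  refine mul_le_mul_of_nonneg_left ?_ (norm_nonneg _)
  calc ‖∑ j ∈ Finset.range N, zet N (-((j : ℤ) * (b : ℤ))) * g ((j : ℝ) +ᵥ z)‖
      ≤ ∑ j ∈ Finset.range N, ‖zet N (-((j : ℤ) * (b : ℤ))) * g ((j : ℝ) +ᵥ z)‖ :=
        norm_sum_le _ _
    _ ≤ ∑ _j ∈ Finset.range N, M := by
        refine Finset.sum_le_sum fun j _ => ?_
        rw [norm_mul, norm_zet, one_mul]
        exact hM _ (by rw [vadd_im]; exact hz)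
    _ = N * M := by simp

theorem norm_cexp_twist (N b : ℕ) (z : ℍ) :
    ‖cexp (-(2 * π * I * b * z / N))‖ = Real.exp (2 * π * b * z.im / N) := by
  rw [Complex.norm_exp]
  congr 1
  have : (-(2 * π * I * b * z / N) : ℂ) = ((2 * π * b * z.im / N : ℝ) : ℂ)
      + ((-(2 * π * b * z.re / N) : ℝ) : ℂ) * I := by
    have hz : (z : ℂ) = (z.re : ℂ) + (z.im : ℂ) * I := by
      apply Complex.ext <;> simp
    rw [hz]
    push_cast
    ring_nf
    rw [Complex.I_sq]
    ring
  rw [this]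
  simp

/-- the auxiliary function `exp(2πiz) * tw` tends to zero at `i∞` when `b < N` -/
theorem aux_isZero (N : ℕ) [NeZero N] (b : ℕ) (hb : b < N) {g : ℍ → ℂ}
    (hbd : IsBoundedAtImInfty g) :
    IsZeroAtImInfty (fun z : ℍ => cexp (2 * π * I * z) * tw N b g z) := by
  have hN : (0 : ℝ) < N := Nat.cast_pos.mpr (Nat.pos_of_ne_zero (NeZero.ne N))
  have hib := iso_bounded N b hbd
  rw [isBoundedAtImInfty_iff] at hib
  obtain ⟨M, A, hM⟩ := hib
  set c : ℝ := 2 * π * (1 - b / N) with hc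
  have hcpos : 0 < c := by
    have : (b : ℝ) / N < 1 := by
      rw [div_lt_one hN]; exact_mod_cast hb
    have := Real.pi_pos
    positivity
  have hO : (fun z : ℍ => cexp (2 * π * I * z) * tw N b g z)
      =O[atImInfty] (fun z : ℍ => Real.exp (-c * z.im)) := by
    refine IsBigO.of_bound M ?_
    rw [Filter.Eventually, atImInfty_mem]
    refine ⟨A, fun z hz => ?_⟩
    simp only [Set.mem_setOf_eq]
    unfold tw
    rw [norm_mul, norm_mul, norm_cexp_twist, Real.norm_eq_abs, abs_of_pos (Real.exp_pos _)]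
    have h1 : ‖cexp (2 * π * I * z)‖ = Real.exp (-2 * π * z.im) := by
      rw [Complex.norm_exp]
      congr 1
      simp [Complex.mul_re]
    rw [h1]
    have h2 : Real.exp (-2 * π * z.im) * (Real.exp (2 * π * b * z.im / N) * ‖iso N b g z‖)
        = ‖iso N b g z‖ * Real.exp (-c * z.im) := by
      have : Real.exp (-c * z.im) = Real.exp (-2 * π * z.im) * Real.exp (2 * π * b * z.im / N) := by
        rw [← Real.exp_add]
        congr 1
        rw [hc]
        field_simp
        ring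
      rw [this]; ring
    rw [h2]
    exact mul_le_mul_of_nonneg_right (hM z hz) (Real.exp_pos _).le
  have hT : Tendsto (fun z : ℍ => Real.exp (-c * z.im)) atImInfty (𝓝 0) := by
    have h1 : Tendsto (fun y : ℝ => Real.exp (-c * y)) atTop (𝓝 0) :=
      Real.tendsto_exp_atBot.comp (tendsto_id.const_mul_atTop_of_neg (by linarith))
    exact h1.comp tendsto_comap
  exact hO.trans_tendsto hT

theorem tw_bounded (N : ℕ) [NeZero N] (b : ℕ) (hb : b < N) {g : ℍ → ℂ}
    (hg : MDiff g) (hbd : IsBoundedAtImInfty g) (hper : ∀ z : ℍ, g ((N : ℝ) +ᵥ z) = g z) :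
    IsBoundedAtImInfty (tw N b g) := by
  set w : ℍ → ℂ := fun z : ℍ => cexp (2 * π * I * z) * tw N b g z with hw
  have hz : IsZeroAtImInfty w := aux_isZero N b hb hbd
  have hwmd : MDiff w := by
    have h1 : MDiff (fun z : ℍ => cexp (2 * π * I * z)) :=
      mdiff_of_differentiable (F := fun w : ℂ => cexp (2 * π * I * w)) (by fun_prop)
    exact h1.mul (tw_mdiff N b hg)
  have hwper : Periodic (w ∘ ofComplex) (1 : ℝ) := by
    apply periodic_of_vadd
    intro z
    simp only [hw]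
    rw [tw_vadd_one N b hper, UpperHalfPlane.coe_vadd]
    congr 1
    have : (2 * π * I * (((1 : ℝ) : ℂ) + z) : ℂ) = 2 * π * I * z + 2 * π * I := by
      push_cast; ring
    rw [this, Complex.exp_add, Complex.exp_two_pi_mul_I, mul_one]
  have hO := hz.exp_decay_atImInfty one_pos hwper hwmd hz.boundedAtFilter
  have h1 : (fun z : ℍ => cexp (-(2 * π * I * z)) * w z)
      =O[atImInfty] (fun z : ℍ => Real.exp (2 * π * z.im) * Real.exp (-2 * π * z.im / 1)) := by
    refine IsBigO.mul ?_ hO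
    refine Asymptotics.isBigO_of_le _ fun z => ?_
    rw [Complex.norm_exp, Real.norm_eq_abs, abs_of_pos (Real.exp_pos _)]
    apply le_of_eq
    congr 1
    simp [Complex.mul_re]
  refine (h1.congr' ?_ ?_)
  · refine Eventually.of_forall fun z => ?_
    simp only [hw]
    rw [← mul_assoc, ← Complex.exp_add]
    simp
  · refine Eventually.of_forall fun z => ?_
    show Real.exp (2 * π * z.im) * Real.exp (-2 * π * z.im / 1) = 1
    rw [← Real.exp_add]
    simp

/-- the limit of `tw N b g` at `i∞` -/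
noncomputable def twLim (N b : ℕ) (g : ℍ → ℂ) : ℂ := valueAtInfty (tw N b g)

theorem tendsto_of_periodic_bounded {f : ℍ → ℂ} (hper : ∀ z : ℍ, f ((1 : ℝ) +ᵥ z) = f z)
    (hmd : MDiff f) (hbd : IsBoundedAtImInfty f) :
    Tendsto f atImInfty (𝓝 (valueAtInfty f)) := by
  have hO := exp_decay_sub_atImInfty one_pos (periodic_of_vadd hper) hmd hbd
  have hT : Tendsto (fun z : ℍ => Real.exp (-2 * π * z.im / 1)) atImInfty (𝓝 0) := by
    have h1 : Tendsto (fun y : ℝ => Real.exp (-2 * π * y / 1)) atTop (𝓝 0) := by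
      refine Real.tendsto_exp_atBot.comp ?_
      have : Tendsto (fun y : ℝ => (-2 * π) * y) atTop atBot :=
        tendsto_id.const_mul_atTop_of_neg (by have := Real.pi_pos; linarith)
      simpa using this
    exact h1.comp tendsto_comap
  have := hO.trans_tendsto hT
  exact tendsto_sub_nhds_zero_iff.mp this

theorem tw_tendsto (N : ℕ) [NeZero N] (b : ℕ) (hb : b < N) {g : ℍ → ℂ}
    (hg : MDiff g) (hbd : IsBoundedAtImInfty g) (hper : ∀ z : ℍ, g ((N : ℝ) +ᵥ z) = g z) :
    Tendsto (tw N b g) atImInfty (𝓝 (twLim N b g)) :=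
  tendsto_of_periodic_bounded (tw_vadd_one N b hper) (tw_mdiff N b hg)
    (tw_bounded N b hb hg hbd hper)

/-! ### reconstruction, decay, constant term -/

theorem sum_tw (N : ℕ) [NeZero N] (g : ℍ → ℂ) (z : ℍ) :
    g z = ∑ b ∈ Finset.range N, cexp (2 * π * I * b * z / N) * tw N b g z := by
  rw [← iso_sum N g z]
  refine Finset.sum_congr rfl fun b _ => ?_
  unfold tw
  rw [← mul_assoc, ← Complex.exp_add]
  simp

theorem norm_cexp_le_one (N b : ℕ) (z : ℍ) : ‖cexp (2 * π * I * b * z / N)‖ ≤ 1 := by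
  rw [Complex.norm_exp]
  have h : (2 * π * I * b * z / N : ℂ).re = -(2 * π * b * z.im / N) := by
    have : (2 * π * I * b * z / N : ℂ) = ((-(2 * π * b * z.im / N) : ℝ) : ℂ)
        + ((2 * π * b * z.re / N : ℝ) : ℂ) * I := by
      have hz : (z : ℂ) = (z.re : ℂ) + (z.im : ℂ) * I := by
        apply Complex.ext <;> simp
      rw [hz]
      push_cast
      ring_nf
      rw [Complex.I_sq]
      ring
    rw [this]
    simp
  rw [h, Real.exp_le_one_iff]
  have := z.im_pos
  have := Real.pi_pos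
  have : 0 ≤ 2 * π * b * z.im / N := by positivity
  linarith

/-- if all twisted limits vanish, `g` decays like `exp(-2π Im z)` -/
theorem isBigO_of_twLim_eq_zero (N : ℕ) [NeZero N] {g : ℍ → ℂ}
    (hg : MDiff g) (hbd : IsBoundedAtImInfty g) (hper : ∀ z : ℍ, g ((N : ℝ) +ᵥ z) = g z)
    (h0 : ∀ b < N, twLim N b g = 0) :
    g =O[atImInfty] fun z : ℍ => Real.exp (-2 * π * z.im) := by
  have key : ∀ b ∈ Finset.range N, (fun z : ℍ => cexp (2 * π * I * b * z / N) * tw N b g z)
      =O[atImInfty] fun z : ℍ => Real.exp (-2 * π * z.im) := by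
    intro b hb
    have hb' : b < N := Finset.mem_range.mp hb
    have h1 := exp_decay_sub_atImInfty one_pos (periodic_of_vadd (tw_vadd_one N b hper))
      (tw_mdiff N b hg) (tw_bounded N b hb' hg hbd hper)
    have h2 : valueAtInfty (tw N b g) = 0 := h0 b hb'
    simp only [h2, sub_zero, div_one] at h1
    have h3 : (fun z : ℍ => cexp (2 * π * I * b * z / N)) =O[atImInfty] (fun _ : ℍ => (1 : ℝ)) :=
      Asymptotics.isBigO_of_le _ fun z => by simpa using norm_cexp_le_one N b z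
    simpa using h3.mul h1
  have hsum := IsBigO.sum key
  refine hsum.congr' ?_ (Eventually.of_forall fun _ => rfl)
  exact Eventually.of_forall fun z => by
    rw [Finset.sum_apply]
    exact (sum_tw N g z).symm

/-- the constant term of `g` is the `0`-th twisted limit -/
theorem tendsto_twLim_zero (N : ℕ) [NeZero N] {g : ℍ → ℂ}
    (hg : MDiff g) (hbd : IsBoundedAtImInfty g) (hper : ∀ z : ℍ, g ((N : ℝ) +ᵥ z) = g z) :
    Tendsto g atImInfty (𝓝 (twLim N 0 g)) := by
  have hN : (0 : ℝ) < N := Nat.cast_pos.mpr (Nat.pos_of_ne_zero (NeZero.ne N))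
  have hN0 : 0 < N := Nat.pos_of_ne_zero (NeZero.ne N)
  have key : ∀ b ∈ Finset.range N,
      Tendsto (fun z : ℍ => cexp (2 * π * I * b * z / N) * tw N b g z) atImInfty
        (𝓝 ((if b = 0 then (1 : ℂ) else 0) * twLim N b g)) := by
    intro b hb
    have hb' : b < N := Finset.mem_range.mp hb
    refine Tendsto.mul ?_ (tw_tendsto N b hb' hg hbd hper)
    by_cases h0 : b = 0
    · subst h0
      simp
    · simp only [h0, if_false]
      rw [tendsto_zero_iff_norm_tendsto_zero]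
      have hb0 : (0 : ℝ) < b := Nat.cast_pos.mpr (Nat.pos_of_ne_zero h0)
      have h1 : ∀ z : ℍ, ‖cexp (2 * π * I * b * z / N)‖ = Real.exp (-(2 * π * b / N) * z.im) := by
        intro z
        rw [Complex.norm_exp]
        congr 1
        have : (2 * π * I * b * z / N : ℂ) = ((-(2 * π * b * z.im / N) : ℝ) : ℂ)
            + ((2 * π * b * z.re / N : ℝ) : ℂ) * I := by
          have hz : (z : ℂ) = (z.re : ℂ) + (z.im : ℂ) * I := by
            apply Complex.ext <;> simp
          rw [hz]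
          push_cast
          ring_nf
          rw [Complex.I_sq]
          ring
        rw [this]
        simp
        ring
      simp_rw [h1]
      have h2 : Tendsto (fun y : ℝ => Real.exp (-(2 * π * b / N) * y)) atTop (𝓝 0) := by
        refine Real.tendsto_exp_atBot.comp (tendsto_id.const_mul_atTop_of_neg ?_)
        have := Real.pi_pos
        have : 0 < 2 * π * b / N := by positivity
        linarith
      exact h2.comp tendsto_comap
  have hsum := tendsto_finsetSum (Finset.range N) key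
  have e1 : ∑ b ∈ Finset.range N, (if b = 0 then (1 : ℂ) else 0) * twLim N b g = twLim N 0 g := by
    simp [hN0]
  rw [e1] at hsum
  refine hsum.congr fun z => ?_
  exact (sum_tw N g z).symm

/-! ### algebraic properties of `tw` -/

theorem iso_add (N b : ℕ) (g₁ g₂ : ℍ → ℂ) : iso N b (g₁ + g₂) = iso N b g₁ + iso N b g₂ := by
  ext z
  simp only [iso, Pi.add_apply]
  rw [← mul_add, ← Finset.sum_add_distrib]
  congr 1
  refine Finset.sum_congr rfl fun j _ => ?_
  ring

theorem tw_add (N b : ℕ) (g₁ g₂ : ℍ → ℂ) : tw N b (g₁ + g₂) = tw N b g₁ + tw N b g₂ := by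
  ext z
  simp only [tw, iso_add, Pi.add_apply]
  ring

theorem tw_zero (N b : ℕ) : tw N b 0 = 0 := by
  ext z
  simp [tw, iso]

theorem tw_sum (N b : ℕ) {ι : Type*} (s : Finset ι) (f : ι → ℍ → ℂ) :
    tw N b (∑ i ∈ s, f i) = ∑ i ∈ s, tw N b (f i) := by
  classical
  induction s using Finset.induction_on with
  | empty => simp [tw_zero]
  | insert a s ha ih => rw [Finset.sum_insert ha, Finset.sum_insert ha, tw_add, ih]

theorem tw_smul (N b : ℕ) (c : ℂ) (g : ℍ → ℂ) : tw N b (c • g) = c • tw N b g := by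
  ext z
  simp only [tw, iso, Pi.smul_apply, smul_eq_mul]
  rw [show ∑ j ∈ Finset.range N, zet N (-((j : ℤ) * (b : ℤ))) * (c * g ((j : ℝ) +ᵥ z))
      = c * ∑ j ∈ Finset.range N, zet N (-((j : ℤ) * (b : ℤ))) * g ((j : ℝ) +ᵥ z) by
    rw [Finset.mul_sum]
    refine Finset.sum_congr rfl fun j _ => ?_
    ring]
  ring

/-- multiplication by a `1`-periodic function commutes with `tw` -/
theorem tw_mul_of_periodic (N b : ℕ) {e : ℍ → ℂ} (he : ∀ z : ℍ, e ((1 : ℝ) +ᵥ z) = e z)
    (g : ℍ → ℂ) : tw N b (e * g) = e * tw N b g := by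
  ext z
  simp only [tw, iso, Pi.mul_apply]
  rw [show ∑ j ∈ Finset.range N, zet N (-((j : ℤ) * (b : ℤ))) * (e ((j : ℝ) +ᵥ z) * g ((j : ℝ) +ᵥ z))
      = e z * ∑ j ∈ Finset.range N, zet N (-((j : ℤ) * (b : ℤ))) * g ((j : ℝ) +ᵥ z) by
    rw [Finset.mul_sum]
    refine Finset.sum_congr rfl fun j _ => ?_
    have := vadd_natCast_of_vadd he j z
    rw [mul_one] at this
    rw [this]
    ring]
  ring

/-- `tw` of a shifted function -/
theorem tw_shift (N : ℕ) [NeZero N] (b : ℕ) {g : ℍ → ℂ}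
    (hper : ∀ z : ℍ, g ((N : ℝ) +ᵥ z) = g z) :
    tw N b (fun z : ℍ => g ((1 : ℝ) +ᵥ z)) = fun z : ℍ => zet N b * tw N b g z := by
  ext z
  have h1 : iso N b (fun z : ℍ => g ((1 : ℝ) +ᵥ z)) z = iso N b g ((1 : ℝ) +ᵥ z) := by
    simp only [iso]
    congr 1
    refine Finset.sum_congr rfl fun j _ => ?_
    rw [vadd_vadd, vadd_vadd, add_comm]
  simp only [tw]
  rw [h1, iso_vadd_one N b hper]
  ring

/-! ### limits -/

theorem twLim_eq_of_tendsto {N b : ℕ} {g : ℍ → ℂ} {c : ℂ}
    (h : Tendsto (tw N b g) atImInfty (𝓝 c)) : twLim N b g = c :=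
  h.limUnder_eq

/-- finite Fourier inversion on `ℤ/N` -/
theorem dft_inv (N : ℕ) [NeZero N] (A : ℕ → ℂ) {b' : ℕ} (hb' : b' < N) :
    ∑ j ∈ Finset.range N, zet N (-((j : ℤ) * (b' : ℤ))) *
      (∑ b ∈ Finset.range N, zet N ((j : ℤ) * (b : ℤ)) * A b) = N * A b' := by
  simp_rw [Finset.mul_sum]
  rw [Finset.sum_comm]
  have key : ∀ b ∈ Finset.range N,
      ∑ j ∈ Finset.range N, zet N (-((j : ℤ) * (b' : ℤ))) * (zet N ((j : ℤ) * (b : ℤ)) * A b)
        = if b = b' then (N : ℂ) * A b' else 0 := by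
    intro b hb
    have hb1 : b < N := Finset.mem_range.mp hb
    have h1 : ∀ j : ℕ, zet N (-((j : ℤ) * (b' : ℤ))) * (zet N ((j : ℤ) * (b : ℤ)) * A b)
        = zet N ((j : ℤ) * ((b : ℤ) - (b' : ℤ))) * A b := by
      intro j
      rw [← mul_assoc, ← zet_add]
      congr 2
      ring
    simp_rw [h1]
    rw [← Finset.sum_mul, sum_zet]
    by_cases h : b = b'
    · subst h; simp
    · have h2 : ¬ (N : ℤ) ∣ ((b : ℤ) - (b' : ℤ)) := by
        intro hd
        have h3 : ((b : ℤ) - (b' : ℤ)) = 0 := by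
          apply Int.eq_zero_of_abs_lt_dvd hd
          rw [abs_lt]
          constructor <;> omega
        omega
      simp [h2, h]
  rw [Finset.sum_congr rfl key]
  simp [hb']

theorem dft_eq_zero (N : ℕ) [NeZero N] (A : ℕ → ℂ)
    (h : ∀ j < N, ∑ b ∈ Finset.range N, zet N ((j : ℤ) * (b : ℤ)) * A b = 0) :
    ∀ b < N, A b = 0 := by
  intro b hb
  have hN : (N : ℂ) ≠ 0 := Nat.cast_ne_zero.mpr (NeZero.ne N)
  have h1 := dft_inv N A hb
  rw [Finset.sum_congr rfl (fun j hj => by rw [h j (Finset.mem_range.mp hj), mul_zero])] at h1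
  simp only [Finset.sum_const_zero] at h1
  exact (mul_eq_zero.mp h1.symm).resolve_left hN

end Cusp
end Fermat.Agent.S20
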