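import Fermat.Agent.S20.Basic
import Fermat.Agent.S20.CuspTwist

/-!
# Cusp package for S20 (PB1b, PB6a, PB6b of the skeleton)

Everything is stated parametrically in a family `F i : ModularForm (G0 N) (wt i)` with the
`span` / `indep` properties of `FreeBasis`, so that the results plug into the skeleton.
-/

set_option autoImplicit false

open UpperHalfPlane hiding I
open ModularForm Complex Filter Function Asymptotics Matrix.SpecialLinearGroup
open scoped Real Topology Manifold MatrixGroups ModularForm Matrix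

namespace Fermat.Agent.S20
namespace Cusp

local notation "Δ" => ModularForm.discriminant

/-! ### translation by powers of `T` -/

theorem slash_T_pow_apply (k : ℤ) (f : ℍ → ℂ) (j : ℕ) (z : ℍ) :
    (f ∣[k] (ModularGroup.T ^ j)) z = f ((j : ℝ) +ᵥ z) := by
  rw [SL_slash_apply]
  have h1 : (ModularGroup.T ^ j) • z = (j : ℝ) +ᵥ z := by
    have := modular_T_zpow_smul z (j : ℤ)
    simpa using this
  have h2 : denom (toGL ((Matrix.SpecialLinearGroup.map (Int.castRingHom ℝ)) (ModularGroup.T ^ j)))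
      (z : ℂ) = 1 := by
    have h3 := ModularGroup.coe_T_zpow (j : ℤ)
    rw [zpow_natCast] at h3
    have h4 := ModularGroup.denom_apply (ModularGroup.T ^ j) z
    rw [h3] at h4
    simpa using h4
  rw [h1, h2]
  simp

theorem T_pow_N_smul (N : ℕ) [NeZero N] (x : Q N) : (ModularGroup.T ^ N) • x = x := by
  induction x using QuotientGroup.induction_on with
  | H g =>
    rw [MulAction.Quotient.smul_mk, QuotientGroup.eq]
    have h1 : ModularGroup.T ^ N ∈ CongruenceSubgroup.Gamma N := by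
      have := CongruenceSubgroup.ModularGroup_T_pow_mem_Gamma (N : ℤ) (N : ℤ) dvd_rfl
      simpa using this
    have h2 : g⁻¹ * (ModularGroup.T ^ N)⁻¹ * g⁻¹⁻¹ ∈ CongruenceSubgroup.Gamma N :=
      (CongruenceSubgroup.Gamma_normal N).conj_mem _ (inv_mem h1) _
    have h3 : (ModularGroup.T ^ N • g)⁻¹ * g = g⁻¹ * (ModularGroup.T ^ N)⁻¹ * g⁻¹⁻¹ := by
      simp [smul_eq_mul, mul_inv_rev]
    rw [h3]
    rw [CongruenceSubgroup.Gamma_mem] at h2
    rw [CongruenceSubgroup.Gamma0_mem]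
    exact h2.2.2.1

section conj

variable {N : ℕ} [NeZero N] {k : ℤ} {F : Type*} [FunLike F ℍ ℂ]

theorem cj_vadd [SlashInvariantFormClass F (G0 N) k] (f : F) (x : Q N) (j : ℕ) (z : ℍ) :
    cj N k f x ((j : ℝ) +ᵥ z) = cj N k f ((ModularGroup.T ^ j)⁻¹ • x) z := by
  rw [← slash_T_pow_apply k (cj N k f x) j z, cj_slash]

theorem cj_vadd_one [SlashInvariantFormClass F (G0 N) k] (f : F) (x : Q N) (z : ℍ) :
    cj N k f x ((1 : ℝ) +ᵥ z) = cj N k f (ModularGroup.T⁻¹ • x) z := by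
  have := cj_vadd f x 1 z
  simpa using this

theorem cj_vadd_N [SlashInvariantFormClass F (G0 N) k] (f : F) (x : Q N) (z : ℍ) :
    cj N k f x ((N : ℝ) +ᵥ z) = cj N k f x z := by
  rw [cj_vadd f x N z]
  congr 1
  rw [inv_smul_eq_iff, T_pow_N_smul]

end conj

/-! ### Δ-division (PB1b) -/

theorem exists_div_discriminant {N : ℕ} [NeZero N] {k : ℤ} (f : ModularForm (G0 N) k)
    (hf : ∀ x : Q N, (cj N k f x) =O[atImInfty] (fun z : ℍ => Real.exp (-2 * Real.pi * z.im))) :
    ∃ u : ModularForm (G0 N) (k - 12), ∀ z, f z = Δ z * u z := by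
  have hΔ : ∀ γ : SL(2, ℤ), (Δ : ℍ → ℂ) ∣[(12 : ℤ)] γ = Δ := fun γ =>
    levelOne_slash CuspForm.discriminant γ
  have hslash : ∀ γ : SL(2, ℤ), ((f : ℍ → ℂ) / Δ) ∣[k - 12] γ = ((f : ℍ → ℂ) ∣[k] γ) / Δ := by
    intro γ
    rw [div_slash_SL2, hΔ]
  refine ⟨mkMF N (k - 12) ((f : ℍ → ℂ) / Δ) ?_ ?_ ?_, ?_⟩
  · exact (ModularFormClass.holo f).div CuspForm.discriminant.holo' discriminant_ne_zero
  · intro γ hγ
    rw [hslash, slash_eq_of_mem f hγ]
  · intro γ
    rw [hslash]
    have h1 : (f : ℍ → ℂ) ∣[k] γ = cj N k f (QuotientGroup.mk γ⁻¹) := by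
      rw [cj_mk, inv_inv]
    rw [h1]
    have h2 := (hf (QuotientGroup.mk γ⁻¹)).trans exp_isBigO_discriminant
    exact (div_isBoundedUnder_of_isBigO h2).isBigO_one ℝ
  · intro z
    simp only [mkMF_apply, Pi.div_apply]
    field_simp [discriminant_ne_zero z]

/-! ### level one helpers -/

theorem levelOne_vadd_one {k : ℤ} (r : ModularForm 𝒮ℒ k) (z : ℍ) : r ((1 : ℝ) +ᵥ z) = r z :=
  SlashInvariantForm.vAdd_apply_of_mem_strictPeriods r z (by simp)

theorem levelOne_tendsto {k : ℤ} (r : ModularForm 𝒮ℒ k) :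
    Tendsto r atImInfty (𝓝 (valueAtInfty r)) :=
  tendsto_of_periodic_bounded (levelOne_vadd_one r) (ModularFormClass.holo r)
    (ModularFormClass.bdd_at_infty r)

theorem exists_levelOne_one (k : ℤ) (hk : 4 ≤ k) (hk2 : Even k) :
    ∃ e : ModularForm 𝒮ℒ k, Tendsto e atImInfty (𝓝 1) := by
  obtain ⟨n, rfl⟩ : ∃ n : ℕ, (n : ℤ) = k := ⟨k.toNat, Int.toNat_of_nonneg (by omega)⟩
  have hn : 3 ≤ n := by omega
  have hn2 : Even n := by exact_mod_cast hk2
  refine ⟨E hn, ?_⟩
  have h1 := levelOne_tendsto (E hn)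
  have h2 : valueAtInfty (E hn) = 1 := by
    rw [← qExpansion_coeff_zero one_pos
      (ModularFormClass.analyticAt_cuspFunction_zero (E hn) one_pos (by simp))
      (periodic_of_vadd (levelOne_vadd_one (E hn)))]
    exact EisensteinSeries.E_qExpansion_coeff_zero hn hn2
  rwa [h2] at h1

theorem twLim_shift (N : ℕ) [NeZero N] {b : ℕ} (hb : b < N) {g : ℍ → ℂ}
    (hg : MDiff g) (hbd : IsBoundedAtImInfty g) (hper : ∀ z : ℍ, g ((N : ℝ) +ᵥ z) = g z) :
    twLim N b (fun z : ℍ => g ((1 : ℝ) +ᵥ z)) = zet N b * twLim N b g := by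
  apply twLim_eq_of_tendsto
  rw [tw_shift N b hper]
  exact (tw_tendsto N b hb hg hbd hper).const_mul _

/-! ### level-one linear combinations -/

section lincomb

variable {N : ℕ} [NeZero N] {ι : Type} [Fintype ι] (wt : ι → ℤ)
  (F : (i : ι) → ModularForm (G0 N) (wt i))

/-- the function of a level-one linear combination -/
noncomputable def lcFun (k : ℤ) (r : (i : ι) → ModularForm 𝒮ℒ (k - wt i)) : ℍ → ℂ :=
  ∑ i, (r i : ℍ → ℂ) * (F i : ℍ → ℂ)

theorem lcFun_apply (k : ℤ) (r : (i : ι) → ModularForm 𝒮ℒ (k - wt i)) (z : ℍ) :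
    lcFun wt F k r z = ∑ i, r i z * F i z := by
  simp [lcFun, Finset.sum_apply]

theorem lcFun_slash (k : ℤ) (r : (i : ι) → ModularForm 𝒮ℒ (k - wt i)) (γ : SL(2, ℤ)) :
    lcFun wt F k r ∣[k] γ = ∑ i, (r i : ℍ → ℂ) * ((F i : ℍ → ℂ) ∣[wt i] γ) := by
  unfold lcFun
  rw [SlashAction.sum_slash]
  refine Finset.sum_congr rfl fun i _ => ?_
  have h := mul_slash_SL2 (k - wt i) (wt i) γ (r i) (F i)
  rw [sub_add_cancel] at h
  rw [h, levelOne_slash]

/-- a level-one linear combination, as a modular form on `Γ₀(N)` -/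
noncomputable def lincomb (k : ℤ) (r : (i : ι) → ModularForm 𝒮ℒ (k - wt i)) :
    ModularForm (G0 N) k :=
  mkMF N k (lcFun wt F k r)
    (by
      unfold lcFun
      exact MDifferentiable.sum (fun i _ =>
        (ModularFormClass.holo (r i)).mul (ModularFormClass.holo (F i))))
    (by
      intro γ hγ
      rw [lcFun_slash]
      unfold lcFun
      refine Finset.sum_congr rfl fun i _ => ?_
      rw [slash_eq_of_mem (F i) hγ])
    (by
      intro γ
      rw [lcFun_slash]
      refine Finset.sum_induction _ IsBoundedAtImInfty (fun a b ha hb => ha.add hb)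
        (const_boundedAtFilter _ 0) (fun i _ => ?_)
      exact (ModularFormClass.bdd_at_infty (r i)).mul (isBoundedAtImInfty_slash (F i) γ))

theorem lincomb_apply (k : ℤ) (r : (i : ι) → ModularForm 𝒮ℒ (k - wt i)) (z : ℍ) :
    lincomb wt F k r z = ∑ i, r i z * F i z :=
  lcFun_apply wt F k r z

theorem cj_lincomb (k : ℤ) (r : (i : ι) → ModularForm 𝒮ℒ (k - wt i)) (x : Q N) :
    cj N k (lincomb wt F k r) x = ∑ i, (r i : ℍ → ℂ) * cj N (wt i) (F i) x := by
  show (lcFun wt F k r) ∣[k] (Quotient.out x)⁻¹ = _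
  rw [lcFun_slash]
  rfl

theorem twLim_cj_lincomb (k : ℤ) (r : (i : ι) → ModularForm 𝒮ℒ (k - wt i)) (rinf : ι → ℂ)
    (hr : ∀ i, Tendsto (r i) atImInfty (𝓝 (rinf i))) {b : ℕ} (hb : b < N) (x : Q N) :
    twLim N b (cj N k (lincomb wt F k r) x)
      = ∑ i, rinf i * twLim N b (cj N (wt i) (F i) x) := by
  apply twLim_eq_of_tendsto
  rw [cj_lincomb, tw_sum]
  have h1 : ∀ i, tw N b ((r i : ℍ → ℂ) * cj N (wt i) (F i) x)
      = (r i : ℍ → ℂ) * tw N b (cj N (wt i) (F i) x) :=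
    fun i => tw_mul_of_periodic N b (levelOne_vadd_one (r i)) _
  simp_rw [h1]
  have key : ∀ i ∈ Finset.univ,
      Tendsto (fun z => r i z * tw N b (cj N (wt i) (F i) x) z) atImInfty
        (𝓝 (rinf i * twLim N b (cj N (wt i) (F i) x))) :=
    fun i _ => (hr i).mul (tw_tendsto N b hb (cj_mdifferentiable (F i) x)
      (cj_isBoundedAtImInfty (F i) x) (cj_vadd_N (F i) x))
  have h2 := tendsto_finsetSum Finset.univ key
  refine h2.congr fun z => ?_
  simp [Finset.sum_apply]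

end lincomb

/-! ### the leading matrix -/

section lead

variable {N : ℕ} [NeZero N] {ι : Type} [Fintype ι] (wt : ι → ℤ)
  (F : (i : ι) → ModularForm (G0 N) (wt i))

theorem twLim_cj_T_pow {k : ℤ} (f : ModularForm (G0 N) k) {b : ℕ} (hb : b < N) (x : Q N)
    (j : ℕ) :
    twLim N b (cj N k f ((ModularGroup.T ^ j)⁻¹ • x))
      = zet N ((j : ℤ) * (b : ℤ)) * twLim N b (cj N k f x) := by
  induction j with
  | zero => simp [zet_zero]
  | succ j ih =>
    have h1 : (ModularGroup.T ^ (j + 1))⁻¹ • x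
        = ModularGroup.T⁻¹ • ((ModularGroup.T ^ j)⁻¹ • x) := by
      rw [pow_succ, mul_inv_rev, mul_smul]
    have h2 : cj N k f (ModularGroup.T⁻¹ • ((ModularGroup.T ^ j)⁻¹ • x))
        = fun z : ℍ => cj N k f ((ModularGroup.T ^ j)⁻¹ • x) ((1 : ℝ) +ᵥ z) := by
      funext z
      rw [cj_vadd_one]
    rw [h1, h2, twLim_shift N hb (cj_mdifferentiable f _) (cj_isBoundedAtImInfty f _)
      (cj_vadd_N f _), ih, ← mul_assoc, ← zet_add]
    congr 2
    push_cast
    ring

/-- the `b`-th leading coefficient vector of a scalar combination -/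
noncomputable def comp (c : ι → ℂ) (b : ℕ) (x : Q N) : ℂ :=
  ∑ i, c i * twLim N b (cj N (wt i) (F i) x)

/-- the leading matrix `L` -/
noncomputable def lead : Matrix (Q N) ι ℂ :=
  fun x i => ∑ b ∈ Finset.range N, twLim N b (cj N (wt i) (F i) x)

theorem lead_mulVec (c : ι → ℂ) (x : Q N) :
    (lead wt F *ᵥ c) x = ∑ b ∈ Finset.range N, comp wt F c b x := by
  simp only [Matrix.mulVec, dotProduct, lead, comp]
  rw [Finset.sum_comm]
  refine Finset.sum_congr rfl fun i _ => ?_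
  rw [Finset.sum_mul]
  refine Finset.sum_congr rfl fun b _ => ?_
  ring

theorem comp_T_pow (c : ι → ℂ) {b : ℕ} (hb : b < N) (x : Q N) (j : ℕ) :
    comp wt F c b ((ModularGroup.T ^ j)⁻¹ • x)
      = zet N ((j : ℤ) * (b : ℤ)) * comp wt F c b x := by
  simp only [comp]
  rw [Finset.mul_sum]
  refine Finset.sum_congr rfl fun i _ => ?_
  rw [twLim_cj_T_pow (F i) hb]
  ring

theorem sum_zet_comp (c : ι → ℂ) (x : Q N) (j : ℕ) :
    ∑ b ∈ Finset.range N, zet N ((j : ℤ) * (b : ℤ)) * comp wt F c b x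
      = (lead wt F *ᵥ c) ((ModularGroup.T ^ j)⁻¹ • x) := by
  rw [lead_mulVec]
  refine Finset.sum_congr rfl fun b hb => ?_
  rw [comp_T_pow wt F c (Finset.mem_range.mp hb)]

theorem comp_eq_zero_of_lead_mulVec (c : ι → ℂ) (hc : lead wt F *ᵥ c = 0) :
    ∀ b < N, ∀ x : Q N, comp wt F c b x = 0 := by
  intro b hb x
  refine dft_eq_zero N (fun b => comp wt F c b x) (fun j _ => ?_) b hb
  rw [sum_zet_comp, hc]
  rfl

theorem comp_zero_of_lead_mulVec (c : ι → ℂ) (e : Q N → ℂ)
    (he : ∀ (j : ℕ) (x : Q N), e ((ModularGroup.T ^ j)⁻¹ • x) = e x)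
    (hc : lead wt F *ᵥ c = e) (x : Q N) : comp wt F c 0 x = e x := by
  have hN : (N : ℂ) ≠ 0 := Nat.cast_ne_zero.mpr (NeZero.ne N)
  have hN0 : 0 < N := Nat.pos_of_ne_zero (NeZero.ne N)
  have h1 := dft_inv N (fun b => comp wt F c b x) hN0
  have h2 : ∀ j ∈ Finset.range N,
      zet N (-((j : ℤ) * ((0 : ℕ) : ℤ))) *
        (∑ b ∈ Finset.range N, zet N ((j : ℤ) * (b : ℤ)) * comp wt F c b x) = e x := by
    intro j _
    rw [sum_zet_comp, hc, he]
    simp [zet_zero]
  rw [Finset.sum_congr rfl h2] at h1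
  simp only [Finset.sum_const, Finset.card_range, nsmul_eq_mul] at h1
  exact (mul_left_cancel₀ hN h1).symm

end lead

/-! ### injectivity of the leading matrix -/

section inj

variable {N : ℕ} [NeZero N] {ι : Type} [Fintype ι] (wt : ι → ℤ)
  (F : (i : ι) → ModularForm (G0 N) (wt i))

/-- `Δ` as a level one modular form -/
noncomputable def discMF : ModularForm 𝒮ℒ 12 := CuspForm.toModularFormₗ CuspForm.discriminant

theorem discMF_apply (z : ℍ) : discMF z = Δ z := rfl

/-- level one coefficients tending to prescribed scalars -/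
theorem exists_lincomb_scalar (k : ℤ) (hk : ∀ i, 4 ≤ k - wt i ∧ Even (k - wt i)) (c : ι → ℂ) :
    ∃ r : (i : ι) → ModularForm 𝒮ℒ (k - wt i), ∀ i, Tendsto (r i) atImInfty (𝓝 (c i)) := by
  choose e he using fun i => exists_levelOne_one (k - wt i) (hk i).1 (hk i).2
  refine ⟨fun i => c i • e i, fun i => ?_⟩
  have h := (he i).const_mul (c i)
  rw [mul_one] at h
  exact h.congr fun z => by simp

theorem lead_injective (hwt : ∀ i, 0 ≤ wt i ∧ Even (wt i))
    (span : ∀ (k : ℤ) (f : ModularForm (G0 N) k),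
      ∃ r : (i : ι) → ModularForm 𝒮ℒ (k - wt i), ∀ z, f z = ∑ i, r i z * F i z)
    (indep : ∀ (k : ℤ) (r : (i : ι) → ModularForm 𝒮ℒ (k - wt i)),
      (∀ z, ∑ i, r i z * F i z = 0) → ∀ i, r i = 0)
    (c : ι → ℂ) (hc : lead wt F *ᵥ c = 0) : c = 0 := by
  set k₀ : ℤ := 4 + ∑ i, wt i with hk₀
  have hk : ∀ i, 4 ≤ k₀ - wt i ∧ Even (k₀ - wt i) := by
    intro i
    have h1 : wt i ≤ ∑ j, wt j :=
      Finset.single_le_sum (fun j _ => (hwt j).1) (Finset.mem_univ i)
    have h2 : Even (∑ j, wt j) := Finset.even_sum _ (fun j _ => (hwt j).2)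
    refine ⟨by omega, ?_⟩
    have h3 : Even (4 + ∑ j, wt j) := Even.add ⟨2, rfl⟩ h2
    exact h3.sub (hwt i).2
  obtain ⟨r, hr⟩ := exists_lincomb_scalar wt k₀ hk c
  set f := lincomb wt F k₀ r with hf
  have h0 : ∀ x : Q N, ∀ b < N, twLim N b (cj N k₀ f x) = 0 := by
    intro x b hb
    rw [hf, twLim_cj_lincomb wt F k₀ r c hr hb x]
    exact comp_eq_zero_of_lead_mulVec wt F c hc b hb x
  have hO : ∀ x : Q N, (cj N k₀ f x)
      =O[atImInfty] (fun z : ℍ => Real.exp (-2 * Real.pi * z.im)) :=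
    fun x => isBigO_of_twLim_eq_zero N (cj_mdifferentiable f x) (cj_isBoundedAtImInfty f x)
      (cj_vadd_N f x) (h0 x)
  obtain ⟨u, hu⟩ := exists_div_discriminant f hO
  obtain ⟨r', hr'⟩ := span (k₀ - 12) u
  let s : (i : ι) → ModularForm 𝒮ℒ (k₀ - wt i) := fun i =>
    r i - ModularForm.mcast (by ring) (discMF.mul (r' i))
  have hs : ∀ i z, s i z = r i z - Δ z * r' i z := by
    intro i z
    simp [s, discMF_apply]
  have hsum : ∀ z, ∑ i, s i z * F i z = 0 := by
    intro z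
    simp_rw [hs, sub_mul, Finset.sum_sub_distrib]
    have e1 : ∑ i, r i z * F i z = f z := (lincomb_apply wt F k₀ r z).symm
    have e2 : ∑ i, Δ z * r' i z * F i z = Δ z * u z := by
      rw [hr' z, Finset.mul_sum]
      exact Finset.sum_congr rfl fun i _ => by ring
    rw [e1, e2, hu z, sub_self]
  have hs0 := indep k₀ s hsum
  funext i
  have h1 : ∀ z, r i z = Δ z * r' i z := by
    intro z
    have h := hs i z
    rw [hs0 i] at h
    have h' : (0 : ℂ) = r i z - Δ z * r' i z := h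
    linear_combination -h'
  have t1 : Tendsto (r i) atImInfty (𝓝 (c i)) := hr i
  have t2 : Tendsto (fun z => Δ z * r' i z) atImInfty (𝓝 (0 * valueAtInfty (r' i))) :=
    Tendsto.mul discriminant_isZeroAtImInfty (levelOne_tendsto (r' i))
  have t3 : Tendsto (r i) atImInfty (𝓝 (0 * valueAtInfty (r' i))) :=
    t2.congr (fun z => (h1 z).symm)
  have := tendsto_nhds_unique t1 t3
  simpa using this

end inj

/-! ### inverse matrices -/

/-- a matrix with trivial kernel between index types of equal cardinality has a two-sided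
inverse -/
theorem exists_inverse_of_injective {ι κ : Type} [Fintype ι] [DecidableEq ι] [Fintype κ]
    [DecidableEq κ] (L : Matrix κ ι ℂ) (hcard : Fintype.card ι = Fintype.card κ)
    (hinj : ∀ c : ι → ℂ, L *ᵥ c = 0 → c = 0) :
    ∃ M : Matrix ι κ ℂ, M * L = 1 ∧ L * M = 1 := by
  let φ : (ι → ℂ) →ₗ[ℂ] (κ → ℂ) := Matrix.toLin' L
  have hφ : Function.Injective φ := by
    rw [injective_iff_map_eq_zero]
    intro c hc
    exact hinj c (by simpa [φ, Matrix.toLin'_apply] using hc)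
  have hfin : Module.finrank ℂ (ι → ℂ) = Module.finrank ℂ (κ → ℂ) := by
    simp [hcard]
  have hsurj : Function.Surjective φ :=
    (LinearMap.injective_iff_surjective_of_finrank_eq_finrank hfin).mp hφ
  let ψ : (ι → ℂ) ≃ₗ[ℂ] (κ → ℂ) := LinearEquiv.ofBijective φ ⟨hφ, hsurj⟩
  have hL : L = LinearMap.toMatrix' φ := (LinearMap.toMatrix'_toLin' L).symm
  refine ⟨LinearMap.toMatrix' (ψ.symm : (κ → ℂ) →ₗ[ℂ] (ι → ℂ)), ?_, ?_⟩
  · rw [hL, ← LinearMap.toMatrix'_comp]
    have h1 : (ψ.symm : (κ → ℂ) →ₗ[ℂ] (ι → ℂ)) ∘ₗ φ = LinearMap.id := by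
      refine LinearMap.ext fun v => ?_
      exact ψ.symm_apply_apply v
    rw [h1, LinearMap.toMatrix'_id]
  · rw [hL, ← LinearMap.toMatrix'_comp]
    have h1 : φ ∘ₗ (ψ.symm : (κ → ℂ) →ₗ[ℂ] (ι → ℂ)) = LinearMap.id := by
      refine LinearMap.ext fun v => ?_
      exact ψ.apply_symm_apply v
    rw [h1, LinearMap.toMatrix'_id]

/-! ### the twisting matrix -/

section twist

variable {N : ℕ} [NeZero N] {ι : Type} [Fintype ι] (wt : ι → ℤ)
  (F : (i : ι) → ModularForm (G0 N) (wt i))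

/-- the fundamental matrix of the family -/
noncomputable def fundM (z : ℍ) : Matrix (Q N) ι ℂ :=
  fun x i => cj N (wt i) (F i) x z

/-- the twisted fundamental matrix; it tends to `lead` at `i∞` -/
noncomputable def Hm (z : ℍ) : Matrix (Q N) ι ℂ :=
  fun x i => ∑ b ∈ Finset.range N, tw N b (cj N (wt i) (F i) x) z

/-- the twisting matrix: `Hm z = Em z * fundM z` -/
noncomputable def Em (N : ℕ) [NeZero N] (z : ℍ) : Matrix (Q N) (Q N) ℂ :=
  fun x y => ∑ b ∈ Finset.range N, cexp (-(2 * π * I * b * z / N)) *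
    ((N : ℂ)⁻¹ * ∑ j ∈ Finset.range N, zet N (-((j : ℤ) * (b : ℤ))) *
      (if y = (ModularGroup.T ^ j)⁻¹ • x then 1 else 0))

theorem Em_mul_fundM (z : ℍ) : Em N z * fundM wt F z = Hm wt F z := by
  ext x i
  simp only [Matrix.mul_apply, Em, Hm, fundM, tw, iso]
  simp only [Finset.sum_mul, Finset.mul_sum]
  rw [Finset.sum_comm]
  refine Finset.sum_congr rfl fun b _ => ?_
  rw [Finset.sum_comm]
  refine Finset.sum_congr rfl fun j _ => ?_
  rw [cj_vadd (F i) x j z]
  have : ∀ y : Q N, cexp (-(2 * π * I * b * z / N)) * ((N : ℂ)⁻¹ *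
      (zet N (-((j : ℤ) * (b : ℤ))) * (if y = (ModularGroup.T ^ j)⁻¹ • x then 1 else 0)))
        * cj N (wt i) (F i) y z
      = if y = (ModularGroup.T ^ j)⁻¹ • x then cexp (-(2 * π * I * b * z / N)) * ((N : ℂ)⁻¹ *
      (zet N (-((j : ℤ) * (b : ℤ))) * cj N (wt i) (F i) y z)) else 0 := by
    intro y
    split_ifs <;> ring
  simp_rw [this]
  rw [Finset.sum_ite_eq']
  simp

theorem Hm_tendsto (x : Q N) (i : ι) :
    Tendsto (fun z => Hm wt F z x i) atImInfty (𝓝 (lead wt F x i)) := by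
  unfold Hm lead
  exact tendsto_finsetSum _ fun b hb =>
    tw_tendsto N b (Finset.mem_range.mp hb) (cj_mdifferentiable (F i) x)
      (cj_isBoundedAtImInfty (F i) x) (cj_vadd_N (F i) x)

theorem norm_Em_le (z : ℍ) (x y : Q N) :
    ‖Em N z x y‖ ≤ N * Real.exp (2 * π * (N - 1) * z.im / N) := by
  have hN : (0 : ℝ) < N := Nat.cast_pos.mpr (Nat.pos_of_ne_zero (NeZero.ne N))
  unfold Em
  calc ‖∑ b ∈ Finset.range N, cexp (-(2 * π * I * b * z / N)) *
        ((N : ℂ)⁻¹ * ∑ j ∈ Finset.range N, zet N (-((j : ℤ) * (b : ℤ))) *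
          (if y = (ModularGroup.T ^ j)⁻¹ • x then 1 else 0))‖
      ≤ ∑ b ∈ Finset.range N, ‖cexp (-(2 * π * I * b * z / N)) *
        ((N : ℂ)⁻¹ * ∑ j ∈ Finset.range N, zet N (-((j : ℤ) * (b : ℤ))) *
          (if y = (ModularGroup.T ^ j)⁻¹ • x then 1 else 0))‖ := norm_sum_le _ _
    _ ≤ ∑ _b ∈ Finset.range N, Real.exp (2 * π * (N - 1) * z.im / N) := by
        refine Finset.sum_le_sum fun b hb => ?_
        have hb' : b < N := Finset.mem_range.mp hb
        rw [norm_mul, norm_cexp_twist]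
        have h1 : ‖(N : ℂ)⁻¹ * ∑ j ∈ Finset.range N, zet N (-((j : ℤ) * (b : ℤ))) *
            (if y = (ModularGroup.T ^ j)⁻¹ • x then (1 : ℂ) else 0)‖ ≤ 1 := by
          rw [norm_mul, norm_inv, Complex.norm_natCast]
          have h2 : ‖∑ j ∈ Finset.range N, zet N (-((j : ℤ) * (b : ℤ))) *
              (if y = (ModularGroup.T ^ j)⁻¹ • x then (1 : ℂ) else 0)‖ ≤ N := by
            calc _ ≤ ∑ j ∈ Finset.range N, ‖zet N (-((j : ℤ) * (b : ℤ))) *
                  (if y = (ModularGroup.T ^ j)⁻¹ • x then (1 : ℂ) else 0)‖ := norm_sum_le _ _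
              _ ≤ ∑ _j ∈ Finset.range N, (1 : ℝ) := by
                  refine Finset.sum_le_sum fun j _ => ?_
                  rw [norm_mul, norm_zet, one_mul]
                  split_ifs <;> simp
              _ = N := by simp
          rw [inv_mul_le_iff₀ hN]
          simpa using h2
        have h3 : Real.exp (2 * π * b * z.im / N) ≤ Real.exp (2 * π * (N - 1) * z.im / N) := by
          rw [Real.exp_le_exp]
          have hb1 : (b : ℝ) ≤ N - 1 := by
            have : (b : ℝ) + 1 ≤ N := by exact_mod_cast hb'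
            linarith
          have := z.im_pos
          have := Real.pi_pos
          gcongr
        calc Real.exp (2 * π * b * z.im / N) * _ ≤ Real.exp (2 * π * (N - 1) * z.im / N) * 1 :=
              mul_le_mul h3 h1 (norm_nonneg _) (Real.exp_pos _).le
          _ = _ := mul_one _
    _ = N * Real.exp (2 * π * (N - 1) * z.im / N) := by simp

theorem tendsto_disc_mul_Em (x y : Q N) :
    Tendsto (fun z => Δ z * Em N z x y) atImInfty (𝓝 0) := by
  have hN : (0 : ℝ) < N := Nat.cast_pos.mpr (Nat.pos_of_ne_zero (NeZero.ne N))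
  have h1 : (Δ : ℍ → ℂ) =O[atImInfty] fun τ : ℍ => Real.exp (-2 * π * τ.im / 1) :=
    CuspFormClass.exp_decay_atImInfty CuspForm.discriminant one_pos (by simp)
  have h2 : (fun z : ℍ => Em N z x y)
      =O[atImInfty] fun z : ℍ => Real.exp (2 * π * (N - 1) * z.im / N) := by
    refine IsBigO.of_bound N (Eventually.of_forall fun z => ?_)
    rw [Real.norm_eq_abs, abs_of_pos (Real.exp_pos _)]
    exact norm_Em_le z x y
  have h3 := h1.mul h2
  have hT : Tendsto (fun z : ℍ => Real.exp (-2 * π * z.im / 1)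
      * Real.exp (2 * π * (N - 1) * z.im / N)) atImInfty (𝓝 0) := by
    have h4 : ∀ z : ℍ, Real.exp (-2 * π * z.im / 1) * Real.exp (2 * π * (N - 1) * z.im / N)
        = Real.exp (-(2 * π / N) * z.im) := by
      intro z
      rw [← Real.exp_add]
      congr 1
      field_simp
      ring
    simp_rw [h4]
    have h5 : Tendsto (fun y : ℝ => Real.exp (-(2 * π / N) * y)) atTop (𝓝 0) := by
      refine Real.tendsto_exp_atBot.comp (tendsto_id.const_mul_atTop_of_neg ?_)
      have := Real.pi_pos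
      have : 0 < 2 * π / N := by positivity
      linarith
    exact h5.comp tendsto_comap
  exact h3.trans_tendsto hT

end twist

/-! ### main results: PB6a and PB6b -/

section main

variable {N : ℕ} [NeZero N] {ι : Type} [Fintype ι] [DecidableEq ι] (wt : ι → ℤ)
  (F : (i : ι) → ModularForm (G0 N) (wt i))

theorem exists_lead_inverse (hwt : ∀ i, 0 ≤ wt i ∧ Even (wt i))
    (span : ∀ (k : ℤ) (f : ModularForm (G0 N) k),
      ∃ r : (i : ι) → ModularForm 𝒮ℒ (k - wt i), ∀ z, f z = ∑ i, r i z * F i z)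
    (indep : ∀ (k : ℤ) (r : (i : ι) → ModularForm 𝒮ℒ (k - wt i)),
      (∀ z, ∑ i, r i z * F i z = 0) → ∀ i, r i = 0)
    (hcard : Fintype.card ι = Nat.card (Q N)) :
    ∃ M : Matrix ι (Q N) ℂ, M * lead wt F = 1 ∧ lead wt F * M = 1 :=
  exists_inverse_of_injective (lead wt F) (by rw [hcard, Nat.card_eq_fintype_card])
    (lead_injective wt F hwt span indep)

/-- **PB6a**: `Δ · fund⁻¹ → 0` at `i∞`. -/
theorem tendsto_discriminant_mul_inv (hwt : ∀ i, 0 ≤ wt i ∧ Even (wt i))
    (span : ∀ (k : ℤ) (f : ModularForm (G0 N) k),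
      ∃ r : (i : ι) → ModularForm 𝒮ℒ (k - wt i), ∀ z, f z = ∑ i, r i z * F i z)
    (indep : ∀ (k : ℤ) (r : (i : ι) → ModularForm 𝒮ℒ (k - wt i)),
      (∀ z, ∑ i, r i z * F i z = 0) → ∀ i, r i = 0)
    (hcard : Fintype.card ι = Nat.card (Q N))
    (Ψ : ℍ → Matrix ι (Q N) ℂ) (hΨ : ∀ z, fundM wt F z * Ψ z = 1) (i : ι) (x : Q N) :
    Tendsto (fun z => Δ z * Ψ z i x) atImInfty (𝓝 0) := by
  obtain ⟨M, hM1, hM2⟩ := exists_lead_inverse wt F hwt span indep hcard
  set A : ℍ → Matrix ι ι ℂ := fun z => M * Hm wt F z with hA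
  have hAt : Tendsto A atImInfty (𝓝 1) := by
    refine tendsto_pi_nhds.mpr fun i₁ => tendsto_pi_nhds.mpr fun i₂ => ?_
    have h1 : Tendsto (fun z => ∑ y, M i₁ y * Hm wt F z y i₂) atImInfty
        (𝓝 (∑ y, M i₁ y * lead wt F y i₂)) :=
      tendsto_finsetSum _ fun y _ => (Hm_tendsto wt F y i₂).const_mul _
    have h2 : ∑ y, M i₁ y * lead wt F y i₂ = (1 : Matrix ι ι ℂ) i₁ i₂ := by
      rw [← hM1, Matrix.mul_apply]
    rw [h2] at h1
    exact h1.congr fun z => by simp [hA, Matrix.mul_apply]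
  have hdet : Tendsto (fun z => (A z).det) atImInfty (𝓝 1) := by
    have h := ((continuous_id (X := Matrix ι ι ℂ)).matrix_det).tendsto 1
    simp only [id_eq, Matrix.det_one] at h
    exact h.comp hAt
  have hne : ∀ᶠ z in atImInfty, (A z).det ≠ 0 := hdet.eventually_ne one_ne_zero
  have hinv : Tendsto (fun z => (A z)⁻¹) atImInfty (𝓝 1) := by
    have hadj : Tendsto (fun z => (A z).adjugate) atImInfty (𝓝 1) := by
      have h := ((continuous_id (X := Matrix ι ι ℂ)).matrix_adjugate).tendsto 1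
      simp only [id_eq, Matrix.adjugate_one] at h
      exact h.comp hAt
    have hdi : Tendsto (fun z => ((A z).det)⁻¹) atImInfty (𝓝 1) := by
      simpa using hdet.inv₀ one_ne_zero
    have h := hdi.smul hadj
    simp only [one_smul] at h
    refine h.congr fun z => ?_
    rw [Matrix.inv_def, Ring.inverse_eq_inv']
  have hform : ∀ᶠ z in atImInfty, Δ z * Ψ z i x
      = ∑ i', (A z)⁻¹ i i' * ∑ y, M i' y * (Δ z * Em N z y x) := by
    filter_upwards [hne] with z hz
    have h1 : A z * Ψ z = M * Em N z := by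
      simp only [hA]
      rw [← Em_mul_fundM, Matrix.mul_assoc, Matrix.mul_assoc, hΨ z, Matrix.mul_one]
    have h2 : Ψ z = (A z)⁻¹ * (M * Em N z) := by
      rw [← h1, Matrix.nonsing_inv_mul_cancel_left _ _ (isUnit_iff_ne_zero.mpr hz)]
    conv_lhs => rw [h2]
    simp only [Matrix.mul_apply, Finset.mul_sum]
    refine Finset.sum_congr rfl fun i' _ => ?_
    refine Finset.sum_congr rfl fun y _ => ?_
    ring
  have hlim : Tendsto (fun z => ∑ i', (A z)⁻¹ i i' * ∑ y, M i' y * (Δ z * Em N z y x))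
      atImInfty (𝓝 (∑ i', (1 : Matrix ι ι ℂ) i i' * ∑ y : Q N, M i' y * 0)) := by
    refine tendsto_finsetSum _ fun i' _ => Tendsto.mul ?_
      (tendsto_finsetSum _ fun y _ => (tendsto_disc_mul_Em y x).const_mul _)
    exact (tendsto_pi_nhds.mp ((tendsto_pi_nhds.mp hinv) i)) i'
  simp only [mul_zero, Finset.sum_const_zero] at hlim
  exact hlim.congr' (hform.mono fun z hz => hz.symm)

/-- **PB6b** (general weight): every `T`-invariant vector of constant terms is realised. -/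
theorem exists_form_with_limits_gen (hwt : ∀ i, 0 ≤ wt i ∧ Even (wt i))
    (span : ∀ (k : ℤ) (f : ModularForm (G0 N) k),
      ∃ r : (i : ι) → ModularForm 𝒮ℒ (k - wt i), ∀ z, f z = ∑ i, r i z * F i z)
    (indep : ∀ (k : ℤ) (r : (i : ι) → ModularForm 𝒮ℒ (k - wt i)),
      (∀ z, ∑ i, r i z * F i z = 0) → ∀ i, r i = 0)
    (hcard : Fintype.card ι = Nat.card (Q N))
    (k : ℤ) (hk : ∀ i, 4 ≤ k - wt i ∧ Even (k - wt i))
    (e : Q N → ℂ) (he : ∀ x, e (ModularGroup.T • x) = e x) :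
    ∃ f : ModularForm (G0 N) k, ∀ x, Tendsto (cj N k f x) atImInfty (𝓝 (e x)) := by
  obtain ⟨M, hM1, hM2⟩ := exists_lead_inverse wt F hwt span indep hcard
  set c : ι → ℂ := M *ᵥ e with hc
  have hLc : lead wt F *ᵥ c = e := by
    rw [hc, Matrix.mulVec_mulVec, hM2, Matrix.one_mulVec]
  have he' : ∀ (j : ℕ) (x : Q N), e ((ModularGroup.T ^ j)⁻¹ • x) = e x := by
    intro j
    induction j with
    | zero => intro x; simp
    | succ j ih =>
      intro x
      have h1 : (ModularGroup.T ^ (j + 1))⁻¹ • x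
          = ModularGroup.T⁻¹ • ((ModularGroup.T ^ j)⁻¹ • x) := by
        rw [pow_succ, mul_inv_rev, mul_smul]
      rw [h1]
      have h2 := he (ModularGroup.T⁻¹ • ((ModularGroup.T ^ j)⁻¹ • x))
      rw [smul_inv_smul] at h2
      rw [← h2, ih]
  obtain ⟨r, hr⟩ := exists_lincomb_scalar wt k hk c
  refine ⟨lincomb wt F k r, fun x => ?_⟩
  have h1 := tendsto_twLim_zero N (cj_mdifferentiable (lincomb wt F k r) x)
    (cj_isBoundedAtImInfty _ x) (cj_vadd_N _ x)
  have hN0 : 0 < N := Nat.pos_of_ne_zero (NeZero.ne N)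
  rw [twLim_cj_lincomb wt F k r c hr hN0 x] at h1
  have h2 : ∑ i, c i * twLim N 0 (cj N (wt i) (F i) x) = e x :=
    comp_zero_of_lead_mulVec wt F c e he' hLc x
  rwa [h2] at h1

/-- **PB6b**: every `T`-invariant vector of constant terms is realised in weight 14. -/
theorem exists_form_with_limits (hwt : ∀ i, 0 ≤ wt i ∧ Even (wt i)) (hwt10 : ∀ i, wt i ≤ 10)
    (span : ∀ (k : ℤ) (f : ModularForm (G0 N) k),
      ∃ r : (i : ι) → ModularForm 𝒮ℒ (k - wt i), ∀ z, f z = ∑ i, r i z * F i z)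
    (indep : ∀ (k : ℤ) (r : (i : ι) → ModularForm 𝒮ℒ (k - wt i)),
      (∀ z, ∑ i, r i z * F i z = 0) → ∀ i, r i = 0)
    (hcard : Fintype.card ι = Nat.card (Q N))
    (e : Q N → ℂ) (he : ∀ x, e (ModularGroup.T • x) = e x) :
    ∃ f : ModularForm (G0 N) 14, ∀ x, Tendsto (cj N 14 f x) atImInfty (𝓝 (e x)) :=
  exists_form_with_limits_gen wt F hwt span indep hcard 14
    (fun i => ⟨by have := hwt10 i; omega, Even.sub ⟨7, rfl⟩ (hwt i).2⟩) e he

end main

end Cusp
end Fermat.Agent.S20
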