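import Fermat.Agent.S20.Basic

/-!
# Duality (package PB8 of helper8180's skeleton), by helper7580

`S_k(Γ₀(N)) ≃ ⨁_i M_{k + k_i - 12}(SL₂ℤ)` given a family `F_i` whose fundamental matrix is
invertible at every point of `ℍ` and such that `Δ · fund⁻¹ → 0` at `i∞`.
Everything is stated for a generic family (no `FreeBasis` structure needed), on top of `Basic.lean`.
-/

set_option autoImplicit false

open UpperHalfPlane ModularForm Filter Topology Matrix.SpecialLinearGroup
open scoped MatrixGroups ModularForm Manifold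

namespace Fermat.Agent.S20.Dual

local notation "Δ" => ModularForm.discriminant

/-! ### holomorphy of determinants and inverses -/

theorem mdiff_det {n : Type} [Fintype n] [DecidableEq n] (M : ℍ → Matrix n n ℂ)
    (hM : ∀ a b, MDiff (fun z => M z a b)) : MDiff (fun z => (M z).det) := by
  have h1 : (fun z => (M z).det) =
      ∑ σ : Equiv.Perm n, (fun z => ((Equiv.Perm.sign σ : ℤ) : ℂ) * ∏ i, M z (σ i) i) := by
    funext z
    rw [Matrix.det_apply', Finset.sum_apply]
  rw [h1]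
  refine MDifferentiable.sum fun σ _ => ?_
  have h2 : (fun z => ((Equiv.Perm.sign σ : ℤ) : ℂ) * ∏ i, M z (σ i) i) =
      (fun _ : ℍ => ((Equiv.Perm.sign σ : ℤ) : ℂ)) * ∏ i, (fun z => M z (σ i) i) := by
    funext z
    simp [Finset.prod_apply]
  rw [h2]
  exact mdifferentiable_const.mul (MDifferentiable.prod fun i _ => hM _ _)

theorem mdiff_inv_entry {n m : Type} [Fintype n] [DecidableEq n] [Fintype m] [DecidableEq m]
    (A : ℍ → Matrix n m ℂ) (H : ℍ → Matrix m n ℂ) (hA : ∀ a b, MDiff (fun z => A z a b))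
    (hHA : ∀ z, H z * A z = 1) (hAH : ∀ z, A z * H z = 1) (b : m) (a : n) :
    MDiff (fun z => H z b a) := by
  have hcard : Fintype.card n = Fintype.card m :=
    Matrix.square_of_invertible (A UpperHalfPlane.I) (H UpperHalfPlane.I) (hAH _) (hHA _)
  let e : n ≃ m := Fintype.equivOfCardEq hcard
  let M : ℍ → Matrix n n ℂ := fun z a a' => A z a (e a')
  let H' : ℍ → Matrix n n ℂ := fun z a a' => H z (e a) a'
  have hH'M : ∀ z, H' z * M z = 1 := by
    intro z
    ext a a'
    have := congrFun (congrFun (hHA z) (e a)) (e a')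
    simp only [Matrix.mul_apply, Matrix.one_apply, EmbeddingLike.apply_eq_iff_eq] at this ⊢
    exact this
  have hdet : ∀ z, (M z).det ≠ 0 := by
    intro z h0
    have := congrArg Matrix.det (hH'M z)
    rw [Matrix.det_mul, h0, mul_zero, Matrix.det_one] at this
    exact zero_ne_one this
  have hinv : ∀ z, (M z)⁻¹ = H' z := fun z => Matrix.inv_eq_left_inv (hH'M z)
  have hform : (fun z => H z b a) =
      fun z => ((M z).updateRow a (Pi.single (e.symm b) 1)).det / (M z).det := by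
    funext z
    have h1 : H z b a = H' z (e.symm b) a := by simp [H']
    rw [h1, ← hinv z, Matrix.inv_def, Matrix.smul_apply, Matrix.adjugate_apply,
      Ring.inverse_eq_inv', smul_eq_mul]
    field_simp
  rw [hform]
  have hMd : ∀ a₁ a₂, MDiff (fun z => M z a₁ a₂) := fun a₁ a₂ => hA _ _
  refine MDifferentiable.div ?_ (mdiff_det M hMd) hdet
  refine mdiff_det _ fun a₁ a₂ => ?_
  by_cases h : a₁ = a
  · subst h
    simp only [Matrix.updateRow_self]
    exact mdifferentiable_const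
  · simp only [Matrix.updateRow_ne h]
    exact hMd _ _


/-! ### the fundamental matrix and its inverse -/

section
variable {N : ℕ} [NeZero N] {ι : Type} [Fintype ι] [DecidableEq ι]
  (wt : ι → ℤ) (F : (i : ι) → ModularForm (G0 N) (wt i))
  (H : ℍ → Matrix ι (Q N) ℂ)

/-- the fundamental matrix `(F_i^x(z))_{x,i}` -/
noncomputable def fundM (z : ℍ) : Matrix (Q N) ι ℂ := fun x i => cj N (wt i) (F i) x z

omit [NeZero N] [Fintype ι] [DecidableEq ι] in
theorem fundM_smul (γ : SL(2, ℤ)) (z : ℍ) (x : Q N) (i : ι) :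
    fundM wt F (γ • z) x i = denom γ z ^ (wt i) * fundM wt F z (γ⁻¹ • x) i :=
  cj_smul_apply (F i) x γ z

variable {wt F H}

theorem inv_smul (hHF : ∀ z, H z * fundM wt F z = 1) (hFH : ∀ z, fundM wt F z * H z = 1)
    (γ : SL(2, ℤ)) (z : ℍ) (i : ι) (x : Q N) :
    H (γ • z) i x = denom γ z ^ (-wt i) * H z i (γ⁻¹ • x) := by
  have hd : denom γ z ≠ 0 := denom_ne_zero γ z
  let H' : Matrix ι (Q N) ℂ := fun i x => denom γ z ^ (-wt i) * H z i (γ⁻¹ • x)
  have h1 : H' * fundM wt F (γ • z) = 1 := by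
    ext i j
    simp only [Matrix.mul_apply, H', fundM_smul]
    have h2 : ∀ x : Q N, denom γ z ^ (-wt i) * H z i (γ⁻¹ • x) *
        (denom γ z ^ wt j * fundM wt F z (γ⁻¹ • x) j) =
        (denom γ z ^ (-wt i) * denom γ z ^ wt j) *
          (fun y => H z i y * fundM wt F z y j) (γ⁻¹ • x) := fun x => by ring
    have h5 : ∑ x : Q N, (fun y => H z i y * fundM wt F z y j) (γ⁻¹ • x) =
        ∑ y, H z i y * fundM wt F z y j :=
      Equiv.sum_comp (MulAction.toPerm γ⁻¹) (fun y => H z i y * fundM wt F z y j)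
    have h3 : ∑ y, H z i y * fundM wt F z y j = (1 : Matrix ι ι ℂ) i j := by
      rw [← hHF z, Matrix.mul_apply]
    rw [Finset.sum_congr rfl fun x _ => h2 x, ← Finset.mul_sum, h5, h3, Matrix.one_apply]
    split_ifs with hij
    · subst hij
      rw [mul_one, ← zpow_add₀ hd]
      simp
    · simp
  have h4 : H (γ • z) = H' := by
    calc H (γ • z) = (H' * fundM wt F (γ • z)) * H (γ • z) := by rw [h1, Matrix.one_mul]
      _ = H' * (fundM wt F (γ • z) * H (γ • z)) := by rw [Matrix.mul_assoc]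
      _ = H' := by rw [hFH, Matrix.mul_one]
  rw [h4]

/-! ### the dual functions -/

variable (wt H) in
/-- `g_x(z) = Δ(z) ∑_i H(z)_{i,x} b_i(z)` -/
noncomputable def dualFun (k : ℤ) (b : (i : ι) → ModularForm 𝒮ℒ (k + wt i - 12)) (x : Q N)
    (z : ℍ) : ℂ := Δ z * ∑ i, H z i x * b i z

theorem discriminant_smul (γ : SL(2, ℤ)) (z : ℍ) :
    Δ (γ • z) = denom γ z ^ (12 : ℤ) * Δ z :=
  SlashInvariantForm.slash_action_eqn'' CuspForm.discriminant
    (show (mapGL ℝ γ) ∈ 𝒮ℒ from ⟨γ, rfl⟩) z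

theorem levelOne_smul {k : ℤ} (b : ModularForm 𝒮ℒ k) (γ : SL(2, ℤ)) (z : ℍ) :
    b (γ • z) = denom γ z ^ k * b z :=
  SlashInvariantForm.slash_action_eqn'' b (show (mapGL ℝ γ) ∈ 𝒮ℒ from ⟨γ, rfl⟩) z

theorem dualFun_smul (hHF : ∀ z, H z * fundM wt F z = 1) (hFH : ∀ z, fundM wt F z * H z = 1)
    (k : ℤ) (b : (i : ι) → ModularForm 𝒮ℒ (k + wt i - 12)) (x : Q N) (γ : SL(2, ℤ)) (z : ℍ) :
    dualFun wt H k b x (γ • z) = denom γ z ^ k * dualFun wt H k b (γ⁻¹ • x) z := by
  have hd : denom γ z ≠ 0 := denom_ne_zero γ z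
  unfold dualFun
  rw [discriminant_smul, Finset.mul_sum, Finset.mul_sum, Finset.mul_sum]
  refine Finset.sum_congr rfl fun i _ => ?_
  rw [inv_smul hHF hFH, levelOne_smul]
  have h1 : denom γ z ^ (12 : ℤ) * Δ z *
      (denom γ z ^ (-wt i) * H z i (γ⁻¹ • x) * (denom γ z ^ (k + wt i - 12) * (b i) z)) =
      (denom γ z ^ (12 : ℤ) * denom γ z ^ (-wt i) * denom γ z ^ (k + wt i - 12)) *
        (Δ z * (H z i (γ⁻¹ • x) * (b i) z)) := by ring
  rw [h1, ← zpow_add₀ hd, ← zpow_add₀ hd]
  have h2 : (12 : ℤ) + -wt i + (k + wt i - 12) = k := by ring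
  rw [h2]

theorem dualFun_slash (hHF : ∀ z, H z * fundM wt F z = 1) (hFH : ∀ z, fundM wt F z * H z = 1)
    (k : ℤ) (b : (i : ι) → ModularForm 𝒮ℒ (k + wt i - 12)) (x : Q N) (γ : SL(2, ℤ)) :
    (dualFun wt H k b x) ∣[k] γ = dualFun wt H k b (γ⁻¹ • x) := by
  ext z
  have hd : denom γ z ≠ 0 := denom_ne_zero γ z
  rw [SL_slash_apply, dualFun_smul hHF hFH]
  have h1 : denom γ z ^ k * dualFun wt H k b (γ⁻¹ • x) z * denom γ z ^ (-k) =
      (denom γ z ^ k * denom γ z ^ (-k)) * dualFun wt H k b (γ⁻¹ • x) z := by ring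
  rw [show denom (toGL ((Matrix.SpecialLinearGroup.map (Int.castRingHom ℝ)) γ)) z = denom γ z
    from rfl, h1, ← zpow_add₀ hd]
  simp

theorem dualFun_mdiff (hHF : ∀ z, H z * fundM wt F z = 1) (hFH : ∀ z, fundM wt F z * H z = 1)
    (k : ℤ) (b : (i : ι) → ModularForm 𝒮ℒ (k + wt i - 12)) (x : Q N) :
    MDiff (dualFun wt H k b x) := by
  have hH : ∀ i, MDiff (fun z => H z i x) := fun i =>
    mdiff_inv_entry (fundM wt F) H (fun a c => cj_mdifferentiable (F c) a) hHF hFH i x
  have h1 : dualFun wt H k b x =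
      (Δ : ℍ → ℂ) * ∑ i, ((fun z => H z i x) * (b i : ℍ → ℂ)) := by
    funext z
    simp [dualFun, Finset.sum_apply]
  rw [h1]
  refine MDifferentiable.mul (CuspFormClass.holo CuspForm.discriminant) ?_
  exact MDifferentiable.sum fun i _ => (hH i).mul (ModularFormClass.holo (b i))

omit [NeZero N] [DecidableEq ι] in
theorem dualFun_isZeroAtImInfty
    (hzero : ∀ i x, Tendsto (fun z => Δ z * H z i x) atImInfty (𝓝 0))
    (k : ℤ) (b : (i : ι) → ModularForm 𝒮ℒ (k + wt i - 12)) (x : Q N) :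
    IsZeroAtImInfty (dualFun wt H k b x) := by
  have h1 : dualFun wt H k b x = fun z => ∑ i, (Δ z * H z i x) * b i z := by
    funext z
    simp only [dualFun, Finset.mul_sum, mul_assoc]
  rw [h1]
  unfold IsZeroAtImInfty ZeroAtFilter
  have h2 : (0 : ℂ) = ∑ _i : ι, (0 : ℂ) := by simp
  rw [h2]
  refine tendsto_finsetSum _ fun i _ => ?_
  have hb : IsBoundedAtImInfty (b i : ℍ → ℂ) := ModularFormClass.bdd_at_infty (b i)
  exact ZeroAtFilter.mul_boundedAtFilter (hzero i x) hb

/-- the dual cusp form attached to a tuple of level one forms -/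
noncomputable def dualForm (hHF : ∀ z, H z * fundM wt F z = 1)
    (hFH : ∀ z, fundM wt F z * H z = 1)
    (hzero : ∀ i x, Tendsto (fun z => Δ z * H z i x) atImInfty (𝓝 0))
    (k : ℤ) (b : (i : ι) → ModularForm 𝒮ℒ (k + wt i - 12)) : CuspForm (G0 N) k :=
  mkCF N k (dualFun wt H k b (QuotientGroup.mk 1)) (dualFun_mdiff hHF hFH k b _)
    (fun γ hγ => by
      rw [dualFun_slash hHF hFH]
      congr 1
      rw [MulAction.Quotient.smul_mk, QuotientGroup.eq]
      simpa using hγ)
    (fun γ => by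
      rw [dualFun_slash hHF hFH]
      exact dualFun_isZeroAtImInfty hzero k b _)

theorem cj_dualForm (hHF : ∀ z, H z * fundM wt F z = 1)
    (hFH : ∀ z, fundM wt F z * H z = 1)
    (hzero : ∀ i x, Tendsto (fun z => Δ z * H z i x) atImInfty (𝓝 0))
    (k : ℤ) (b : (i : ι) → ModularForm 𝒮ℒ (k + wt i - 12)) (x : Q N) :
    cj N k (dualForm hHF hFH hzero k b) x = dualFun wt H k b x := by
  induction x using QuotientGroup.induction_on with
  | H a =>
    rw [cj_mk]
    have h1 : (dualForm hHF hFH hzero k b : ℍ → ℂ) = dualFun wt H k b (QuotientGroup.mk 1) := rfl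
    rw [h1, dualFun_slash hHF hFH, MulAction.Quotient.smul_mk]
    simp

/-! ### the trace pairing -/

variable (wt F) in
/-- the trace `∑_x g^x F_i^x` as a function -/
noncomputable def pairFun (k : ℤ) (i : ι) (g : ℍ → ℂ) : ℍ → ℂ :=
  ∑ x : Q N, cj N k g x * cj N (wt i) (F i) x

omit [DecidableEq ι] [Fintype ι] in
theorem pairFun_apply (k : ℤ) (i : ι) (g : ℍ → ℂ) (z : ℍ) :
    pairFun wt F k i g z = ∑ x : Q N, cj N k g x z * fundM wt F z x i := by
  simp [pairFun, Finset.sum_apply, fundM]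

omit [DecidableEq ι] [Fintype ι] in
theorem pairFun_slash (k : ℤ) (i : ι) (g : CuspForm (G0 N) k) (γ : SL(2, ℤ)) :
    (pairFun wt F k i g) ∣[k + wt i] γ = pairFun wt F k i g := by
  unfold pairFun
  rw [SL_slash, SlashAction.sum_slash]
  have h1 : ∀ x : Q N, (cj N k g x * cj N (wt i) (F i) x) ∣[k + wt i] (γ : GL (Fin 2) ℝ) =
      (fun y => cj N k g y * cj N (wt i) (F i) y) (γ⁻¹ • x) := by
    intro x
    rw [← SL_slash, mul_slash_SL2, cj_slash, cj_slash]
  rw [Finset.sum_congr rfl fun x _ => h1 x]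
  exact Equiv.sum_comp (MulAction.toPerm γ⁻¹) (fun y => cj N k g y * cj N (wt i) (F i) y)

variable (wt F) in
/-- the trace `∑_x g^x F_i^x` as a level one cusp form -/
noncomputable def pairCF (k : ℤ) (i : ι) (g : CuspForm (G0 N) k) : CuspForm 𝒮ℒ (k + wt i) where
  toFun := pairFun wt F k i g
  slash_action_eq' := by
    rintro _ ⟨γ, rfl⟩
    have := pairFun_slash (wt := wt) (F := F) k i g γ
    rwa [SL_slash] at this
  holo' := by
    show MDiff (pairFun wt F k i g)
    unfold pairFun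
    exact MDifferentiable.sum fun x _ =>
      (cj_mdifferentiable g x).mul (cj_mdifferentiable (F i) x)
  zero_at_cusps' := by
    intro c hc
    rw [OnePoint.isZeroAt_iff_forall_SL2Z hc]
    intro γ _
    show IsZeroAtImInfty ((pairFun wt F k i g) ∣[k + wt i] γ)
    rw [pairFun_slash]
    have h3 : pairFun wt F k i g =
        fun z => ∑ x : Q N, cj N k g x z * cj N (wt i) (F i) x z := by
      funext z
      simp [pairFun, Finset.sum_apply]
    rw [h3]
    unfold IsZeroAtImInfty ZeroAtFilter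
    have h2 : (0 : ℂ) = ∑ _x : Q N, (0 : ℂ) := by simp
    rw [h2]
    refine tendsto_finsetSum _ fun x _ => ?_
    exact ZeroAtFilter.mul_boundedAtFilter (cj_isZeroAtImInfty g x)
      (cj_isBoundedAtImInfty (F i) x)

omit [DecidableEq ι] [Fintype ι] in
theorem pairCF_apply (k : ℤ) (i : ι) (g : CuspForm (G0 N) k) (z : ℍ) :
    pairCF wt F k i g z = ∑ x : Q N, cj N k g x z * fundM wt F z x i :=
  pairFun_apply k i g z

variable (wt F) in
/-- the `i`-th component of the duality map `g ↦ Tr(g F_i)/Δ`, as a linear map -/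
noncomputable def psiComp (k : ℤ) (i : ι) :
    CuspForm (G0 N) k →ₗ[ℂ] ModularForm 𝒮ℒ (k + wt i - 12) :=
  (CuspForm.discriminantEquiv :
      CuspForm 𝒮ℒ (k + wt i) ≃ₗ[ℂ] ModularForm 𝒮ℒ (k + wt i - 12)).toLinearMap ∘ₗ
    { toFun := pairCF wt F k i
      map_add' := fun g₁ g₂ => by
        ext z
        have h1 : ((g₁ + g₂ : CuspForm (G0 N) k) : ℍ → ℂ) = (g₁ : ℍ → ℂ) + g₂ := rfl
        have h2 : (pairCF wt F k i g₁ + pairCF wt F k i g₂) z =
            pairCF wt F k i g₁ z + pairCF wt F k i g₂ z := rfl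
        rw [h2, pairCF_apply, pairCF_apply, pairCF_apply, h1, ← Finset.sum_add_distrib]
        refine Finset.sum_congr rfl fun x _ => ?_
        rw [cj_add, Pi.add_apply, add_mul]
      map_smul' := fun c g => by
        ext z
        have h1 : ((c • g : CuspForm (G0 N) k) : ℍ → ℂ) = c • (g : ℍ → ℂ) := rfl
        have h2 : (c • pairCF wt F k i g) z = c * pairCF wt F k i g z := rfl
        rw [RingHom.id_apply, h2, pairCF_apply, pairCF_apply, h1, Finset.mul_sum]
        refine Finset.sum_congr rfl fun x _ => ?_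
        rw [cj_smul, Pi.smul_apply, smul_eq_mul, mul_assoc] }

variable (wt F) in
/-- the duality map `S_k(Γ₀(N)) → ⨁_i M_{k+k_i-12}(SL₂ℤ)` -/
noncomputable def psi (k : ℤ) :
    CuspForm (G0 N) k →ₗ[ℂ] ((i : ι) → ModularForm 𝒮ℒ (k + wt i - 12)) :=
  LinearMap.pi (psiComp wt F k)

omit [DecidableEq ι] [Fintype ι] in
theorem psi_apply (k : ℤ) (g : CuspForm (G0 N) k) (i : ι) (z : ℍ) :
    psi wt F k g i z = (∑ x : Q N, cj N k g x z * fundM wt F z x i) / Δ z := by
  show (CuspForm.discriminantEquiv (pairCF wt F k i g)) z = _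
  rw [CuspForm.discriminantEquiv_apply, pairCF_apply]

omit [DecidableEq ι] in
theorem psi_injective (hFH : ∀ z, fundM wt F z * H z = 1) (k : ℤ) :
    Function.Injective (psi wt F k) := by
  rw [injective_iff_map_eq_zero]
  intro g hg
  ext z
  have h1 : ∀ i, ∑ x : Q N, cj N k g x z * fundM wt F z x i = 0 := by
    intro i
    have h2 : psi wt F k g i z = 0 := by rw [hg]; rfl
    rw [psi_apply, div_eq_zero_iff] at h2
    exact h2.resolve_right (ModularForm.discriminant_ne_zero z)
  have h3 : Matrix.vecMul (fun x => cj N k g x z) (fundM wt F z) = 0 := by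
    funext i
    exact h1 i
  have h4 : (fun x => cj N k g x z) = 0 := by
    have := congrArg (fun v => Matrix.vecMul v (H z)) h3
    simpa [Matrix.vecMul_vecMul, hFH z] using this
  have h5 := congrFun h4 (QuotientGroup.mk 1)
  rw [cj_one] at h5
  exact h5

theorem psi_dualForm (hHF : ∀ z, H z * fundM wt F z = 1)
    (hFH : ∀ z, fundM wt F z * H z = 1)
    (hzero : ∀ i x, Tendsto (fun z => Δ z * H z i x) atImInfty (𝓝 0))
    (k : ℤ) (b : (i : ι) → ModularForm 𝒮ℒ (k + wt i - 12)) :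
    psi wt F k (dualForm hHF hFH hzero k b) = b := by
  funext i
  refine ModularForm.ext fun z => ?_
  have hΔ := ModularForm.discriminant_ne_zero z
  have hcj : ∀ x : Q N, cj N k (dualForm hHF hFH hzero k b) x z =
      Δ z * ∑ j, H z j x * (b j) z := fun x => by
    rw [cj_dualForm hHF hFH hzero k b x]
    rfl
  have hsum : ∑ x : Q N, cj N k (dualForm hHF hFH hzero k b) x z * fundM wt F z x i =
      (b i) z * Δ z := by
    calc ∑ x : Q N, cj N k (dualForm hHF hFH hzero k b) x z * fundM wt F z x i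
        = ∑ x : Q N, ∑ j, Δ z * ((b j) z * (H z j x * fundM wt F z x i)) := by
          refine Finset.sum_congr rfl fun x _ => ?_
          rw [hcj x, Finset.mul_sum, Finset.sum_mul]
          refine Finset.sum_congr rfl fun j _ => by ring
      _ = ∑ j, ∑ x : Q N, Δ z * ((b j) z * (H z j x * fundM wt F z x i)) := Finset.sum_comm
      _ = ∑ j, Δ z * ((b j) z * (1 : Matrix ι ι ℂ) j i) := by
          refine Finset.sum_congr rfl fun j _ => ?_
          rw [← Finset.mul_sum, ← Finset.mul_sum, ← hHF z, Matrix.mul_apply]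
      _ = (b i) z * Δ z := by
          simp [Matrix.one_apply, mul_comm]
  rw [psi_apply k (dualForm hHF hFH hzero k b) i z, hsum, mul_div_assoc, div_self hΔ, mul_one]

/-- **PB8a**: `dim S_k(Γ₀(N)) = ∑_i dim M_{k + k_i - 12}(SL₂ℤ)`. -/
theorem finrank_cuspForm_of_inverse (hHF : ∀ z, H z * fundM wt F z = 1)
    (hFH : ∀ z, fundM wt F z * H z = 1)
    (hzero : ∀ i x, Tendsto (fun z => Δ z * H z i x) atImInfty (𝓝 0)) (k : ℤ) :
    Module.finrank ℂ (CuspForm (G0 N) k)
      = ∑ i, Module.finrank ℂ (ModularForm 𝒮ℒ (k + wt i - 12)) := by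
  rw [← Module.finrank_pi_fintype ℂ]
  exact LinearEquiv.finrank_eq (LinearEquiv.ofBijective (psi wt F k)
    ⟨psi_injective hFH k, fun b => ⟨dualForm hHF hFH hzero k b, psi_dualForm hHF hFH hzero k b⟩⟩)

omit [Fintype ι] [DecidableEq ι] in
/-- **PB0f**: cusp forms of weight `≤ 0` vanish. -/
theorem cuspForm_eq_zero_of_nonpos {k : ℤ} (hk : k ≤ 0) (f : CuspForm (G0 N) k) : f = 0 := by
  rcases hk.lt_or_eq with hk | rfl
  · have h := ModularForm.isZero_of_neg_weight hk (ModularFormClass.modularForm f)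
    ext z
    exact congrArg (fun g : ModularForm (G0 N) k => g z) h
  · obtain ⟨c, hc⟩ := ModularForm.eq_const_of_weight_zero (ModularFormClass.modularForm f)
    have hc' : (f : ℍ → ℂ) = Function.const ℍ c := hc
    have h0 : IsZeroAtImInfty (f : ℍ → ℂ) := by
      have := cj_isZeroAtImInfty f (QuotientGroup.mk 1)
      rwa [cj_one] at this
    rw [hc'] at h0
    have hc0 : c = 0 := tendsto_nhds_unique tendsto_const_nhds h0
    ext z
    rw [hc', hc0]
    rfl

/-- **PB8b**: the weights of the family are at most `10`. -/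
theorem wt_le_of_inverse (hHF : ∀ z, H z * fundM wt F z = 1)
    (hFH : ∀ z, fundM wt F z * H z = 1)
    (hzero : ∀ i x, Tendsto (fun z => Δ z * H z i x) atImInfty (𝓝 0))
    (heven : ∀ i, Even (wt i)) (i₀ : ι) : wt i₀ ≤ 10 := by
  by_contra hcon
  have h12 : 12 ≤ wt i₀ := by
    obtain ⟨m, hm⟩ := heven i₀
    omega
  set k : ℤ := 12 - wt i₀ with hk
  let b : (i : ι) → ModularForm 𝒮ℒ (k + wt i - 12) := fun i =>
    if h : i = i₀ then ModularForm.mcast (by rw [h, hk]; ring) (1 : ModularForm 𝒮ℒ 0) else 0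
  have hg : dualForm hHF hFH hzero k b = 0 := cuspForm_eq_zero_of_nonpos (by omega) _
  have hb : psi wt F k (dualForm hHF hFH hzero k b) = b := psi_dualForm hHF hFH hzero k b
  rw [hg, map_zero] at hb
  have h1 : (b i₀) UpperHalfPlane.I = 0 := by rw [← hb]; rfl
  have h2 : (b i₀) UpperHalfPlane.I = 1 := by
    simp only [b, dif_pos]
    rfl
  rw [h2] at h1
  exact one_ne_zero h1

end

end Fermat.Agent.S20.Dual
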