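import Fermat.Agent.S20.Basic

/-!
# S20, block B7: evaluation of the fundamental matrix at the elliptic points

If the fundamental matrix `(F_i^x(z))_{x,i}` is invertible at a fixed point `z` of `g ∈ SL(2,ℤ)`,
then `∑ i, (denom g z) ^ (wt i) = #{x ∈ SL(2,ℤ)/Γ₀(N) | g • x = x}`.
Specialisations: `g = S`, `z = i`, and `g = S * T`, `z = ρ = exp(2πi/3)`.
Everything is stated on plain data (no `FreeBasis` structure), so that the file only depends on
`Basic.lean`.
-/

set_option autoImplicit false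

open UpperHalfPlane ModularForm Matrix.SpecialLinearGroup
open scoped MatrixGroups ModularForm Manifold

namespace Fermat.Agent.S20

/-- the fundamental matrix `(F_i^x(z))_{x,i}` of a family of forms (plain-data version of
`FreeBasis.fund`) -/
noncomputable def fundMat {N : ℕ} {ι : Type} (wt : ι → ℤ)
    (F : (i : ι) → ModularForm (G0 N) (wt i)) (z : ℍ) : Matrix (Q N) ι ℂ :=
  fun x i => cj N (wt i) (F i) x z

/-- Trace identity at a fixed point. -/
theorem sum_denom_zpow_eq_card_fixed {N : ℕ} [NeZero N] {ι : Type} [Fintype ι] [DecidableEq ι]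
    (wt : ι → ℤ) (F : (i : ι) → ModularForm (G0 N) (wt i)) (g : SL(2, ℤ)) (z : ℍ)
    (hz : g • z = z)
    (hinv : ∃ H : Matrix ι (Q N) ℂ, H * fundMat wt F z = 1 ∧ fundMat wt F z * H = 1) :
    ∑ i, denom g z ^ (wt i) = (Nat.card {x : Q N // g • x = x} : ℂ) := by
  classical
  obtain ⟨H, hH, hH'⟩ := hinv
  set M : Matrix (Q N) ι ℂ := fundMat wt F z with hM
  -- the permutation matrix of `x ↦ g • x`
  set P : Matrix (Q N) (Q N) ℂ := fun x y => if y = g • x then 1 else 0 with hP
  set D : Matrix ι ι ℂ := Matrix.diagonal (fun i => denom g z ^ (wt i)) with hD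
  have key : P * M = M * D := by
    ext x i
    rw [Matrix.mul_apply, hD, Matrix.mul_diagonal]
    simp only [hP, ite_mul, one_mul, zero_mul, Finset.sum_ite_eq', Finset.mem_univ, if_true, hM,
      fundMat]
    have h := cj_smul_apply (F i) (g • x) g z
    rw [hz, inv_smul_smul] at h
    rw [h, mul_comm]
  have h1 : H * P * M = D := by
    rw [Matrix.mul_assoc, key, ← Matrix.mul_assoc, hH, Matrix.one_mul]
  have h2 : Matrix.trace D = Matrix.trace P := by
    rw [← h1, Matrix.mul_assoc, Matrix.trace_mul_comm, Matrix.mul_assoc, hH', Matrix.mul_one]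
  have h3 : Matrix.trace D = ∑ i, denom g z ^ (wt i) := by
    rw [hD, Matrix.trace_diagonal]
  have h4 : Matrix.trace P = (Nat.card {x : Q N // g • x = x} : ℂ) := by
    rw [Matrix.trace]
    simp only [Matrix.diag_apply, hP]
    rw [Finset.sum_boole, Nat.card_eq_fintype_card, Fintype.card_subtype]
    congr 2
    ext x
    simp only [Finset.mem_filter, Finset.mem_univ, true_and]
    exact eq_comm
  rw [← h3, h2, h4]

/-- B7 at `i`: `∑ I ^ wt i = #Fix(S)`. -/
theorem sum_I_pow_of_inverse {N : ℕ} [NeZero N] {ι : Type} [Fintype ι] [DecidableEq ι]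
    (wt : ι → ℤ) (F : (i : ι) → ModularForm (G0 N) (wt i))
    (hinv : ∀ z : ℍ, ∃ H : Matrix ι (Q N) ℂ, H * fundMat wt F z = 1 ∧ fundMat wt F z * H = 1) :
    ∑ i, (Complex.I : ℂ) ^ (wt i) = (Nat.card {x : Q N // ModularGroup.S • x = x} : ℂ) := by
  have hz : ModularGroup.S • UpperHalfPlane.I = UpperHalfPlane.I := by
    rw [UpperHalfPlane.modular_S_smul, UpperHalfPlane.ext_iff]
    simp [UpperHalfPlane.coe_I]
  have h := sum_denom_zpow_eq_card_fixed wt F ModularGroup.S UpperHalfPlane.I hz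
    (hinv UpperHalfPlane.I)
  rw [ModularGroup.denom_S] at h
  simpa [UpperHalfPlane.coe_I] using h

/-- the point `ρ = exp(2πi/3) = -1/2 + (√3/2) i` of the upper half plane -/
noncomputable def rhoPt : ℍ :=
  ⟨-1 / 2 + (Real.sqrt 3 / 2 : ℝ) * Complex.I, by simp⟩

theorem rhoPt_coe : (rhoPt : ℂ) = -1 / 2 + (Real.sqrt 3 / 2 : ℝ) * Complex.I := rfl

theorem exp_pi_div_three :
    Complex.exp (Real.pi * Complex.I / 3) = 1 / 2 + (Real.sqrt 3 / 2 : ℝ) * Complex.I := by
  have h : (Real.pi : ℂ) * Complex.I / 3 = ((Real.pi / 3 : ℝ) : ℂ) * Complex.I := by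
    push_cast; ring
  rw [h, Complex.exp_mul_I, ← Complex.ofReal_cos, ← Complex.ofReal_sin, Real.cos_pi_div_three,
    Real.sin_pi_div_three]
  push_cast
  ring

/-- the matrix `S * T = (0, -1; 1, 1)` -/
noncomputable def stMat : SL(2, ℤ) := ModularGroup.S * ModularGroup.T

theorem denom_stMat_rhoPt :
    denom stMat rhoPt = Complex.exp (Real.pi * Complex.I / 3) := by
  have e10 : stMat 1 0 = 1 := by rfl
  have e11 : stMat 1 1 = 1 := by rfl
  rw [exp_pi_div_three, ModularGroup.denom_apply, rhoPt_coe, e10, e11]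
  push_cast
  ring

theorem stMat_smul_rhoPt : stMat • rhoPt = rhoPt := by
  have e00 : stMat 0 0 = 0 := by rfl
  have e01 : stMat 0 1 = -1 := by rfl
  have e10 : stMat 1 0 = 1 := by rfl
  have e11 : stMat 1 1 = 1 := by rfl
  rw [UpperHalfPlane.ext_iff, UpperHalfPlane.coe_specialLinearGroup_apply, rhoPt_coe, e00, e01,
    e10, e11]
  have h3 : ((Real.sqrt 3 : ℝ) : ℂ) ^ 2 = 3 := by
    rw [← Complex.ofReal_pow, Real.sq_sqrt (by norm_num)]; norm_num
  have hne : ((algebraMap ℤ ℝ 1 : ℝ) : ℂ) * (-1 / 2 + ((Real.sqrt 3 / 2 : ℝ) : ℂ) * Complex.I)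
      + ((algebraMap ℤ ℝ 1 : ℝ) : ℂ) ≠ 0 := by
    intro h
    have := congrArg Complex.re h
    simp at this
    norm_num at this
  rw [div_eq_iff hne]
  simp only [algebraMap_int_eq, eq_intCast, Int.cast_zero, Int.cast_one, Int.cast_neg,
    Complex.ofReal_zero, Complex.ofReal_one, Complex.ofReal_neg, Complex.ofReal_div,
    Complex.ofReal_ofNat]
  linear_combination (-Complex.I ^ 2 / 4 : ℂ) * h3 + (-3 / 4 : ℂ) * Complex.I_sq

/-- B7 at `ρ`: `∑ exp(πi/3) ^ wt i = #Fix(S*T)`. -/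
theorem sum_omega_pow_of_inverse {N : ℕ} [NeZero N] {ι : Type} [Fintype ι] [DecidableEq ι]
    (wt : ι → ℤ) (F : (i : ι) → ModularForm (G0 N) (wt i))
    (hinv : ∀ z : ℍ, ∃ H : Matrix ι (Q N) ℂ, H * fundMat wt F z = 1 ∧ fundMat wt F z * H = 1) :
    ∑ i, (Complex.exp (Real.pi * Complex.I / 3)) ^ (wt i)
      = (Nat.card {x : Q N // (ModularGroup.S * ModularGroup.T) • x = x} : ℂ) := by
  have h := sum_denom_zpow_eq_card_fixed wt F stMat rhoPt stMat_smul_rhoPt (hinv rhoPt)
  rwa [denom_stMat_rhoPt] at h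

end Fermat.Agent.S20
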