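import Mathlib
import Fermat.Prelude.Def_ModularCurve_GenusNumerics
import Fermat.Agent.S20.CuspCount

set_option autoImplicit false

open Matrix MatrixGroups CongruenceSubgroup

namespace Fermat.Agent.S20.FixedPoints

open Fermat.Agent.S20.CuspCount

theorem coset_eq_iff_zmod (N : ℕ) (g h : SL(2, ℤ)) :
    (QuotientGroup.mk g : SL(2, ℤ) ⧸ Gamma0 N) = QuotientGroup.mk h ↔
      ((g 0 0 : ℤ) : ZMod N) * ((h 1 0 : ℤ) : ZMod N)
        = ((g 1 0 : ℤ) : ZMod N) * ((h 0 0 : ℤ) : ZMod N) := by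
  rw [coset_eq_iff, ← ZMod.intCast_zmod_eq_zero_iff_dvd]
  push_cast
  exact sub_eq_zero

theorem bezout_zmod (N : ℕ) (g : SL(2, ℤ)) :
    ∃ u v : ZMod N, u * ((g 0 0 : ℤ) : ZMod N) + v * ((g 1 0 : ℤ) : ZMod N) = 1 := by
  obtain ⟨u, v, huv⟩ := isCoprime_col g
  refine ⟨(u : ZMod N), (v : ZMod N), ?_⟩
  have := congrArg (Int.cast : ℤ → ZMod N) huv
  push_cast at this
  exact this

theorem S_mul_col (g : SL(2, ℤ)) :
    (ModularGroup.S * g) 0 0 = - g 1 0 ∧ (ModularGroup.S * g) 1 0 = g 0 0 := by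
  have h2 : ((ModularGroup.S * g : SL(2, ℤ)) : Matrix (Fin 2) (Fin 2) ℤ)
      = (ModularGroup.S).1 * g.1 := rfl
  have h1 := Matrix.two_mul_expl (ModularGroup.S).1 g.1
  have h3 := ModularGroup.coe_S
  constructor
  · show ((ModularGroup.S * g : SL(2, ℤ)) : Matrix (Fin 2) (Fin 2) ℤ) 0 0 = _
    rw [h2, h1.1, h3]; simp
  · show ((ModularGroup.S * g : SL(2, ℤ)) : Matrix (Fin 2) (Fin 2) ℤ) 1 0 = _
    rw [h2, h1.2.2.1, h3]; simp

theorem ST_mul_col (g : SL(2, ℤ)) :
    (ModularGroup.S * ModularGroup.T * g) 0 0 = - g 1 0 ∧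
      (ModularGroup.S * ModularGroup.T * g) 1 0 = g 0 0 + g 1 0 := by
  have hT := T_zpow_mul_col 1 g
  rw [zpow_one] at hT
  have hS := S_mul_col (ModularGroup.T * g)
  rw [mul_assoc]
  constructor
  · rw [hS.1, hT.2]
  · rw [hS.2, hT.1]; ring

/-- the representative with first column `(a, 1)` -/
def rep (a : ℤ) : SL(2, ℤ) := ⟨!![a, -1; 1, 0], by rw [Matrix.det_fin_two_of]; ring⟩

theorem rep_col (a : ℤ) : (rep a) 0 0 = a ∧ (rep a) 1 0 = 1 := ⟨rfl, rfl⟩

theorem fixed_S_iff (N : ℕ) (g : SL(2, ℤ)) :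
    ModularGroup.S • (QuotientGroup.mk g : SL(2, ℤ) ⧸ Gamma0 N) = QuotientGroup.mk g ↔
      ((g 0 0 : ℤ) : ZMod N) ^ 2 + ((g 1 0 : ℤ) : ZMod N) ^ 2 = 0 := by
  have e : ModularGroup.S • (QuotientGroup.mk g : SL(2, ℤ) ⧸ Gamma0 N)
      = QuotientGroup.mk (ModularGroup.S * g) := rfl
  rw [e, coset_eq_iff_zmod, (S_mul_col g).1, (S_mul_col g).2]
  push_cast
  constructor
  · intro h; linear_combination -h
  · intro h; linear_combination -h

theorem fixed_ST_iff (N : ℕ) (g : SL(2, ℤ)) :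
    (ModularGroup.S * ModularGroup.T) • (QuotientGroup.mk g : SL(2, ℤ) ⧸ Gamma0 N)
        = QuotientGroup.mk g ↔
      ((g 0 0 : ℤ) : ZMod N) ^ 2 + ((g 0 0 : ℤ) : ZMod N) * ((g 1 0 : ℤ) : ZMod N)
        + ((g 1 0 : ℤ) : ZMod N) ^ 2 = 0 := by
  have e : (ModularGroup.S * ModularGroup.T) • (QuotientGroup.mk g : SL(2, ℤ) ⧸ Gamma0 N)
      = QuotientGroup.mk (ModularGroup.S * ModularGroup.T * g) := rfl
  rw [e, coset_eq_iff_zmod, (ST_mul_col g).1, (ST_mul_col g).2]
  push_cast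
  constructor
  · intro h; linear_combination -h
  · intro h; linear_combination -h

theorem card_fixed_S (N : ℕ) [NeZero N] :
    Nat.card {x : SL(2, ℤ) ⧸ Gamma0 N // ModularGroup.S • x = x} = ModularCurve.nuTwo N := by
  unfold ModularCurve.nuTwo
  symm
  let Θ : {x : ZMod N // x ^ 2 + 1 = 0} → {x : SL(2, ℤ) ⧸ Gamma0 N // ModularGroup.S • x = x} :=
    fun x => ⟨QuotientGroup.mk (rep (x.1.cast : ℤ)), by
      rw [fixed_S_iff, (rep_col _).1, (rep_col _).2]
      simpa using x.2⟩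
  refine Nat.card_eq_of_bijective Θ ⟨?_, ?_⟩
  · intro x y hxy
    have h1 : (QuotientGroup.mk (rep (x.1.cast : ℤ)) : SL(2, ℤ) ⧸ Gamma0 N)
        = QuotientGroup.mk (rep (y.1.cast : ℤ)) := congrArg Subtype.val hxy
    rw [coset_eq_iff_zmod, (rep_col _).1, (rep_col _).2, (rep_col _).1, (rep_col _).2] at h1
    apply Subtype.ext
    simpa using h1
  · rintro ⟨q, hq⟩
    induction q using QuotientGroup.induction_on with
    | H g =>
      rw [fixed_S_iff] at hq
      obtain ⟨u, v, huv⟩ := bezout_zmod N g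
      set α : ZMod N := ((g 0 0 : ℤ) : ZMod N) with hα
      set γ : ZMod N := ((g 1 0 : ℤ) : ZMod N) with hγ
      set s : ZMod N := -u ^ 2 * γ + 2 * u * v * α + v ^ 2 * γ with hs
      have hγs : γ * s = 1 := by
        have : (u * α + v * γ) ^ 2 = 1 := by rw [huv]; ring
        linear_combination this - u ^ 2 * hq
      have hx : (α * s) ^ 2 + 1 = 0 := by
        linear_combination s ^ 2 * hq - (γ * s + 1) * hγs
      refine ⟨⟨α * s, hx⟩, ?_⟩
      apply Subtype.ext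
      show (QuotientGroup.mk (rep ((α * s).cast : ℤ)) : SL(2, ℤ) ⧸ Gamma0 N) = QuotientGroup.mk g
      rw [coset_eq_iff_zmod, (rep_col _).1, (rep_col _).2]
      simp only [ZMod.intCast_cast, ZMod.cast_id', id_eq, Int.cast_one, one_mul]
      rw [← hα, ← hγ]
      linear_combination α * hγs

theorem card_fixed_ST (N : ℕ) [NeZero N] :
    Nat.card {x : SL(2, ℤ) ⧸ Gamma0 N // (ModularGroup.S * ModularGroup.T) • x = x}
      = ModularCurve.nuThree N := by
  unfold ModularCurve.nuThree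
  symm
  let Θ : {x : ZMod N // x ^ 2 + x + 1 = 0} →
      {x : SL(2, ℤ) ⧸ Gamma0 N // (ModularGroup.S * ModularGroup.T) • x = x} :=
    fun x => ⟨QuotientGroup.mk (rep (x.1.cast : ℤ)), by
      rw [fixed_ST_iff, (rep_col _).1, (rep_col _).2]
      simpa using x.2⟩
  refine Nat.card_eq_of_bijective Θ ⟨?_, ?_⟩
  · intro x y hxy
    have h1 : (QuotientGroup.mk (rep (x.1.cast : ℤ)) : SL(2, ℤ) ⧸ Gamma0 N)
        = QuotientGroup.mk (rep (y.1.cast : ℤ)) := congrArg Subtype.val hxy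
    rw [coset_eq_iff_zmod, (rep_col _).1, (rep_col _).2, (rep_col _).1, (rep_col _).2] at h1
    apply Subtype.ext
    simpa using h1
  · rintro ⟨q, hq⟩
    induction q using QuotientGroup.induction_on with
    | H g =>
      rw [fixed_ST_iff] at hq
      obtain ⟨u, v, huv⟩ := bezout_zmod N g
      set α : ZMod N := ((g 0 0 : ℤ) : ZMod N) with hα
      set γ : ZMod N := ((g 1 0 : ℤ) : ZMod N) with hγ
      set s : ZMod N := -u ^ 2 * α - u ^ 2 * γ + 2 * u * v * α + v ^ 2 * γ with hs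
      have hγs : γ * s = 1 := by
        have : (u * α + v * γ) ^ 2 = 1 := by rw [huv]; ring
        linear_combination this - u ^ 2 * hq
      have hx : (α * s) ^ 2 + α * s + 1 = 0 := by
        linear_combination s ^ 2 * hq - (γ * s + 1 + α * s) * hγs
      refine ⟨⟨α * s, hx⟩, ?_⟩
      apply Subtype.ext
      show (QuotientGroup.mk (rep ((α * s).cast : ℤ)) : SL(2, ℤ) ⧸ Gamma0 N) = QuotientGroup.mk g
      rw [coset_eq_iff_zmod, (rep_col _).1, (rep_col _).2]
      simp only [ZMod.intCast_cast, ZMod.cast_id', id_eq, Int.cast_one, one_mul]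
      rw [← hα, ← hγ]
      linear_combination α * hγs

end Fermat.Agent.S20.FixedPoints
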