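import Mathlib

/-!
# S20, package B2 (abstract part): free generators of a graded module over `ℂ[x, y]`

Abstract graded Nakayama argument.  `V` is a commutative `𝕜`-algebra (later: functions `ℍ → ℂ`),
`R, M : ℤ → Submodule 𝕜 V` (later: level one forms / forms on `Γ₀(N)` of weight `k`), and
`x ∈ R 4`, `y ∈ R 6` (later: `E₄`, `E₆`) form an `M`-regular sequence generating the
irrelevant ideal of `R`.
-/

set_option autoImplicit false

namespace Fermat.Agent.S20.FreeAbs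

open Finset Module

variable {𝕜 V : Type*} [Field 𝕜] [CommRing V] [Algebra 𝕜 V]

/-- the double sum `∑_{w ∈ T} ∑_{j < n w} c w j * G w j` -/
def gsum (n : ℤ → ℕ) (G c : ℤ → ℕ → V) (T : Finset ℤ) : V :=
  ∑ w ∈ T, ∑ j ∈ range (n w), c w j * G w j

theorem gsum_subset (n : ℤ → ℕ) (G c : ℤ → ℕ → V) {T T' : Finset ℤ} (hT : T ⊆ T')
    (h : ∀ w ∈ T', w ∉ T → ∀ j, j < n w → c w j = 0) :
    gsum n G c T' = gsum n G c T := by
  unfold gsum
  refine (Finset.sum_subset hT fun w hw hnot => ?_).symm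
  exact Finset.sum_eq_zero fun j hj => by rw [h w hw hnot j (mem_range.mp hj), zero_mul]

theorem gsum_add (n : ℤ → ℕ) (G c d : ℤ → ℕ → V) (T : Finset ℤ) :
    gsum n G (fun w j => c w j + d w j) T = gsum n G c T + gsum n G d T := by
  simp only [gsum, add_mul, sum_add_distrib]

theorem gsum_sub (n : ℤ → ℕ) (G c d : ℤ → ℕ → V) (T : Finset ℤ) :
    gsum n G (fun w j => c w j - d w j) T = gsum n G c T - gsum n G d T := by
  simp only [gsum, sub_mul, sum_sub_distrib]

theorem gsum_mul_left (n : ℤ → ℕ) (G c : ℤ → ℕ → V) (T : Finset ℤ) (a : V) :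
    gsum n G (fun w j => a * c w j) T = a * gsum n G c T := by
  simp only [gsum, mul_sum, mul_assoc]

theorem gsum_single (n : ℤ → ℕ) (G : ℤ → ℕ → V) (e : ℕ → V) {T : Finset ℤ} {k : ℤ}
    (hk : k ∈ T) :
    gsum n G (fun w j => if w = k then e j else 0) T = ∑ j ∈ range (n k), e j * G k j := by
  unfold gsum
  rw [Finset.sum_eq_single k]
  · simp
  · intro w _ hw
    simp [hw]
  · intro h
    exact absurd hk h

/-- Hypotheses of the abstract freeness theorem. -/
structure Hyp (R M : ℤ → Submodule 𝕜 V) (x y : V) : Prop where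
  hx : x ∈ R 4
  hy : y ∈ R 6
  one_mem : (1 : V) ∈ R 0
  mulRM : ∀ {j k : ℤ} {r f : V}, r ∈ R j → f ∈ M k → r * f ∈ M (j + k)
  mulRR : ∀ {j k : ℤ} {r s : V}, r ∈ R j → s ∈ R k → r * s ∈ R (j + k)
  Rneg : ∀ j : ℤ, j < 0 → R j = ⊥
  Mneg : ∀ k : ℤ, k < 0 → M k = ⊥
  R0 : ∀ r ∈ R 0, ∃ c : 𝕜, r = algebraMap 𝕜 V c
  Rdec : ∀ j : ℤ, j ≠ 0 → ∀ r ∈ R j, ∃ a ∈ R (j - 4), ∃ b ∈ R (j - 6), r = x * a + y * b
  reg : ∀ k : ℤ, ∀ f ∈ M k, ∀ g ∈ M (k + 2), y * f = x * g →
    ∃ h ∈ M (k - 4), f = x * h ∧ g = y * h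
  fin : ∀ k : ℤ, FiniteDimensional 𝕜 (M k)

namespace Hyp

variable {R M : ℤ → Submodule 𝕜 V} {x y : V} (H : Hyp R M x y)
include H

theorem xM {k : ℤ} {f : V} (hf : f ∈ M (k - 4)) : x * f ∈ M k := by
  have := H.mulRM H.hx hf
  rwa [show (4 : ℤ) + (k - 4) = k by ring] at this

theorem yM {k : ℤ} {f : V} (hf : f ∈ M (k - 6)) : y * f ∈ M k := by
  have := H.mulRM H.hy hf
  rwa [show (6 : ℤ) + (k - 6) = k by ring] at this

theorem xR {k : ℤ} {f : V} (hf : f ∈ R (k - 4)) : x * f ∈ R k := by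
  have := H.mulRR H.hx hf
  rwa [show (4 : ℤ) + (k - 4) = k by ring] at this

theorem yR {k : ℤ} {f : V} (hf : f ∈ R (k - 6)) : y * f ∈ R k := by
  have := H.mulRR H.hy hf
  rwa [show (6 : ℤ) + (k - 6) = k by ring] at this

theorem const_mem (c : 𝕜) : algebraMap 𝕜 V c ∈ R 0 := by
  rw [Algebra.algebraMap_eq_smul_one]
  exact (R 0).smul_mem c H.one_mem

theorem R_eq_zero {j : ℤ} (hj : j < 0) {r : V} (hr : r ∈ R j) : r = 0 := by
  rw [H.Rneg j hj] at hr
  simpa using hr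

theorem M_eq_zero {j : ℤ} (hj : j < 0) {r : V} (hr : r ∈ M j) : r = 0 := by
  rw [H.Mneg j hj] at hr
  simpa using hr

end Hyp

/-- the "decomposable" part `x M_{k-4} + y M_{k-6}` of `M k` -/
def dec (M : ℤ → Submodule 𝕜 V) (x y : V) (k : ℤ) : Submodule 𝕜 V :=
  (M (k - 4)).map (LinearMap.mulLeft 𝕜 x) ⊔ (M (k - 6)).map (LinearMap.mulLeft 𝕜 y)

theorem mem_dec {M : ℤ → Submodule 𝕜 V} {x y : V} {k : ℤ} {v : V} :
    v ∈ dec M x y k ↔ ∃ f₁ ∈ M (k - 4), ∃ f₂ ∈ M (k - 6), v = x * f₁ + y * f₂ := by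
  unfold dec
  rw [Submodule.mem_sup]
  constructor
  · rintro ⟨a, ha, b, hb, rfl⟩
    obtain ⟨f₁, hf₁, rfl⟩ := Submodule.mem_map.mp ha
    obtain ⟨f₂, hf₂, rfl⟩ := Submodule.mem_map.mp hb
    exact ⟨f₁, hf₁, f₂, hf₂, rfl⟩
  · rintro ⟨f₁, hf₁, f₂, hf₂, rfl⟩
    exact ⟨x * f₁, Submodule.mem_map.mpr ⟨f₁, hf₁, rfl⟩, y * f₂,
      Submodule.mem_map.mpr ⟨f₂, hf₂, rfl⟩, rfl⟩

theorem dec_le {R M : ℤ → Submodule 𝕜 V} {x y : V} (H : Hyp R M x y) (k : ℤ) :
    dec M x y k ≤ M k := by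
  intro v hv
  obtain ⟨f₁, hf₁, f₂, hf₂, rfl⟩ := mem_dec.mp hv
  exact (M k).add_mem (H.xM hf₁) (H.yM hf₂)

theorem exists_compl {R M : ℤ → Submodule 𝕜 V} {x y : V} (H : Hyp R M x y) (k : ℤ) :
    ∃ C : Submodule 𝕜 V, C ≤ M k ∧ C ⊓ dec M x y k = ⊥ ∧ C ⊔ dec M x y k = M k := by
  obtain ⟨q, hq⟩ := Submodule.exists_isCompl (dec M x y k)
  refine ⟨q ⊓ M k, inf_le_right, ?_, ?_⟩
  · have h1 : q ⊓ M k ⊓ dec M x y k ≤ dec M x y k ⊓ q := by
      refine le_inf inf_le_right ?_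
      exact inf_le_left.trans inf_le_left
    exact le_bot_iff.mp (h1.trans_eq hq.inf_eq_bot)
  · rw [sup_comm, ← sup_inf_assoc_of_le q (dec_le H k), hq.sup_eq_top, top_inf_eq]

/-- A minimal system of homogeneous generators: `G w j` (`j < n w`) in weight `w`. -/
structure GenSys (M : ℤ → Submodule 𝕜 V) (x y : V) (n : ℤ → ℕ) (G : ℤ → ℕ → V) : Prop where
  mem : ∀ w j, j < n w → G w j ∈ M w
  gen : ∀ k, ∀ f ∈ M k, ∃ (l : ℕ → 𝕜), ∃ f₁ ∈ M (k - 4), ∃ f₂ ∈ M (k - 6),
      f = (∑ j ∈ range (n k), algebraMap 𝕜 V (l j) * G k j) + x * f₁ + y * f₂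
  min : ∀ k, ∀ (l : ℕ → 𝕜), ∀ f₁ ∈ M (k - 4), ∀ f₂ ∈ M (k - 6),
      (∑ j ∈ range (n k), algebraMap 𝕜 V (l j) * G k j) + x * f₁ + y * f₂ = 0 →
        ∀ j, j < n k → l j = 0

theorem exists_genSys {R M : ℤ → Submodule 𝕜 V} {x y : V} (H : Hyp R M x y) :
    ∃ (n : ℤ → ℕ) (G : ℤ → ℕ → V), GenSys M x y n G := by
  choose C hC1 hC2 hC3 using exists_compl H
  have : ∀ k, FiniteDimensional 𝕜 (M k) := H.fin
  have hfin : ∀ k, Module.Finite 𝕜 (C k) := fun k =>
    Submodule.finiteDimensional_of_le (hC1 k)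
  let b : ∀ k, Basis (Fin (finrank 𝕜 (C k))) 𝕜 (C k) := fun k => Module.finBasis 𝕜 (C k)
  let n : ℤ → ℕ := fun k => finrank 𝕜 (C k)
  let G : ℤ → ℕ → V := fun k j => if h : j < n k then ((b k ⟨j, h⟩ : C k) : V) else 0
  have hGC : ∀ k (l : ℕ → 𝕜), (∑ j ∈ range (n k), algebraMap 𝕜 V (l j) * G k j)
      = ((∑ i : Fin (n k), l i • b k i : C k) : V) := by
    intro k l
    rw [← Fin.sum_univ_eq_sum_range (fun j => algebraMap 𝕜 V (l j) * G k j) (n k)]
    rw [Submodule.coe_sum]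
    refine Finset.sum_congr rfl fun i _ => ?_
    simp only [G, dif_pos i.2, Submodule.coe_smul, Algebra.smul_def]
    rfl
  refine ⟨n, G, ?_, ?_, ?_⟩
  · intro w j hj
    simp only [G, dif_pos hj]
    exact hC1 w (b w ⟨j, hj⟩).2
  · intro k f hf
    rw [← hC3 k, Submodule.mem_sup] at hf
    obtain ⟨c, hc, d, hd, rfl⟩ := hf
    obtain ⟨f₁, hf₁, f₂, hf₂, rfl⟩ := mem_dec.mp hd
    refine ⟨fun j => if h : j < n k then (b k).repr ⟨c, hc⟩ ⟨j, h⟩ else 0, f₁, hf₁, f₂, hf₂, ?_⟩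
    rw [hGC, add_assoc]
    congr 1
    have h1 : (∑ i : Fin (n k), (b k).repr ⟨c, hc⟩ i • b k i) = ⟨c, hc⟩ := (b k).sum_repr ⟨c, hc⟩
    have h2 : (∑ i : Fin (n k), (if h : (i : ℕ) < n k then (b k).repr ⟨c, hc⟩ ⟨i, h⟩ else 0) • b k i)
        = ∑ i : Fin (n k), (b k).repr ⟨c, hc⟩ i • b k i :=
      Finset.sum_congr rfl fun i _ => by simp
    rw [h2, h1]
  · intro k l f₁ hf₁ f₂ hf₂ h0 j hj
    rw [hGC] at h0
    set s : C k := ∑ i : Fin (n k), l i • b k i with hs
    have hsdec : (s : V) ∈ dec M x y k := by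
      have : (s : V) = -(x * f₁ + y * f₂) := by
        rw [eq_neg_iff_add_eq_zero, ← add_assoc]; exact h0
      rw [this]
      exact (dec M x y k).neg_mem (mem_dec.mpr ⟨f₁, hf₁, f₂, hf₂, rfl⟩)
    have hs0 : (s : V) ∈ C k ⊓ dec M x y k := ⟨s.2, hsdec⟩
    rw [hC2 k] at hs0
    have hs0' : s = 0 := Subtype.ext (by simpa using hs0)
    have := Fintype.linearIndependent_iff.mp (b k).linearIndependent (fun i => l i) hs0' ⟨j, hj⟩
    simpa using this


theorem GenSys.n_eq_zero_of_bot {M : ℤ → Submodule 𝕜 V} {x y : V}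
    {n : ℤ → ℕ} {G : ℤ → ℕ → V} (S : GenSys M x y n G) {w : ℤ} (hw : M w = ⊥) : n w = 0 := by
  by_contra hne
  have h0 : 0 < n w := Nat.pos_of_ne_zero hne
  have hG : G w 0 = 0 := by
    have := S.mem w 0 h0
    rw [hw] at this
    simpa using this
  have h1 : (∑ j ∈ range (n w), algebraMap 𝕜 V ((fun j => if j = 0 then (1 : 𝕜) else 0) j) * G w j)
      + x * 0 + y * 0 = 0 := by
    rw [mul_zero, mul_zero, add_zero, add_zero]
    apply Finset.sum_eq_zero
    intro j _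
    by_cases hj0 : j = 0
    · subst hj0; rw [hG, mul_zero]
    · simp [hj0]
  have := S.min w (fun j => if j = 0 then 1 else 0) 0 (zero_mem _) 0 (zero_mem _) h1 0 h0
  simp at this

theorem GenSys.n_eq_zero {R M : ℤ → Submodule 𝕜 V} {x y : V} (H : Hyp R M x y)
    {n : ℤ → ℕ} {G : ℤ → ℕ → V} (S : GenSys M x y n G) {w : ℤ} (hw : w < 0) : n w = 0 :=
  S.n_eq_zero_of_bot (H.Mneg w hw)

theorem span_of {R M : ℤ → Submodule 𝕜 V} {x y : V} (H : Hyp R M x y)
    {n : ℤ → ℕ} {G : ℤ → ℕ → V} (S : GenSys M x y n G) :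
    ∀ k : ℤ, ∀ f ∈ M k, ∃ c : ℤ → ℕ → V, (∀ w j, c w j ∈ R (k - w)) ∧
      f = gsum n G c (Icc 0 k) := by
  suffices h : ∀ m : ℕ, ∀ k : ℤ, k < m → ∀ f ∈ M k, ∃ c : ℤ → ℕ → V,
      (∀ w j, c w j ∈ R (k - w)) ∧ f = gsum n G c (Icc 0 k) by
    intro k f hf
    exact h (k.toNat + 1) k (by have := Int.self_le_toNat k; push_cast; omega) f hf
  intro m
  induction m with
  | zero =>
    intro k hk f hf
    have hf0 : f = 0 := H.M_eq_zero (by simpa using hk) hf
    refine ⟨fun _ _ => 0, fun _ _ => zero_mem _, ?_⟩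
    rw [hf0]; simp [gsum]
  | succ m ih =>
    intro k hk f hf
    by_cases hkm : k < m
    · exact ih k hkm f hf
    have hk0 : 0 ≤ k := by push_cast at hk; omega
    obtain ⟨l, f₁, hf₁, f₂, hf₂, rfl⟩ := S.gen k f hf
    obtain ⟨c₁, hc₁, hf₁'⟩ := ih (k - 4) (by push_cast at hk; omega) f₁ hf₁
    obtain ⟨c₂, hc₂, hf₂'⟩ := ih (k - 6) (by push_cast at hk; omega) f₂ hf₂
    refine ⟨fun w j => (if w = k then algebraMap 𝕜 V (l j) else 0) + x * c₁ w j + y * c₂ w j,
      ?_, ?_⟩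
    · intro w j
      refine (R _).add_mem ((R _).add_mem ?_ ?_) ?_
      · split_ifs with hw
        · subst hw; rw [sub_self]; exact H.const_mem _
        · exact zero_mem _
      · exact H.xR (by have := hc₁ w j; rwa [show k - 4 - w = k - w - 4 by ring] at this)
      · exact H.yR (by have := hc₂ w j; rwa [show k - 6 - w = k - w - 6 by ring] at this)
    · have e1 : gsum n G c₁ (Icc 0 (k - 4)) = gsum n G c₁ (Icc 0 k) := by
        symm
        apply gsum_subset
        · exact Finset.Icc_subset_Icc_right (by omega)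
        · intro w hw hnot j _
          apply H.R_eq_zero _ (hc₁ w j)
          simp only [mem_Icc, not_and, not_le] at hw hnot
          have := hnot hw.1; omega
      have e2 : gsum n G c₂ (Icc 0 (k - 6)) = gsum n G c₂ (Icc 0 k) := by
        symm
        apply gsum_subset
        · exact Finset.Icc_subset_Icc_right (by omega)
        · intro w hw hnot j _
          apply H.R_eq_zero _ (hc₂ w j)
          simp only [mem_Icc, not_and, not_le] at hw hnot
          have := hnot hw.1; omega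
      rw [hf₁', hf₂', e1, e2, gsum_add, gsum_add, gsum_mul_left, gsum_mul_left,
        gsum_single n G (fun j => algebraMap 𝕜 V (l j)) (mem_Icc.mpr ⟨hk0, le_rfl⟩)]

theorem indep_of {R M : ℤ → Submodule 𝕜 V} {x y : V} (H : Hyp R M x y)
    {n : ℤ → ℕ} {G : ℤ → ℕ → V} (S : GenSys M x y n G) :
    ∀ k : ℤ, ∀ c : ℤ → ℕ → V, (∀ w j, c w j ∈ R (k - w)) →
      gsum n G c (Icc 0 k) = 0 → ∀ w j, j < n w → c w j = 0 := by
  suffices h : ∀ m : ℕ, ∀ k : ℤ, k < m → ∀ c : ℤ → ℕ → V, (∀ w j, c w j ∈ R (k - w)) →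
      gsum n G c (Icc 0 k) = 0 → ∀ w j, j < n w → c w j = 0 by
    intro k
    exact h (k.toNat + 1) k (by have := Int.self_le_toNat k; push_cast; omega)
  intro m
  induction m with
  | zero =>
    intro k hk c hc _ w j hj
    have hw : 0 ≤ w := by
      by_contra hw
      have := S.n_eq_zero H (not_le.mp hw)
      omega
    exact H.R_eq_zero (by push_cast at hk; omega) (hc w j)
  | succ m ih =>
    intro k hk c hc hsum
    by_cases hkm : k < m
    · exact ih k hkm c hc hsum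
    have hk0 : 0 ≤ k := by push_cast at hk; omega
    have hdecomp : ∀ w j, ∃ (a b : V) (l : 𝕜), a ∈ R (k - w - 4) ∧ b ∈ R (k - w - 6) ∧
        c w j = (if w = k then algebraMap 𝕜 V l else 0) + x * a + y * b := by
      intro w j
      by_cases hw : w = k
      · subst hw
        obtain ⟨l, hl⟩ := H.R0 (c w j) (by have := hc w j; rwa [sub_self] at this)
        exact ⟨0, 0, l, zero_mem _, zero_mem _, by simp [hl]⟩
      · obtain ⟨a, ha, b, hb, hab⟩ :=
          H.Rdec (k - w) (sub_ne_zero.mpr (Ne.symm hw)) (c w j) (hc w j)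
        exact ⟨a, b, 0, ha, hb, by simp [hw, hab]⟩
    choose a b l ha hb hcab using hdecomp
    set A := gsum n G a (Icc 0 k) with hA
    set B := gsum n G b (Icc 0 k) with hB
    have hAM : A ∈ M (k - 4) := by
      refine Submodule.sum_mem _ fun w _ => Submodule.sum_mem _ fun j hj => ?_
      have := H.mulRM (ha w j) (S.mem w j (mem_range.mp hj))
      rwa [show k - w - 4 + w = k - 4 by ring] at this
    have hBM : B ∈ M (k - 6) := by
      refine Submodule.sum_mem _ fun w _ => Submodule.sum_mem _ fun j hj => ?_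
      have := H.mulRM (hb w j) (S.mem w j (mem_range.mp hj))
      rwa [show k - w - 6 + w = k - 6 by ring] at this
    have hc' : c = fun w j => (if w = k then algebraMap 𝕜 V (l k j) else 0) + x * a w j
        + y * b w j := by
      funext w j
      rw [hcab w j]
      by_cases hw : w = k
      · subst hw; rfl
      · simp [hw]
    have hsum' : (∑ j ∈ range (n k), algebraMap 𝕜 V (l k j) * G k j) + x * A + y * B = 0 := by
      rw [← hsum]
      conv_rhs => rw [hc']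
      rw [gsum_add, gsum_add, gsum_mul_left, gsum_mul_left,
        gsum_single n G (fun j => algebraMap 𝕜 V (l k j)) (mem_Icc.mpr ⟨hk0, le_rfl⟩)]
    have hl : ∀ j, j < n k → l k j = 0 := S.min k (l k) A hAM B hBM hsum'
    have hxy : x * A + y * B = 0 := by
      have h0 : (∑ j ∈ range (n k), algebraMap 𝕜 V (l k j) * G k j) = 0 :=
        Finset.sum_eq_zero fun j hj => by rw [hl j (mem_range.mp hj), map_zero, zero_mul]
      rw [h0, zero_add] at hsum'
      exact hsum'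
    obtain ⟨h, hh, hB', hA'⟩ := H.reg (k - 6) (-B) (neg_mem hBM) A
      (by rwa [show k - 6 + 2 = k - 4 by ring]) (by linear_combination (-1 : V) * hxy)
    obtain ⟨s, hs, hhs⟩ := span_of H S (k - 6 - 4) h hh
    have es4 : gsum n G s (Icc 0 (k - 4)) = gsum n G s (Icc 0 (k - 6 - 4)) := by
      apply gsum_subset
      · exact Finset.Icc_subset_Icc_right (by omega)
      · intro w hw hnot j _
        apply H.R_eq_zero _ (hs w j)
        simp only [mem_Icc, not_and, not_le] at hw hnot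
        have := hnot hw.1; omega
    have es6 : gsum n G s (Icc 0 (k - 6)) = gsum n G s (Icc 0 (k - 6 - 4)) := by
      apply gsum_subset
      · exact Finset.Icc_subset_Icc_right (by omega)
      · intro w hw hnot j _
        apply H.R_eq_zero _ (hs w j)
        simp only [mem_Icc, not_and, not_le] at hw hnot
        have := hnot hw.1; omega
    have ea : A = gsum n G a (Icc 0 (k - 4)) := by
      apply gsum_subset
      · exact Finset.Icc_subset_Icc_right (by omega)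
      · intro w hw hnot j _
        apply H.R_eq_zero _ (ha w j)
        simp only [mem_Icc, not_and, not_le] at hw hnot
        have := hnot hw.1; omega
    have eb : B = gsum n G b (Icc 0 (k - 6)) := by
      apply gsum_subset
      · exact Finset.Icc_subset_Icc_right (by omega)
      · intro w hw hnot j _
        apply H.R_eq_zero _ (hb w j)
        simp only [mem_Icc, not_and, not_le] at hw hnot
        have := hnot hw.1; omega
    have IH4 := ih (k - 4) (by push_cast at hk; omega) (fun w j => a w j - y * s w j)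
      (fun w j => (R _).sub_mem
        (by have := ha w j; rwa [show k - w - 4 = k - 4 - w by ring] at this)
        (H.yR (by have := hs w j; rwa [show k - 6 - 4 - w = k - 4 - w - 6 by ring] at this)))
      (by rw [gsum_sub, gsum_mul_left, ← ea, es4, ← hhs, hA', sub_self])
    have IH6 := ih (k - 6) (by push_cast at hk; omega) (fun w j => b w j + x * s w j)
      (fun w j => (R _).add_mem
        (by have := hb w j; rwa [show k - w - 6 = k - 6 - w by ring] at this)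
        (H.xR (by have := hs w j; rwa [show k - 6 - 4 - w = k - 6 - w - 4 by ring] at this)))
      (by rw [gsum_add, gsum_mul_left, ← eb, es6, ← hhs]; linear_combination (-1 : V) * hB')
    intro w j hj
    have h4 : a w j - y * s w j = 0 := IH4 w j hj
    have h6 : b w j + x * s w j = 0 := IH6 w j hj
    rw [hcab w j]
    by_cases hw : w = k
    · subst hw
      have ha0 : a w j = 0 := H.R_eq_zero (by omega) (ha w j)
      have hb0 : b w j = 0 := H.R_eq_zero (by omega) (hb w j)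
      have hl0 : l w j = 0 := hl j hj
      simp [hl0, ha0, hb0]
    · simp only [if_neg hw, zero_add]
      linear_combination x * h4 + y * h6


/-- counting: generators of weight `≤ W` force `dim M_{12 t}` to be large -/
theorem count_le {R M : ℤ → Submodule 𝕜 V} {x y : V} (H : Hyp R M x y)
    {n : ℤ → ℕ} {G : ℤ → ℕ → V} (S : GenSys M x y n G)
    (Rfin : ∀ j, FiniteDimensional 𝕜 (R j))
    (Rgrow : ∀ j : ℕ, Even j → j / 12 ≤ finrank 𝕜 (R (j : ℤ)))
    (Modd : ∀ k : ℤ, Odd k → M k = ⊥) (W t : ℕ) (hWt : W ≤ t) :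
    (∑ w ∈ Icc (0 : ℤ) W, n w) * (t - W) ≤ finrank 𝕜 (M (12 * (t : ℤ))) := by
  classical
  have : ∀ k, FiniteDimensional 𝕜 (M k) := H.fin
  let P := (w : ↥(Icc (0 : ℤ) W)) × Fin (n w)
  let E := (p : P) → R (12 * (t : ℤ) - (p.1 : ℤ))
  let Ψ : E →ₗ[𝕜] V := ∑ p : P, (LinearMap.mulRight 𝕜 (G p.1 p.2)).comp
    ((R (12 * (t : ℤ) - (p.1 : ℤ))).subtype.comp (LinearMap.proj p))
  have hΨ : ∀ r : E, Ψ r = ∑ p : P, (r p : V) * G p.1 p.2 := by
    intro r
    simp only [Ψ, LinearMap.sum_apply]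
    rfl
  have hsumP : ∀ (φ : ℤ → ℕ → V), (∑ p : P, φ p.1 p.2) = ∑ w ∈ Icc (0 : ℤ) W,
      ∑ j ∈ range (n w), φ w j := by
    intro φ
    rw [Fintype.sum_sigma]
    rw [← Finset.sum_coe_sort (Icc (0 : ℤ) W) (fun w => ∑ j ∈ range (n w), φ w j)]
    refine Finset.sum_congr rfl fun w _ => ?_
    exact Fin.sum_univ_eq_sum_range (fun j => φ w j) (n w)
  have hinj : Function.Injective Ψ := by
    rw [← LinearMap.ker_eq_bot, LinearMap.ker_eq_bot']
    intro r hr
    let c : ℤ → ℕ → V := fun w j =>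
      if h : w ∈ Icc (0 : ℤ) W ∧ j < n w then (r ⟨⟨w, h.1⟩, ⟨j, h.2⟩⟩ : V) else 0
    have hc : ∀ w j, c w j ∈ R (12 * (t : ℤ) - w) := by
      intro w j
      simp only [c]
      split_ifs with h
      · exact (r ⟨⟨w, h.1⟩, ⟨j, h.2⟩⟩).2
      · exact zero_mem _
    have hcP : ∀ p : P, c p.1 p.2 = (r p : V) := by
      rintro ⟨⟨w, hw⟩, ⟨j, hj⟩⟩
      simp only [c]
      rw [dif_pos ⟨hw, hj⟩]
    have hg : gsum n G c (Icc 0 (12 * (t : ℤ))) = 0 := by
      have h1 : gsum n G c (Icc 0 (12 * (t : ℤ))) = gsum n G c (Icc 0 (W : ℤ)) := by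
        apply gsum_subset
        · exact Finset.Icc_subset_Icc_right (by omega)
        · intro w _ hnot j _
          simp only [c]
          rw [dif_neg (fun h => hnot h.1)]
      rw [h1]
      unfold gsum
      rw [← hsumP (fun w j => c w j * G w j), ← hr, hΨ]
      exact Finset.sum_congr rfl fun p _ => by rw [hcP p]
    have h0 := indep_of H S (12 * (t : ℤ)) c hc hg
    funext p
    apply Subtype.ext
    rw [← hcP p]
    exact h0 p.1 p.2 p.2.2
  have hrange : LinearMap.range Ψ ≤ M (12 * (t : ℤ)) := by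
    rintro v ⟨r, rfl⟩
    rw [hΨ]
    refine Submodule.sum_mem _ fun p _ => ?_
    have := H.mulRM (r p).2 (S.mem p.1 p.2 p.2.2)
    rwa [show 12 * (t : ℤ) - (p.1 : ℤ) + (p.1 : ℤ) = 12 * (t : ℤ) by ring] at this
  have h1 : finrank 𝕜 E ≤ finrank 𝕜 (M (12 * (t : ℤ))) := by
    rw [← LinearMap.finrank_range_of_inj hinj]
    exact Submodule.finrank_mono hrange
  have h2 : finrank 𝕜 E = ∑ p : P, finrank 𝕜 (R (12 * (t : ℤ) - (p.1 : ℤ))) :=
    Module.finrank_pi_fintype 𝕜
  have h3 : ∀ p : P, t - W ≤ finrank 𝕜 (R (12 * (t : ℤ) - (p.1 : ℤ))) := by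
    rintro ⟨⟨w, hw⟩, ⟨j, hj⟩⟩
    have hj' : j < n w := hj
    simp only [mem_Icc] at hw
    have hwe : Even w := by
      rcases Int.even_or_odd w with h | h
      · exact h
      · have := S.n_eq_zero_of_bot (Modd w h)
        omega
    obtain ⟨u, hu⟩ := hwe
    have hu0 : 0 ≤ u := by omega
    have hcast : (12 * (t : ℤ) - w) = ((12 * t - 2 * u.toNat : ℕ) : ℤ) := by
      have := Int.toNat_of_nonneg hu0
      omega
    have hev : Even (12 * t - 2 * u.toNat) := by
      have := Int.toNat_of_nonneg hu0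
      refine ⟨6 * t - u.toNat, ?_⟩
      omega
    have := Rgrow (12 * t - 2 * u.toNat) hev
    show t - W ≤ finrank 𝕜 (R (12 * (t : ℤ) - w))
    rw [hcast]
    refine le_trans ?_ this
    have := Int.toNat_of_nonneg hu0
    omega
  have h4 : Fintype.card P = ∑ w ∈ Icc (0 : ℤ) W, n w := by
    rw [Fintype.card_sigma]
    rw [← Finset.sum_coe_sort (Icc (0 : ℤ) W) (fun w => n w)]
    exact Finset.sum_congr rfl fun w _ => Fintype.card_fin _
  calc (∑ w ∈ Icc (0 : ℤ) W, n w) * (t - W) = ∑ _p : P, (t - W) := by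
        rw [Finset.sum_const, Finset.card_univ, h4, smul_eq_mul]
    _ ≤ ∑ p : P, finrank 𝕜 (R (12 * (t : ℤ) - (p.1 : ℤ))) :=
        Finset.sum_le_sum fun p _ => h3 p
    _ = finrank 𝕜 E := h2.symm
    _ ≤ _ := h1

theorem finite_of {R M : ℤ → Submodule 𝕜 V} {x y : V} (H : Hyp R M x y)
    {n : ℤ → ℕ} {G : ℤ → ℕ → V} (S : GenSys M x y n G)
    (Rfin : ∀ j, FiniteDimensional 𝕜 (R j))
    (Rgrow : ∀ j : ℕ, Even j → j / 12 ≤ finrank 𝕜 (R (j : ℤ)))
    (Mgrow : ∃ A B : ℕ, ∀ k : ℕ, finrank 𝕜 (M (k : ℤ)) ≤ A * k + B)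
    (Modd : ∀ k : ℤ, Odd k → M k = ⊥) :
    ∃ K : ℕ, ∀ w : ℤ, (K : ℤ) < w → n w = 0 := by
  obtain ⟨A, B, hAB⟩ := Mgrow
  -- the number of generators of weight `≤ W` is at most `12 A`
  have hT : ∀ W : ℕ, ∑ w ∈ Icc (0 : ℤ) W, n w ≤ 12 * A := by
    intro W
    by_contra hcon
    replace hcon := not_le.mp hcon
    set T := ∑ w ∈ Icc (0 : ℤ) W, n w with hTdef
    have h1 := count_le H S Rfin Rgrow Modd W (W + (12 * A * W + B + 1)) (by omega)
    have h2 := hAB (12 * (W + (12 * A * W + B + 1)))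
    have h3 : finrank 𝕜 (M (12 * ((W + (12 * A * W + B + 1) : ℕ) : ℤ)))
        ≤ A * (12 * (W + (12 * A * W + B + 1))) + B := by
      have e : (12 * ((W + (12 * A * W + B + 1) : ℕ) : ℤ))
          = ((12 * (W + (12 * A * W + B + 1)) : ℕ) : ℤ) := by push_cast; ring
      rw [e]; exact h2
    have h4 : T * (W + (12 * A * W + B + 1) - W) ≤ A * (12 * (W + (12 * A * W + B + 1))) + B :=
      h1.trans h3
    have h5 : W + (12 * A * W + B + 1) - W = 12 * A * W + B + 1 := by omega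
    rw [h5] at h4
    have h6 : (12 * A + 1) * (12 * A * W + B + 1) ≤ T * (12 * A * W + B + 1) :=
      Nat.mul_le_mul_right _ hcon
    nlinarith [h4, h6]
  by_contra hcon
  push Not at hcon
  -- produce arbitrarily many generators
  have hbig : ∀ m : ℕ, ∃ W : ℕ, m ≤ ∑ w ∈ Icc (0 : ℤ) W, n w := by
    intro m
    induction m with
    | zero => exact ⟨0, Nat.zero_le _⟩
    | succ m ih =>
      obtain ⟨W, hW⟩ := ih
      obtain ⟨w, hw, hnw⟩ := hcon W
      have hw0 : 0 ≤ w := by omega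
      refine ⟨w.toNat, ?_⟩
      have hwt : ((w.toNat : ℕ) : ℤ) = w := Int.toNat_of_nonneg hw0
      rw [hwt]
      have hsub : insert w (Icc (0 : ℤ) W) ⊆ Icc (0 : ℤ) w := by
        intro u hu
        rcases Finset.mem_insert.mp hu with rfl | hu
        · exact mem_Icc.mpr ⟨hw0, le_rfl⟩
        · have := mem_Icc.mp hu
          exact mem_Icc.mpr ⟨this.1, by omega⟩
      have hnot : w ∉ Icc (0 : ℤ) W := by
        intro h
        have := (mem_Icc.mp h).2
        omega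
      calc m + 1 ≤ (∑ u ∈ Icc (0 : ℤ) W, n u) + n w := by
            have : 1 ≤ n w := Nat.pos_of_ne_zero hnw
            omega
        _ = ∑ u ∈ insert w (Icc (0 : ℤ) W), n u := by
            rw [Finset.sum_insert hnot, add_comm]
        _ ≤ ∑ u ∈ Icc (0 : ℤ) w, n u :=
            Finset.sum_le_sum_of_subset hsub
  obtain ⟨W, hW⟩ := hbig (12 * A + 1)
  have := hT W
  omega

/-- **Abstract freeness theorem.** -/
theorem main {R M : ℤ → Submodule 𝕜 V} {x y : V} (H : Hyp R M x y)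
    (Rfin : ∀ j, FiniteDimensional 𝕜 (R j))
    (Rgrow : ∀ j : ℕ, Even j → j / 12 ≤ finrank 𝕜 (R (j : ℤ)))
    (Mgrow : ∃ A B : ℕ, ∀ k : ℕ, finrank 𝕜 (M (k : ℤ)) ≤ A * k + B)
    (Modd : ∀ k : ℤ, Odd k → M k = ⊥) :
    ∃ (K : ℕ) (n : ℤ → ℕ) (G : ℤ → ℕ → V),
      (∀ w j, j < n w → G w j ∈ M w) ∧
      (∀ k, ∀ f ∈ M k, ∃ c : ℤ → ℕ → V, (∀ w j, c w j ∈ R (k - w)) ∧
        f = gsum n G c (Icc 0 (K : ℤ))) ∧
      (∀ k, ∀ c : ℤ → ℕ → V, (∀ w j, c w j ∈ R (k - w)) →
        gsum n G c (Icc 0 (K : ℤ)) = 0 → ∀ w j, j < n w → c w j = 0) := by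
  obtain ⟨n, G, S⟩ := exists_genSys H
  obtain ⟨K, hK⟩ := finite_of H S Rfin Rgrow Mgrow Modd
  have key : ∀ (k : ℤ) (c : ℤ → ℕ → V), (∀ w j, c w j ∈ R (k - w)) →
      gsum n G c (Icc 0 (K : ℤ)) = gsum n G c (Icc 0 k) := by
    intro k c hc
    have e1 : gsum n G c (Icc 0 (max k (K : ℤ))) = gsum n G c (Icc 0 (K : ℤ)) := by
      apply gsum_subset
      · exact Finset.Icc_subset_Icc_right (le_max_right _ _)
      · intro w hw hnot j hj
        simp only [mem_Icc, not_and, not_le] at hw hnot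
        have := hK w (hnot hw.1)
        omega
    have e2 : gsum n G c (Icc 0 (max k (K : ℤ))) = gsum n G c (Icc 0 k) := by
      apply gsum_subset
      · exact Finset.Icc_subset_Icc_right (le_max_left _ _)
      · intro w hw hnot j _
        apply H.R_eq_zero _ (hc w j)
        simp only [mem_Icc, not_and, not_le] at hw hnot
        have := hnot hw.1; omega
    rw [← e1, e2]
  refine ⟨K, n, G, S.mem, ?_, ?_⟩
  · intro k f hf
    obtain ⟨c, hc, hfc⟩ := span_of H S k f hf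
    exact ⟨c, hc, by rw [key k c hc]; exact hfc⟩
  · intro k c hc h0
    exact indep_of H S k c hc (by rw [← key k c hc]; exact h0)

end Fermat.Agent.S20.FreeAbs
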