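import Fermat.Agent.S20.Basic
import Fermat.Agent.S20.FreeAbs
import Fermat.Prelude.Thm_ModularForm_sturm_bound_Gamma0
import Fermat.Prelude.Thm_CongruenceSubgroup_one_mem_strictPeriods_Gamma0

/-!
# S20, package B2: `⨁ₖ M_k(Γ₀(N))` is a free graded module over the level one forms

Concrete part: we verify the hypotheses of `FreeAbs.main` for `V = ℍ → ℂ`,
`R k` = level one forms of weight `k`, `M k` = forms of weight `k` on `Γ₀(N)`, `x = E₄`, `y = E₆`.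
-/

set_option autoImplicit false

open UpperHalfPlane ModularForm Matrix.SpecialLinearGroup EisensteinSeries
open scoped MatrixGroups ModularForm Manifold

namespace Fermat.Agent.S20.FreeGen

/-- coercion to functions as a linear map -/
noncomputable def coeL (Γ : Subgroup (GL (Fin 2) ℝ)) [Γ.HasDetOne] (k : ℤ) :
    ModularForm Γ k →ₗ[ℂ] (ℍ → ℂ) where
  toFun f := ⇑f
  map_add' _ _ := rfl
  map_smul' _ _ := rfl

theorem coeL_injective (Γ : Subgroup (GL (Fin 2) ℝ)) [Γ.HasDetOne] (k : ℤ) :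
    Function.Injective (coeL Γ k) := fun _ _ h => DFunLike.coe_injective h

/-- forms of weight `k` on `Γ₀(N)`, as functions -/
noncomputable def MS (N : ℕ) (k : ℤ) : Submodule ℂ (ℍ → ℂ) := LinearMap.range (coeL (G0 N) k)

/-- level one forms of weight `k`, as functions -/
noncomputable def RS (k : ℤ) : Submodule ℂ (ℍ → ℂ) := LinearMap.range (coeL 𝒮ℒ k)

theorem mem_MS {N : ℕ} {k : ℤ} {f : ℍ → ℂ} :
    f ∈ MS N k ↔ ∃ F : ModularForm (G0 N) k, ⇑F = f := Iff.rfl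

theorem mem_RS {k : ℤ} {f : ℍ → ℂ} :
    f ∈ RS k ↔ ∃ F : ModularForm 𝒮ℒ k, ⇑F = f := Iff.rfl

theorem coe_mem_MS {N : ℕ} {k : ℤ} (F : ModularForm (G0 N) k) : ⇑F ∈ MS N k := ⟨F, rfl⟩

theorem coe_mem_RS {k : ℤ} (F : ModularForm 𝒮ℒ k) : ⇑F ∈ RS k := ⟨F, rfl⟩

theorem mem_MS_of_eq {N : ℕ} {k k' : ℤ} {f : ℍ → ℂ} (h : k = k') (hf : f ∈ MS N k) :
    f ∈ MS N k' := h ▸ hf

theorem mem_RS_of_eq {k k' : ℤ} {f : ℍ → ℂ} (h : k = k') (hf : f ∈ RS k) :
    f ∈ RS k' := h ▸ hf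

theorem mulRR {j k : ℤ} {r s : ℍ → ℂ} (hr : r ∈ RS j) (hs : s ∈ RS k) : r * s ∈ RS (j + k) := by
  obtain ⟨r, rfl⟩ := hr
  obtain ⟨s, rfl⟩ := hs
  exact ⟨r.mul s, rfl⟩

theorem mulRM {N : ℕ} [NeZero N] {j k : ℤ} {r f : ℍ → ℂ} (hr : r ∈ RS j) (hf : f ∈ MS N k) :
    r * f ∈ MS N (j + k) := by
  obtain ⟨r, rfl⟩ := hr
  obtain ⟨f, rfl⟩ := hf
  refine ⟨mkMF N (j + k) (⇑r * ⇑f) ((ModularFormClass.holo r).mul (ModularFormClass.holo f))
    ?_ ?_, rfl⟩
  · intro γ hγ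
    rw [mul_slash_SL2, levelOne_slash, slash_eq_of_mem f hγ]
  · intro γ
    rw [mul_slash_SL2, levelOne_slash]
    exact (ModularFormClass.bdd_at_infty r).mul (isBoundedAtImInfty_slash f γ)

theorem RS_neg {j : ℤ} (hj : j < 0) : RS j = ⊥ := by
  rw [eq_bot_iff]
  rintro _ ⟨r, rfl⟩
  rw [Submodule.mem_bot]
  exact ModularFormClass.levelOne_neg_weight_eq_zero hj r

theorem MS_neg (N : ℕ) [NeZero N] {k : ℤ} (hk : k < 0) : MS N k = ⊥ := by
  rw [eq_bot_iff]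
  rintro _ ⟨f, rfl⟩
  rw [ModularForm.isZero_of_neg_weight hk f, map_zero]
  exact zero_mem _

theorem RS_zero {r : ℍ → ℂ} (hr : r ∈ RS 0) : ∃ c : ℂ, r = algebraMap ℂ (ℍ → ℂ) c := by
  obtain ⟨r, rfl⟩ := hr
  obtain ⟨c, hc⟩ := ModularFormClass.levelOne_weight_zero_const r
  exact ⟨c, hc⟩

theorem one_mem_RS : (1 : ℍ → ℂ) ∈ RS 0 :=
  ⟨(1 : ModularForm 𝒮ℒ 0), ModularForm.one_coe_eq_one (Γ := 𝒮ℒ)⟩

theorem E4_mem : (⇑E₄ : ℍ → ℂ) ∈ RS 4 := ⟨E₄, rfl⟩

theorem E6_mem : (⇑E₆ : ℍ → ℂ) ∈ RS 6 := ⟨E₆, rfl⟩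


theorem E4E6_not_both_zero (z : ℍ) : E₄ z ≠ 0 ∨ E₆ z ≠ 0 := by
  by_contra h
  push Not at h
  have hΔ := discriminant_eq_E₄_cube_sub_E₆_sq z
  rw [h.1, h.2] at hΔ
  exact discriminant_ne_zero z (by simpa using hΔ)

theorem tendsto_levelOne {k : ℤ} (f : ModularForm 𝒮ℒ k) :
    Filter.Tendsto (⇑f) atImInfty (nhds ((qExpansion 1 f).coeff 0)) := by
  have hanal := ModularFormClass.analyticAt_cuspFunction_zero f one_pos one_mem_strictPeriods_SL
  have hper := SlashInvariantFormClass.periodic_comp_ofComplex f one_mem_strictPeriods_SL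
  rw [qExpansion_coeff_zero one_pos hanal hper, ← cuspFunction_apply_zero one_pos hanal hper]
  exact (hanal.continuousAt.tendsto.comp (qParam_tendsto_atImInfty one_pos)).congr
    (fun τ ↦ SlashInvariantFormClass.eq_cuspFunction f τ one_mem_strictPeriods_SL one_ne_zero)

theorem tendsto_E4 : Filter.Tendsto (⇑E₄) atImInfty (nhds 1) := by
  have := tendsto_levelOne E₄
  rwa [E_qExpansion_coeff_zero _ ⟨2, rfl⟩] at this

/-- `E₄ ≥ 1/2` in norm near `i∞` -/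
theorem eventually_E4 : ∀ᶠ z in atImInfty, (1 / 2 : ℝ) ≤ ‖E₄ z‖ := by
  have h := tendsto_E4.norm
  rw [norm_one] at h
  exact h.eventually (eventually_ge_nhds (by norm_num))

/-- if `E₄ * u` is bounded at `i∞` then so is `u` -/
theorem isBoundedAtImInfty_of_E4_mul {u : ℍ → ℂ} (h : IsBoundedAtImInfty (⇑E₄ * u)) :
    IsBoundedAtImInfty u := by
  rw [isBoundedAtImInfty_iff] at h ⊢
  obtain ⟨C, A, hCA⟩ := h
  obtain ⟨A', hA'⟩ := (atImInfty_mem _).mp eventually_E4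
  refine ⟨2 * C, max A A', fun z hz => ?_⟩
  have h1 := hCA z (le_trans (le_max_left _ _) hz)
  have h2 : (1 / 2 : ℝ) ≤ ‖E₄ z‖ := hA' z (le_trans (le_max_right _ _) hz)
  rw [Pi.mul_apply, norm_mul] at h1
  have h3 : 0 ≤ ‖u z‖ := norm_nonneg _
  nlinarith

/-- The regular sequence property of `(E₄, E₆)` on forms of level `Γ₀(N)`. -/
theorem reg_MS (N : ℕ) [NeZero N] (k : ℤ) {f g : ℍ → ℂ} (hf : f ∈ MS N k)
    (hg : g ∈ MS N (k + 2)) (hfg : ⇑E₆ * f = ⇑E₄ * g) :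
    ∃ h ∈ MS N (k - 4), f = ⇑E₄ * h ∧ g = ⇑E₆ * h := by
  obtain ⟨f, rfl⟩ := hf
  obtain ⟨g, rfl⟩ := hg
  change (⇑E₆ : ℍ → ℂ) * ⇑f = ⇑E₄ * ⇑g at hfg
  let h : ℍ → ℂ := (⇑E₄ * ⇑E₄ * ⇑f - ⇑E₆ * ⇑g) / ((fun _ => (1728 : ℂ)) * discriminant)
  have hfg' : ∀ z, E₆ z * f z = E₄ z * g z := fun z => congrFun hfg z
  have hh : ∀ z, h z = (E₄ z * E₄ z * f z - E₆ z * g z) / (1728 * discriminant z) := fun z => rfl
  have hden : ∀ z : ℍ, (1728 : ℂ) * discriminant z ≠ 0 := fun z =>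
    mul_ne_zero (by norm_num) (discriminant_ne_zero z)
  have hΔ : ∀ z : ℍ, (1728 : ℂ) * discriminant z = E₄ z ^ 3 - E₆ z ^ 2 := by
    intro z
    rw [discriminant_eq_E₄_cube_sub_E₆_sq z]
    ring
  have h4 : (⇑E₄ : ℍ → ℂ) * h = ⇑f := by
    funext z
    rw [Pi.mul_apply, hh, ← mul_div_assoc, div_eq_iff (hden z), hΔ z]
    linear_combination (E₆ z) * hfg' z
  have h6 : (⇑E₆ : ℍ → ℂ) * h = ⇑g := by
    funext z
    rw [Pi.mul_apply, hh, ← mul_div_assoc, div_eq_iff (hden z), hΔ z]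
    linear_combination (E₄ z) ^ 2 * hfg' z
  have hhol : MDiff h := by
    refine MDifferentiable.div ?_ ?_ hden
    · exact (((ModularFormClass.holo E₄).mul (ModularFormClass.holo E₄)).mul
        (ModularFormClass.holo f)).sub ((ModularFormClass.holo E₆).mul (ModularFormClass.holo g))
    · exact mdifferentiable_const.mul CuspForm.discriminant.holo'
  have hsl4 : ∀ γ : SL(2, ℤ), (⇑E₄ : ℍ → ℂ) * (h ∣[k - 4] γ) = (⇑f : ℍ → ℂ) ∣[k] γ := by
    intro γ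
    have := mul_slash_SL2 4 (k - 4) γ (⇑E₄) h
    rw [levelOne_slash, h4, show (4 : ℤ) + (k - 4) = k by ring] at this
    exact this.symm
  have hsl6 : ∀ γ : SL(2, ℤ), (⇑E₆ : ℍ → ℂ) * (h ∣[k - 4] γ) = (⇑g : ℍ → ℂ) ∣[k + 2] γ := by
    intro γ
    have := mul_slash_SL2 6 (k - 4) γ (⇑E₆) h
    rw [levelOne_slash, h6, show (6 : ℤ) + (k - 4) = k + 2 by ring] at this
    exact this.symm
  refine ⟨h, ⟨mkMF N (k - 4) h hhol ?_ ?_, rfl⟩, h4.symm, h6.symm⟩
  · intro γ hγ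
    funext z
    have e4 := congrFun (hsl4 γ) z
    have e6 := congrFun (hsl6 γ) z
    rw [slash_eq_of_mem f hγ, ← h4] at e4
    rw [slash_eq_of_mem g hγ, ← h6] at e6
    simp only [Pi.mul_apply] at e4 e6
    rcases E4E6_not_both_zero z with h0 | h0
    · exact mul_left_cancel₀ h0 e4
    · exact mul_left_cancel₀ h0 e6
  · intro γ
    apply isBoundedAtImInfty_of_E4_mul
    rw [hsl4 γ]
    exact isBoundedAtImInfty_slash f γ


theorem coeff0_mul {j k : ℤ} {r s : ℍ → ℂ} (hr : r ∈ RS j) (hs : s ∈ RS k) :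
    (qExpansion 1 (r * s)).coeff 0 = (qExpansion 1 r).coeff 0 * (qExpansion 1 s).coeff 0 := by
  obtain ⟨r, rfl⟩ := hr
  obtain ⟨s, rfl⟩ := hs
  have h := ModularForm.qExpansion_mul one_pos one_mem_strictPeriods_SL r s
  change qExpansion 1 (⇑r * ⇑s) = _ at h
  change (qExpansion 1 (⇑r * ⇑s)).coeff 0 = (qExpansion 1 ⇑r).coeff 0 * (qExpansion 1 ⇑s).coeff 0
  rw [h]
  simp

theorem exists_monomial (m : ℕ) (hm : 2 ≤ m) :
    ∃ P ∈ RS (2 * (m : ℤ)), (qExpansion 1 P).coeff 0 = 1 ∧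
      ∃ a ∈ RS (2 * (m : ℤ) - 4), ∃ b ∈ RS (2 * (m : ℤ) - 6), P = ⇑E₄ * a + ⇑E₆ * b := by
  induction m using Nat.strong_induction_on with
  | _ m ih =>
    rcases Nat.lt_or_ge m 4 with h4 | h4
    · interval_cases m
      · exact ⟨⇑E₄, mem_RS_of_eq (by norm_num) E4_mem, E_qExpansion_coeff_zero _ ⟨2, rfl⟩,
          1, mem_RS_of_eq (by norm_num) one_mem_RS, 0, zero_mem _, by simp⟩
      · exact ⟨⇑E₆, mem_RS_of_eq (by norm_num) E6_mem, E_qExpansion_coeff_zero _ ⟨3, rfl⟩,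
          0, zero_mem _, 1, mem_RS_of_eq (by norm_num) one_mem_RS, by simp⟩
    · obtain ⟨P, hP, hP0, -⟩ := ih (m - 2) (by omega) (by omega)
      have hP' : P ∈ RS (2 * (m : ℤ) - 4) :=
        mem_RS_of_eq (by push_cast [Nat.cast_sub (show 2 ≤ m by omega)]; ring) hP
      refine ⟨⇑E₄ * P, mem_RS_of_eq (by ring) (mulRR E4_mem hP'), ?_, P, hP', 0, zero_mem _,
        by simp⟩
      rw [coeff0_mul E4_mem hP', E_qExpansion_coeff_zero _ ⟨2, rfl⟩, hP0, one_mul]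

/-- Every level one form of nonzero weight lies in `E₄ R + E₆ R`. -/
theorem Rdec_RS (j : ℤ) (hj : j ≠ 0) {r : ℍ → ℂ} (hr : r ∈ RS j) :
    ∃ a ∈ RS (j - 4), ∃ b ∈ RS (j - 6), r = ⇑E₄ * a + ⇑E₆ * b := by
  have hzero : r = 0 → ∃ a ∈ RS (j - 4), ∃ b ∈ RS (j - 6), r = ⇑E₄ * a + ⇑E₆ * b := by
    intro h; exact ⟨0, zero_mem _, 0, zero_mem _, by simp [h]⟩
  rcases lt_trichotomy j 0 with hneg | h0 | hpos
  · apply hzero
    rw [RS_neg hneg] at hr
    simpa using hr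
  · exact absurd h0 hj
  rcases Int.even_or_odd j with hev | hodd
  swap
  · apply hzero
    obtain ⟨r, rfl⟩ := hr
    rw [levelOne_odd_weight_eq_zero hodd r, map_zero]
  obtain ⟨m', hm'⟩ := hev
  by_cases hj2 : j = 2
  · subst hj2
    apply hzero
    obtain ⟨r, rfl⟩ := hr
    rw [rank_zero_iff_forall_zero.mp levelOne_weight_two_rank_zero r, map_zero]
  have hm0 : 2 ≤ m' := by omega
  obtain ⟨m, rfl⟩ : ∃ m : ℕ, m' = m := ⟨m'.toNat, (Int.toNat_of_nonneg (by omega)).symm⟩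
  have hjm : j = 2 * (m : ℤ) := by omega
  subst hjm
  obtain ⟨P, hP, hP0, a, ha, b, hb, hPab⟩ := exists_monomial m (by omega)
  obtain ⟨r, rfl⟩ := hr
  obtain ⟨P, rfl⟩ := hP
  change (qExpansion 1 ⇑P).coeff 0 = 1 at hP0
  change (⇑P : ℍ → ℂ) = ⇑E₄ * a + ⇑E₆ * b at hPab
  obtain ⟨g, hg⟩ := sub_smul_isCuspForm r P hP0
  set c := (qExpansion 1 ⇑r).coeff 0 with hc
  let D := CuspForm.discriminantEquiv g
  have hD : ∀ z, discriminant z * D z = r z - c * P z := by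
    intro z
    rw [discriminant_mul_discriminantEquiv_apply]
    exact congrFun (congrArg (fun F : ModularForm 𝒮ℒ (2 * (m : ℤ)) => (⇑F : ℍ → ℂ)) hg) z
  refine ⟨c • a + (1 / 1728 : ℂ) • (⇑E₄ * (⇑E₄ * ⇑D)), ?_,
    c • b - (1 / 1728 : ℂ) • (⇑E₆ * ⇑D), ?_, ?_⟩
  · refine (RS _).add_mem ((RS _).smul_mem c ha) ((RS _).smul_mem _ ?_)
    exact mem_RS_of_eq (by ring) (mulRR E4_mem (mulRR E4_mem (coe_mem_RS D)))
  · refine (RS _).sub_mem ((RS _).smul_mem c hb) ((RS _).smul_mem _ ?_)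
    exact mem_RS_of_eq (by ring) (mulRR E6_mem (coe_mem_RS D))
  · funext z
    have e1 : r z = c * P z + discriminant z * D z := by rw [hD z]; ring
    have e2 : P z = E₄ z * a z + E₆ z * b z := congrFun hPab z
    show r z = _
    simp only [Pi.add_apply, Pi.mul_apply, Pi.smul_apply, Pi.sub_apply, smul_eq_mul]
    rw [e1, e2, discriminant_eq_E₄_cube_sub_E₆_sq z]
    ring


/-- Sturm bound ⟹ finite-dimensionality, with an explicit bound. -/
theorem finrank_MF_le (N : ℕ) [NeZero N] (k : ℤ) :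
    FiniteDimensional ℂ (ModularForm (G0 N) k) ∧
    Module.finrank ℂ (ModularForm (G0 N) k)
      ≤ (k * (CongruenceSubgroup.Gamma0 N).index).toNat / 12 + 1 := by
  set B := (k * (CongruenceSubgroup.Gamma0 N).index).toNat / 12 with hB
  have hper : (1 : ℝ) ∈ (G0 N).strictPeriods := CongruenceSubgroup.one_mem_strictPeriods_Gamma0 N
  let L : ModularForm (G0 N) k →ₗ[ℂ] (Fin (B + 1) → ℂ) :=
    { toFun := fun f n => (qExpansion 1 f).coeff n
      map_add' := fun f g => by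
        funext n
        have h := ModularForm.qExpansion_add one_pos hper f g
        change (qExpansion 1 (⇑f + ⇑g)).coeff n = _
        rw [h]
        simp
      map_smul' := fun a f => by
        funext n
        have h := ModularForm.qExpansion_smul one_pos hper a f
        change (qExpansion 1 (a • ⇑f)).coeff n = _
        rw [h]
        simp }
  have hinj : Function.Injective L := by
    rw [← LinearMap.ker_eq_bot, LinearMap.ker_eq_bot']
    intro f hf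
    apply ModularForm.sturm_bound_Gamma0 N f
    intro n hn
    exact congrFun hf ⟨n, by omega⟩
  refine ⟨Module.Finite.of_injective L hinj, ?_⟩
  have := LinearMap.finrank_le_finrank_of_injective hinj
  simpa using this

theorem MS_fin (N : ℕ) [NeZero N] (k : ℤ) : FiniteDimensional ℂ (MS N k) := by
  have := (finrank_MF_le N k).1
  exact LinearMap.finiteDimensional_range _

theorem finrank_MS (N : ℕ) (k : ℤ) :
    Module.finrank ℂ (MS N k) = Module.finrank ℂ (ModularForm (G0 N) k) :=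
  LinearMap.finrank_range_of_inj (coeL_injective (G0 N) k)

theorem MS_grow (N : ℕ) [NeZero N] :
    ∃ A B : ℕ, ∀ k : ℕ, Module.finrank ℂ (MS N (k : ℤ)) ≤ A * k + B := by
  refine ⟨(CongruenceSubgroup.Gamma0 N).index, 1, fun k => ?_⟩
  rw [finrank_MS]
  refine (finrank_MF_le N k).2.trans ?_
  rw [← Nat.cast_mul, Int.toNat_natCast]
  have := Nat.div_le_self (k * (CongruenceSubgroup.Gamma0 N).index) 12
  nlinarith

theorem RS_fin (k : ℤ) : FiniteDimensional ℂ (RS k) :=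
  LinearMap.finiteDimensional_range _

theorem finrank_RS (k : ℤ) :
    Module.finrank ℂ (RS k) = Module.finrank ℂ (ModularForm 𝒮ℒ k) :=
  LinearMap.finrank_range_of_inj (coeL_injective 𝒮ℒ k)

theorem RS_grow (j : ℕ) (hj : Even j) : j / 12 ≤ Module.finrank ℂ (RS (j : ℤ)) := by
  rw [finrank_RS, Module.finrank_eq_of_rank_eq (dimension_level_one j hj)]
  split_ifs <;> omega

theorem MS_odd (N : ℕ) {k : ℤ} (hk : Odd k) : MS N k = ⊥ := by
  rw [eq_bot_iff]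
  rintro _ ⟨f, rfl⟩
  have hmem : (-1 : GL (Fin 2) ℝ) ∈ G0 N := by
    refine ⟨-1, ?_, ?_⟩
    · show (-1 : SL(2, ℤ)) ∈ CongruenceSubgroup.Gamma0 N
      rw [CongruenceSubgroup.Gamma0_mem]
      simp
    · ext; simp
  rw [ModularForm.eq_zero_of_neg_one_mem hmem hk f, map_zero]
  exact zero_mem _

theorem hyp (N : ℕ) [NeZero N] : FreeAbs.Hyp RS (MS N) (⇑E₄) (⇑E₆) where
  hx := E4_mem
  hy := E6_mem
  one_mem := one_mem_RS
  mulRM := mulRM
  mulRR := mulRR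
  Rneg := fun _ hj => RS_neg hj
  Mneg := fun _ hk => MS_neg N hk
  R0 := fun _ hr => RS_zero hr
  Rdec := fun j hj _ hr => Rdec_RS j hj hr
  reg := fun k _ hf _ hg hfg => reg_MS N k hf hg hfg
  fin := MS_fin N

/-- **B2**: `⨁ₖ M_k(Γ₀(N))` is free over the graded ring of level one forms, on finitely many
homogeneous generators.  (This is exactly the data of `FreeBasis N` of the skeleton.) -/
theorem exists_freeBasis_data (N : ℕ) [NeZero N] :
    ∃ (ι : Type) (_ : Fintype ι) (wt : ι → ℤ) (F : (i : ι) → ModularForm (G0 N) (wt i)),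
      (∀ (k : ℤ) (f : ModularForm (G0 N) k),
        ∃ r : (i : ι) → ModularForm 𝒮ℒ (k - wt i), ∀ z, f z = ∑ i, r i z * F i z) ∧
      (∀ (k : ℤ) (r : (i : ι) → ModularForm 𝒮ℒ (k - wt i)),
        (∀ z, ∑ i, r i z * F i z = 0) → ∀ i, r i = 0) := by
  classical
  obtain ⟨K, n, G, hG, hspan, hindep⟩ :=
    FreeAbs.main (hyp N) RS_fin RS_grow (MS_grow N) (fun _ hk => MS_odd N hk)
  let ι := (w : ↥(Finset.Icc (0 : ℤ) K)) × Fin (n w)
  have hGι : ∀ i : ι, ∃ F : ModularForm (G0 N) (i.1 : ℤ), ⇑F = G i.1 i.2 :=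
    fun i => hG i.1 i.2 i.2.2
  choose F hF using hGι
  have hsum : ∀ (φ : ℤ → ℕ → (ℍ → ℂ)), (∑ i : ι, φ i.1 i.2)
      = ∑ w ∈ Finset.Icc (0 : ℤ) K, ∑ j ∈ Finset.range (n w), φ w j := by
    intro φ
    rw [Fintype.sum_sigma]
    rw [← Finset.sum_coe_sort (Finset.Icc (0 : ℤ) K) (fun w => ∑ j ∈ Finset.range (n w), φ w j)]
    refine Finset.sum_congr rfl fun w _ => ?_
    exact Fin.sum_univ_eq_sum_range (fun j => φ w j) (n w)
  refine ⟨ι, inferInstance, fun i => (i.1 : ℤ), F, ?_, ?_⟩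
  · intro k f
    obtain ⟨c, hc, hfc⟩ := hspan k ⇑f (coe_mem_MS f)
    have hcι : ∀ i : ι, ∃ r : ModularForm 𝒮ℒ (k - (i.1 : ℤ)), ⇑r = c i.1 i.2 :=
      fun i => hc i.1 i.2
    choose r hr using hcι
    refine ⟨r, fun z => ?_⟩
    have h1 := congrFun hfc z
    unfold FreeAbs.gsum at h1
    rw [← hsum (fun w j => c w j * G w j), Finset.sum_apply] at h1
    rw [h1]
    refine Finset.sum_congr rfl fun i _ => ?_
    rw [Pi.mul_apply, ← hr i, ← hF i]
  · intro k r hr i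
    let c : ℤ → ℕ → (ℍ → ℂ) := fun w j =>
      if h : w ∈ Finset.Icc (0 : ℤ) K ∧ j < n w then ⇑(r ⟨⟨w, h.1⟩, ⟨j, h.2⟩⟩) else 0
    have hc : ∀ w j, c w j ∈ RS (k - w) := by
      intro w j
      simp only [c]
      split_ifs with h
      · exact coe_mem_RS _
      · exact zero_mem _
    have hcι : ∀ i : ι, c i.1 i.2 = ⇑(r i) := by
      rintro ⟨⟨w, hw⟩, ⟨j, hj⟩⟩
      simp only [c]
      rw [dif_pos ⟨hw, hj⟩]
    have hg : FreeAbs.gsum n G c (Finset.Icc 0 (K : ℤ)) = 0 := by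
      unfold FreeAbs.gsum
      rw [← hsum (fun w j => c w j * G w j)]
      funext z
      rw [Finset.sum_apply, Pi.zero_apply, ← hr z]
      refine Finset.sum_congr rfl fun i _ => ?_
      rw [Pi.mul_apply, hcι i, hF i]
    have h0 := hindep k c hc hg i.1 i.2 i.2.2
    rw [hcι i] at h0
    exact DFunLike.coe_injective h0

end Fermat.Agent.S20.FreeGen
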