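import Mathlib
import Fermat.Prelude.Def_ModularCurve_GenusNumerics
import Fermat.Agent.S20.CuspCount

set_option autoImplicit false

namespace Fermat.Agent.S20.IndexPsi

open ModularCurve
open Matrix MatrixGroups CongruenceSubgroup
open Fermat.Agent.S20.CuspCount


theorem sqfree_dvd_of_dvd_mul_prime {N p d : ℕ} (hp : p.Prime) (hpN : p ∣ N)
    (hd : Squarefree d) (hdN : d ∣ N * p) : d ∣ N := by
  by_cases hpd : p ∣ d
  · obtain ⟨e, rfl⟩ := hpd
    have hcop : Nat.Coprime p e := Nat.coprime_of_squarefree_mul hd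
    have he : e ∣ N := by
      have : p * e ∣ p * N := by rwa [mul_comm p N]
      exact (Nat.mul_dvd_mul_iff_left hp.pos).mp this
    exact Nat.Coprime.mul_dvd_of_dvd_of_dvd hcop hpN he
  · have hcop : Nat.Coprime d p := (Nat.Coprime.symm ((Nat.Prime.coprime_iff_not_dvd hp).mpr hpd))
    exact hcop.dvd_of_dvd_mul_right hdN

theorem psi_mul_prime_of_dvd {N p : ℕ} (hN : N ≠ 0) (hp : p.Prime) (hpN : p ∣ N) :
    dedekindPsi (N * p) = p * dedekindPsi N := by
  unfold dedekindPsi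
  have hset : (N * p).divisors.filter Squarefree = N.divisors.filter Squarefree := by
    ext d
    simp only [Finset.mem_filter, Nat.mem_divisors]
    constructor
    · rintro ⟨⟨h1, _⟩, h3⟩
      exact ⟨⟨sqfree_dvd_of_dvd_mul_prime hp hpN h3 h1, hN⟩, h3⟩
    · rintro ⟨⟨h1, _⟩, h3⟩
      exact ⟨⟨Dvd.dvd.mul_right h1 p, Nat.mul_ne_zero hN hp.ne_zero⟩, h3⟩
  rw [hset, Finset.mul_sum]
  refine Finset.sum_congr rfl fun d hd => ?_
  have hdN : d ∣ N := (Nat.mem_divisors.mp (Finset.mem_filter.mp hd).1).1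
  rw [mul_comm N p, Nat.mul_div_assoc p hdN]

theorem psi_mul_prime_of_not_dvd {N p : ℕ} (hN : N ≠ 0) (hp : p.Prime) (hpN : ¬ p ∣ N) :
    dedekindPsi (N * p) = (p + 1) * dedekindPsi N := by
  unfold dedekindPsi
  have hcopN : Nat.Coprime N p := (Nat.Coprime.symm ((Nat.Prime.coprime_iff_not_dvd hp).mpr hpN))
  have hset : (N * p).divisors.filter Squarefree =
      N.divisors.filter Squarefree ∪ (N.divisors.filter Squarefree).image (· * p) := by
    ext d
    simp only [Finset.mem_filter, Nat.mem_divisors, Finset.mem_union, Finset.mem_image]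
    constructor
    · rintro ⟨⟨h1, _⟩, h3⟩
      by_cases hpd : p ∣ d
      · right
        obtain ⟨e, rfl⟩ := hpd
        have hcop : Nat.Coprime p e := Nat.coprime_of_squarefree_mul h3
        have he : e ∣ N := by
          have : p * e ∣ p * N := by rwa [mul_comm p N]
          exact (Nat.mul_dvd_mul_iff_left hp.pos).mp this
        exact ⟨e, ⟨⟨he, hN⟩, h3.of_mul_right⟩, mul_comm e p⟩
      · left
        have hcop : Nat.Coprime d p := (Nat.Coprime.symm ((Nat.Prime.coprime_iff_not_dvd hp).mpr hpd))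
        exact ⟨⟨hcop.dvd_of_dvd_mul_right h1, hN⟩, h3⟩
    · rintro (⟨⟨h1, _⟩, h3⟩ | ⟨e, ⟨⟨h1, _⟩, h3⟩, rfl⟩)
      · exact ⟨⟨Dvd.dvd.mul_right h1 p, Nat.mul_ne_zero hN hp.ne_zero⟩, h3⟩
      · refine ⟨⟨Nat.mul_dvd_mul_right h1 p, Nat.mul_ne_zero hN hp.ne_zero⟩, ?_⟩
        have hcop : Nat.Coprime e p := Nat.Coprime.coprime_dvd_left h1 hcopN
        exact (Nat.squarefree_mul hcop).mpr ⟨h3, hp.squarefree⟩
  have hdisj : Disjoint (N.divisors.filter Squarefree)
      ((N.divisors.filter Squarefree).image (· * p)) := by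
    rw [Finset.disjoint_left]
    intro d hd hd'
    simp only [Finset.mem_filter, Nat.mem_divisors, Finset.mem_image] at hd hd'
    obtain ⟨e, _, rfl⟩ := hd'
    exact hpN ((Dvd.intro_left e rfl).trans hd.1.1)
  rw [hset, Finset.sum_union hdisj, Finset.sum_image, add_mul, one_mul, Finset.mul_sum]
  · congr 1
    · refine Finset.sum_congr rfl fun d hd => ?_
      have hdN : d ∣ N := (Nat.mem_divisors.mp (Finset.mem_filter.mp hd).1).1
      rw [mul_comm N p, Nat.mul_div_assoc p hdN]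
    · refine Finset.sum_congr rfl fun d hd => ?_
      exact Nat.mul_div_mul_right N d hp.pos
  · intro a _ b _ h
    exact Nat.eq_of_mul_eq_mul_right hp.pos h

theorem Gamma0_mul_le (N p : ℕ) : Gamma0 (N * p) ≤ Gamma0 N := by
  intro g hg
  rw [Gamma0_mem, ZMod.intCast_zmod_eq_zero_iff_dvd] at hg ⊢
  have h1 : (N : ℤ) ∣ ((N * p : ℕ) : ℤ) := by push_cast; exact Dvd.intro _ rfl
  exact h1.trans hg

theorem sub_coset_eq_iff (N M : ℕ) (a b : Gamma0 N) :
    (QuotientGroup.mk a : ↥(Gamma0 N) ⧸ (Gamma0 M).subgroupOf (Gamma0 N)) = QuotientGroup.mk b ↔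
      (M : ℤ) ∣ a.1 0 0 * b.1 1 0 - a.1 1 0 * b.1 0 0 := by
  rw [QuotientGroup.eq, Subgroup.mem_subgroupOf]
  show (a.1⁻¹ * b.1) ∈ Gamma0 M ↔ _
  rw [Gamma0_mem, ZMod.intCast_zmod_eq_zero_iff_dvd, inv_mul_one_zero]

/-- lower unipotent matrix -/
def lowerUni (m : ℤ) : SL(2, ℤ) := ⟨!![1, 0; m, 1], by rw [Matrix.det_fin_two_of]; ring⟩

theorem lowerUni_col (m : ℤ) : (lowerUni m) 0 0 = 1 ∧ (lowerUni m) 1 0 = m := ⟨rfl, rfl⟩

theorem lowerUni_mem (N : ℕ) (m : ℤ) : lowerUni ((N : ℤ) * m) ∈ Gamma0 N := by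
  rw [Gamma0_mem, (lowerUni_col _).2, ZMod.intCast_zmod_eq_zero_iff_dvd]
  exact Dvd.intro _ rfl

/-- the common surjectivity step -/
theorem exists_lowerUni_rep (N p : ℕ) (_hN : N ≠ 0) (hp : p.Prime) (a : Gamma0 N)
    (ha : ¬ (p : ℤ) ∣ a.1 0 0) :
    ∃ t : ZMod p, ((N * p : ℕ) : ℤ) ∣ 1 * a.1 1 0 - ((N : ℤ) * (t.val : ℤ)) * a.1 0 0 := by
  have : Fact p.Prime := ⟨hp⟩
  have hmem := a.2
  rw [Gamma0_mem, ZMod.intCast_zmod_eq_zero_iff_dvd] at hmem
  obtain ⟨c₀, hc₀⟩ := hmem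
  have hα : ((a.1 0 0 : ℤ) : ZMod p) ≠ 0 := by
    rw [Ne, ZMod.intCast_zmod_eq_zero_iff_dvd]; exact ha
  refine ⟨(c₀ : ZMod p) * ((a.1 0 0 : ℤ) : ZMod p)⁻¹, ?_⟩
  set t : ZMod p := (c₀ : ZMod p) * ((a.1 0 0 : ℤ) : ZMod p)⁻¹ with ht
  have h1 : (p : ℤ) ∣ c₀ - (t.val : ℤ) * a.1 0 0 := by
    rw [← ZMod.intCast_zmod_eq_zero_iff_dvd]
    push_cast
    rw [ZMod.natCast_zmod_val, ht, mul_assoc, inv_mul_cancel₀ hα, mul_one, sub_self]
  obtain ⟨m, hm⟩ := h1
  refine ⟨m, ?_⟩
  rw [hc₀]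
  push_cast
  linear_combination (N : ℤ) * hm

theorem relIndex_of_dvd (N p : ℕ) (hN : N ≠ 0) (hp : p.Prime) (hpN : p ∣ N) :
    (Gamma0 (N * p)).relIndex (Gamma0 N) = p := by
  have : Fact p.Prime := ⟨hp⟩
  have : NeZero p := ⟨hp.ne_zero⟩
  show Nat.card (↥(Gamma0 N) ⧸ (Gamma0 (N * p)).subgroupOf (Gamma0 N)) = p
  let Θ : ZMod p → ↥(Gamma0 N) ⧸ (Gamma0 (N * p)).subgroupOf (Gamma0 N) :=
    fun t => QuotientGroup.mk ⟨lowerUni ((N : ℤ) * (t.val : ℤ)), lowerUni_mem N _⟩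
  have hbij : Function.Bijective Θ := by
    constructor
    · intro t t' h
      have h1 := (sub_coset_eq_iff N (N * p) _ _).mp h
      simp only [(lowerUni_col _).1, (lowerUni_col _).2] at h1
      have h2 : ((N * p : ℕ) : ℤ) ∣ (N : ℤ) * ((t'.val : ℤ) - (t.val : ℤ)) := by
        have e : (N : ℤ) * ((t'.val : ℤ) - (t.val : ℤ))
            = 1 * ((N : ℤ) * (t'.val : ℤ)) - (N : ℤ) * (t.val : ℤ) * 1 := by ring
        rw [e]; exact h1
      have h3 : (p : ℤ) ∣ (t'.val : ℤ) - (t.val : ℤ) := by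
        have hN' : (N : ℤ) ≠ 0 := by exact_mod_cast hN
        rw [Nat.cast_mul] at h2
        exact (mul_dvd_mul_iff_left hN').mp h2
      have h4 : ((t'.val : ℤ) : ZMod p) = ((t.val : ℤ) : ZMod p) := by
        rw [← sub_eq_zero, ← Int.cast_sub, ZMod.intCast_zmod_eq_zero_iff_dvd]; exact h3
      simpa using h4.symm
    · intro q
      induction q using QuotientGroup.induction_on with
      | H a =>
        have ha : ¬ (p : ℤ) ∣ a.1 0 0 := by
          intro hdiv
          have hmem := a.2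
          rw [Gamma0_mem, ZMod.intCast_zmod_eq_zero_iff_dvd] at hmem
          have hpc : (p : ℤ) ∣ a.1 1 0 := (Int.natCast_dvd_natCast.mpr hpN).trans hmem
          have hcop := isCoprime_col a.1
          have : IsUnit (p : ℤ) := hcop.isUnit_of_dvd' hdiv hpc
          have h1 : (p : ℤ) ∣ 1 := this.dvd
          have h2 : p ∣ 1 := by exact_mod_cast h1
          exact hp.one_lt.ne' (Nat.dvd_one.mp h2)
        obtain ⟨t, ht⟩ := exists_lowerUni_rep N p hN hp a ha
        refine ⟨t, ?_⟩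
        show (QuotientGroup.mk _ : ↥(Gamma0 N) ⧸ (Gamma0 (N * p)).subgroupOf (Gamma0 N)) = _
        rw [sub_coset_eq_iff]
        simp only [(lowerUni_col _).1, (lowerUni_col _).2]
        exact ht
  rw [← Nat.card_eq_of_bijective Θ hbij, Nat.card_zmod]


theorem exists_infty_rep (N p : ℕ) (hcop : Nat.Coprime p N) :
    ∃ g : SL(2, ℤ), g 0 0 = (p : ℤ) ∧ g 1 0 = (N : ℤ) :=
  exists_col _ _ (Nat.isCoprime_iff_coprime.mpr hcop)

theorem relIndex_of_not_dvd (N p : ℕ) (hN : N ≠ 0) (hp : p.Prime) (hpN : ¬ p ∣ N) :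
    (Gamma0 (N * p)).relIndex (Gamma0 N) = p + 1 := by
  have : Fact p.Prime := ⟨hp⟩
  have : NeZero p := ⟨hp.ne_zero⟩
  have hN' : (N : ℤ) ≠ 0 := by exact_mod_cast hN
  have hcop : Nat.Coprime p N := (Nat.Prime.coprime_iff_not_dvd hp).mpr hpN
  obtain ⟨ginf, hg0, hg1⟩ := exists_infty_rep N p hcop
  have hginf : ginf ∈ Gamma0 N := by
    rw [Gamma0_mem, hg1]; simp
  show Nat.card (↥(Gamma0 N) ⧸ (Gamma0 (N * p)).subgroupOf (Gamma0 N)) = p + 1
  let Θ : Option (ZMod p) → ↥(Gamma0 N) ⧸ (Gamma0 (N * p)).subgroupOf (Gamma0 N) :=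
    fun o => match o with
      | some t => QuotientGroup.mk ⟨lowerUni ((N : ℤ) * (t.val : ℤ)), lowerUni_mem N _⟩
      | none => QuotientGroup.mk ⟨ginf, hginf⟩
  have hss : ∀ t t' : ZMod p, Θ (some t) = Θ (some t') → t = t' := by
    intro t t' h
    have h1 := (sub_coset_eq_iff N (N * p) _ _).mp h
    simp only [(lowerUni_col _).1, (lowerUni_col _).2] at h1
    have h2 : ((N * p : ℕ) : ℤ) ∣ (N : ℤ) * ((t'.val : ℤ) - (t.val : ℤ)) := by
      have e : (N : ℤ) * ((t'.val : ℤ) - (t.val : ℤ))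
          = 1 * ((N : ℤ) * (t'.val : ℤ)) - (N : ℤ) * (t.val : ℤ) * 1 := by ring
      rw [e]; exact h1
    have h3 : (p : ℤ) ∣ (t'.val : ℤ) - (t.val : ℤ) := by
      rw [Nat.cast_mul] at h2
      exact (mul_dvd_mul_iff_left hN').mp h2
    have h4 : ((t'.val : ℤ) : ZMod p) = ((t.val : ℤ) : ZMod p) := by
      rw [← sub_eq_zero, ← Int.cast_sub, ZMod.intCast_zmod_eq_zero_iff_dvd]; exact h3
    simpa using h4.symm
  have hns : ∀ t : ZMod p, Θ none ≠ Θ (some t) := by
    intro t h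
    have h1 := (sub_coset_eq_iff N (N * p) _ _).mp h
    simp only [(lowerUni_col _).1, (lowerUni_col _).2, hg0, hg1] at h1
    have h2 : ((N * p : ℕ) : ℤ) ∣ (N : ℤ) * ((p : ℤ) * (t.val : ℤ) - 1) := by
      have e : (N : ℤ) * ((p : ℤ) * (t.val : ℤ) - 1)
          = (p : ℤ) * ((N : ℤ) * (t.val : ℤ)) - (N : ℤ) * 1 := by ring
      rw [e]; exact h1
    have h3 : (p : ℤ) ∣ (p : ℤ) * (t.val : ℤ) - 1 := by
      rw [Nat.cast_mul] at h2
      exact (mul_dvd_mul_iff_left hN').mp h2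
    have h4 : (p : ℤ) ∣ 1 := by
      have := dvd_sub (Dvd.intro (t.val : ℤ) rfl : (p : ℤ) ∣ (p : ℤ) * (t.val : ℤ)) h3
      simpa using this
    have h5 : p ∣ 1 := by exact_mod_cast h4
    exact hp.one_lt.ne' (Nat.dvd_one.mp h5)
  have hbij : Function.Bijective Θ := by
    constructor
    · intro o o' h
      cases o with
      | none =>
        cases o' with
        | none => rfl
        | some t' => exact absurd h (hns t')
      | some t =>
        cases o' with
        | none => exact absurd h.symm (hns t)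
        | some t' => rw [hss t t' h]
    · intro q
      induction q using QuotientGroup.induction_on with
      | H a =>
        by_cases ha : (p : ℤ) ∣ a.1 0 0
        · refine ⟨none, ?_⟩
          show (QuotientGroup.mk _ : ↥(Gamma0 N) ⧸ (Gamma0 (N * p)).subgroupOf (Gamma0 N)) = _
          rw [sub_coset_eq_iff]
          simp only [hg0, hg1]
          have hmem := a.2
          rw [Gamma0_mem, ZMod.intCast_zmod_eq_zero_iff_dvd] at hmem
          obtain ⟨c₀, hc₀⟩ := hmem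
          obtain ⟨m, hm⟩ := ha
          refine ⟨c₀ - m, ?_⟩
          rw [hc₀, hm]
          push_cast
          ring
        · obtain ⟨t, ht⟩ := exists_lowerUni_rep N p hN hp a ha
          refine ⟨some t, ?_⟩
          show (QuotientGroup.mk _ : ↥(Gamma0 N) ⧸ (Gamma0 (N * p)).subgroupOf (Gamma0 N)) = _
          rw [sub_coset_eq_iff]
          simp only [(lowerUni_col _).1, (lowerUni_col _).2]
          exact ht
  rw [← Nat.card_eq_of_bijective Θ hbij, Finite.card_option, Nat.card_zmod]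

theorem Gamma0_one : Gamma0 1 = ⊤ := by
  ext g
  simp only [Gamma0_mem, Subgroup.mem_top, iff_true]
  exact Subsingleton.elim _ _

theorem index_Gamma0 (N : ℕ) (hN : N ≠ 0) : (Gamma0 N).index = dedekindPsi N := by
  induction N using Nat.strong_induction_on with
  | _ N ih =>
    by_cases h1 : N = 1
    · subst h1
      rw [Gamma0_one, Subgroup.index_top, dedekindPsi_one]
    · have hp : (N.minFac).Prime := Nat.minFac_prime h1
      set p := N.minFac with hpdef
      obtain ⟨M, hM⟩ : p ∣ N := Nat.minFac_dvd N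
      have hM0 : M ≠ 0 := by
        rintro rfl
        simp at hM
        exact hN hM
      have hMlt : M < N := by
        rw [hM]
        have := hp.one_lt
        nlinarith [Nat.pos_of_ne_zero hM0]
      have hNM : N = M * p := by rw [hM, mul_comm]
      have ihM := ih M hMlt hM0
      rw [hNM, ← Subgroup.relIndex_mul_index (Gamma0_mul_le M p), ihM]
      by_cases hpM : p ∣ M
      · rw [relIndex_of_dvd M p hM0 hp hpM, psi_mul_prime_of_dvd hM0 hp hpM]
      · rw [relIndex_of_not_dvd M p hM0 hp hpM, psi_mul_prime_of_not_dvd hM0 hp hpM]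

theorem card_Q (N : ℕ) [NeZero N] :
    Nat.card (SL(2, ℤ) ⧸ Gamma0 N) = ModularCurve.dedekindPsi N :=
  index_Gamma0 N (NeZero.ne N)

end Fermat.Agent.S20.IndexPsi
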