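import Mathlib.NumberTheory.ModularForms.Derivative
import Mathlib.NumberTheory.ModularForms.Discriminant
import Mathlib.Analysis.Calculus.MeanValue
import Mathlib.Analysis.Convex.Basic

/-!
# `D Δ = E₂ Δ` and the scalar ODE `D g = K E₂ g`
-/

set_option autoImplicit false

namespace Fermat.Agent.S20

open UpperHalfPlane Derivative
open scoped Manifold Topology MatrixGroups

local notation "Δ" => ModularForm.discriminant

theorem isPreconnected_upperHalfPlaneSet : IsPreconnected upperHalfPlaneSet := by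
  have : Convex ℝ upperHalfPlaneSet := by
    intro x hx y hy a b ha hb hab
    show 0 < (a • x + b • y).im
    simp only [Complex.add_im, Complex.real_smul, Complex.mul_im, Complex.ofReal_re,
      Complex.ofReal_im, zero_mul, add_zero]
    rcases eq_or_lt_of_le ha with rfl | ha'
    · have hb1 : b = 1 := by linarith
      subst hb1
      simpa using hy
    · have h1 : 0 < a * x.im := mul_pos ha' hx
      have h2 : 0 ≤ b * y.im := mul_nonneg hb (le_of_lt hy)
      linarith
  exact this.isPreconnected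

/-- The derivative of `η` in terms of `E₂`. -/
theorem hasDerivAt_eta (z : ℍ) :
    HasDerivAt ModularForm.eta
      ((Real.pi * Complex.I / 12) * EisensteinSeries.E2 z * ModularForm.eta z) (z : ℂ) := by
  have hd : DifferentiableAt ℂ ModularForm.eta (z : ℂ) :=
    ModularForm.differentiableAt_eta_of_mem_upperHalfPlaneSet z.2
  have hne : ModularForm.eta (z : ℂ) ≠ 0 := ModularForm.eta_ne_zero z.2
  have hl := ModularForm.logDeriv_eta_eq_E2 z
  rw [logDeriv_apply, div_eq_iff hne] at hl
  rw [← hl]
  exact hd.hasDerivAt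

/-- The derivative of `η ^ n`. -/
theorem hasDerivAt_eta_pow (n : ℕ) (z : ℍ) :
    HasDerivAt (fun w => ModularForm.eta w ^ n)
      ((n : ℂ) * ((Real.pi * Complex.I / 12) * EisensteinSeries.E2 z) * ModularForm.eta z ^ n)
      (z : ℂ) := by
  have h := (hasDerivAt_eta z).fun_pow n
  refine h.congr_deriv ?_
  rcases n with _ | n
  · simp
  · simp only [Nat.add_sub_cancel, pow_succ]
    push_cast
    ring

/-- `(Δ ∘ ofComplex)' = 2πi · E₂ · Δ`. -/
theorem hasDerivAt_discriminant (z : ℍ) :
    HasDerivAt (Δ ∘ ofComplex) (2 * Real.pi * Complex.I * EisensteinSeries.E2 z * Δ z) (z : ℂ) := by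
  have h := hasDerivAt_eta_pow 24 z
  have he : (Δ ∘ ofComplex) =ᶠ[𝓝 (z : ℂ)] fun w => ModularForm.eta w ^ 24 := by
    filter_upwards [isOpen_upperHalfPlaneSet.mem_nhds z.im_pos] with w hw
    simp [ModularForm.discriminant, Function.comp_apply, ofComplex_apply_of_im_pos hw]
  refine (h.congr_of_eventuallyEq he).congr_deriv ?_
  simp only [ModularForm.discriminant]
  push_cast
  ring

/-- `D Δ = E₂ · Δ`. -/
theorem normalizedDeriv_discriminant (z : ℍ) :
    normalizedDerivOfComplex Δ z = EisensteinSeries.E2 z * Δ z := by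
  simp only [normalizedDerivOfComplex, (hasDerivAt_discriminant z).deriv]
  have : (2 * (Real.pi : ℂ) * Complex.I) ≠ 0 := by simp [Real.pi_ne_zero]
  field_simp

/-- Solutions of the scalar ODE `D g = K · E₂ · g` on `ℍ` are the constant multiples of `Δ ^ K`. -/
theorem eq_const_mul_discriminant_pow {g : ℍ → ℂ} (hg : MDiff g) (K : ℕ)
    (h : ∀ z : ℍ, normalizedDerivOfComplex g z = (K : ℂ) * EisensteinSeries.E2 z * g z) :
    ∃ C : ℂ, ∀ z : ℍ, g z = C * Δ z ^ K := by
  have hg' : DifferentiableOn ℂ (g ∘ ofComplex) upperHalfPlaneSet :=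
    UpperHalfPlane.mdifferentiable_iff.mp hg
  have h2pi : (2 * (Real.pi : ℂ) * Complex.I) ≠ 0 := by simp [Real.pi_ne_zero]
  -- derivative of `g ∘ ofComplex`
  have hgd : ∀ z : ℍ, HasDerivAt (g ∘ ofComplex)
      (2 * Real.pi * Complex.I * ((K : ℂ) * EisensteinSeries.E2 z * g z)) (z : ℂ) := by
    intro z
    have hd : DifferentiableAt ℂ (g ∘ ofComplex) (z : ℂ) :=
      (hg' z z.2).differentiableAt (isOpen_upperHalfPlaneSet.mem_nhds z.2)
    have hz := h z
    simp only [normalizedDerivOfComplex] at hz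
    have : deriv (g ∘ ofComplex) (z : ℂ)
        = 2 * Real.pi * Complex.I * ((K : ℂ) * EisensteinSeries.E2 z * g z) := by
      rw [← hz]; field_simp
    rw [← this]
    exact hd.hasDerivAt
  -- derivative of `(Δ ∘ ofComplex) ^ K`
  have hDd : ∀ z : ℍ, HasDerivAt (fun w => (Δ ∘ ofComplex) w ^ K)
      (2 * Real.pi * Complex.I * ((K : ℂ) * EisensteinSeries.E2 z * Δ z ^ K)) (z : ℂ) := by
    intro z
    have h := (hasDerivAt_discriminant z).fun_pow K
    refine h.congr_deriv ?_
    rcases K with _ | K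
    · simp
    · simp only [Nat.add_sub_cancel, pow_succ, Function.comp_apply, ofComplex_apply]
      push_cast
      ring
  set q : ℂ → ℂ := fun w => (g ∘ ofComplex) w / (Δ ∘ ofComplex) w ^ K with hq
  have hne : ∀ z : ℍ, (Δ ∘ ofComplex) (z : ℂ) ^ K ≠ 0 := by
    intro z
    simp only [Function.comp_apply, ofComplex_apply]
    exact pow_ne_zero _ (ModularForm.discriminant_ne_zero z)
  have hqd : ∀ z : ℍ, HasDerivAt q 0 (z : ℂ) := by
    intro z
    have := (hgd z).div (hDd z) (hne z)
    refine this.congr_deriv ?_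
    have h0 : (Δ ∘ ofComplex) (z : ℂ) = Δ z := by
      simp only [Function.comp_apply, ofComplex_apply]
    have h0' : (g ∘ ofComplex) (z : ℂ) = g z := by
      simp only [Function.comp_apply, ofComplex_apply]
    rw [h0, h0']
    have h1 : Δ z ^ K ≠ 0 := pow_ne_zero _ (ModularForm.discriminant_ne_zero z)
    rw [div_eq_zero_iff]
    left
    ring
  have hqdiff : DifferentiableOn ℂ q upperHalfPlaneSet := fun w hw =>
    ((hqd ⟨w, hw⟩).differentiableAt).differentiableWithinAt
  have hqderiv : upperHalfPlaneSet.EqOn (deriv q) 0 := fun w hw => (hqd ⟨w, hw⟩).deriv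
  obtain ⟨C, hC⟩ := isOpen_upperHalfPlaneSet.exists_is_const_of_deriv_eq_zero
    isPreconnected_upperHalfPlaneSet hqdiff hqderiv
  refine ⟨C, fun z => ?_⟩
  have := hC (z : ℂ) z.2
  simp only [hq, Function.comp_apply, ofComplex_apply] at this
  have h1 : Δ z ^ K ≠ 0 := pow_ne_zero _ (ModularForm.discriminant_ne_zero z)
  rw [div_eq_iff h1] at this
  exact this

end Fermat.Agent.S20
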