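import Fermat.Agent.S20.DetDeriv
import Fermat.Agent.S20.DiscODE

/-!
# The determinant of a fundamental matrix of forms closed under the Serre derivative

If the columns `Φ_{·j}` (of weights `k j`) of a square matrix of holomorphic functions on `ℍ`
satisfy `∂_{k j} Φ_{·j} = ∑ l, Φ_{·l} B l j` with `B j j = 0`, then
`D (det Φ) = (∑ k j / 12) E₂ det Φ`, hence `(det Φ)^12 = C Δ^(∑ k j)`; in particular `det Φ`
is either identically zero or nowhere zero on `ℍ`.
-/

set_option autoImplicit false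

namespace Fermat.Agent.S20

open UpperHalfPlane Derivative Matrix
open scoped Manifold Topology MatrixGroups

local notation "Δ" => ModularForm.discriminant

variable {ι : Type*} [Fintype ι] [DecidableEq ι]

/-- Key computation: the derivative of `det Φ` under the Serre-derivative closure hypothesis. -/
theorem hasDerivAt_det_of_serre {Φ : ℍ → Matrix ι ι ℂ} (hΦ : ∀ x j, MDiff fun z => Φ z x j)
    (k : ι → ℂ) (B : ι → ι → ℍ → ℂ)
    (hB : ∀ x j z, serreDerivative (k j) (fun w => Φ w x j) z = ∑ l, Φ z x l * B l j z)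
    (hB0 : ∀ j z, B j j z = 0) (z : ℍ) :
    HasDerivAt (fun w : ℂ => (Φ (ofComplex w)).det)
      (2 * Real.pi * Complex.I * ((∑ j, k j) * 12⁻¹ * EisensteinSeries.E2 z * (Φ z).det))
      (z : ℂ) := by
  have h2pi : (2 * (Real.pi : ℂ) * Complex.I) ≠ 0 := by simp [Real.pi_ne_zero]
  set B' : Matrix ι ι ℂ := fun l j =>
    2 * Real.pi * Complex.I *
      (B l j z + if l = j then k j * 12⁻¹ * EisensteinSeries.E2 z else 0) with hB'
  have hentry : ∀ x j, HasDerivAt (fun w : ℂ => Φ (ofComplex w) x j)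
      ((Φ (ofComplex (z : ℂ)) * B') x j) (z : ℂ) := by
    intro x j
    have hd : DifferentiableAt ℂ ((fun w => Φ w x j) ∘ ofComplex) (z : ℂ) :=
      UpperHalfPlane.mdifferentiableAt_iff.mp (hΦ x j z)
    have hs := hB x j z
    simp only [serreDerivative_apply, normalizedDerivOfComplex] at hs
    have hderiv : deriv ((fun w => Φ w x j) ∘ ofComplex) (z : ℂ)
        = (Φ (ofComplex (z : ℂ)) * B') x j := by
      rw [ofComplex_apply, Matrix.mul_apply]
      simp only [hB', mul_add, mul_ite, mul_zero, Finset.sum_add_distrib,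
        Finset.sum_ite_eq', Finset.mem_univ, if_true]
      have e1 : ∑ l, Φ z x l * (2 * Real.pi * Complex.I * B l j z)
          = 2 * Real.pi * Complex.I * ∑ l, Φ z x l * B l j z := by
        rw [Finset.mul_sum]
        exact Finset.sum_congr rfl fun l _ => by ring
      rw [e1, ← hs]
      field_simp
      ring
    rw [← hderiv]
    exact hd.hasDerivAt
  have := hasDerivAt_det_of_eq_mul (Φ := fun w : ℂ => Φ (ofComplex w)) (B := B') hentry
  refine this.congr_deriv ?_
  rw [ofComplex_apply]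
  have hdiag : ∀ j, B' j j = 2 * Real.pi * Complex.I * (k j * 12⁻¹ * EisensteinSeries.E2 z) := by
    intro j
    show 2 * Real.pi * Complex.I *
      (B j j z + if j = j then k j * 12⁻¹ * EisensteinSeries.E2 z else 0) = _
    rw [hB0, zero_add, if_pos rfl]
  have htr : B'.trace = 2 * Real.pi * Complex.I * ((∑ j, k j) * 12⁻¹ * EisensteinSeries.E2 z) := by
    show ∑ j, B' j j = _
    simp_rw [hdiag]
    rw [← Finset.mul_sum, Finset.sum_mul, Finset.sum_mul]
  rw [htr]
  ring

/-- Under the Serre-derivative closure hypothesis, `(det Φ)^12 = C · Δ^K` where `K = ∑ k j`. -/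
theorem det_pow_twelve_eq_const_mul_discriminant_pow {Φ : ℍ → Matrix ι ι ℂ}
    (hΦ : ∀ x j, MDiff fun z => Φ z x j)
    (k : ι → ℤ) (B : ι → ι → ℍ → ℂ)
    (hB : ∀ x j z, serreDerivative (k j) (fun w => Φ w x j) z = ∑ l, Φ z x l * B l j z)
    (hB0 : ∀ j z, B j j z = 0) (K : ℕ) (hK : ∑ j, k j = (K : ℤ)) :
    ∃ C : ℂ, ∀ z : ℍ, (Φ z).det ^ 12 = C * Δ z ^ K := by
  have h2pi : (2 * (Real.pi : ℂ) * Complex.I) ≠ 0 := by simp [Real.pi_ne_zero]
  have hKc : (∑ j, (k j : ℂ)) = (K : ℂ) := by exact_mod_cast congrArg (Int.cast : ℤ → ℂ) hK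
  have hdet : ∀ z : ℍ, HasDerivAt (fun w : ℂ => (Φ (ofComplex w)).det)
      (2 * Real.pi * Complex.I * ((K : ℂ) * 12⁻¹ * EisensteinSeries.E2 z * (Φ z).det))
      (z : ℂ) := by
    intro z
    have := hasDerivAt_det_of_serre hΦ (fun j => (k j : ℂ)) B hB hB0 z
    rwa [hKc] at this
  set g : ℍ → ℂ := fun z => (Φ z).det ^ 12 with hg
  have hgd : ∀ z : ℍ, HasDerivAt (g ∘ ofComplex)
      (2 * Real.pi * Complex.I * ((K : ℂ) * EisensteinSeries.E2 z * g z)) (z : ℂ) := by
    intro z
    have := (hdet z).fun_pow 12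
    refine this.congr_deriv ?_
    simp only [hg, ofComplex_apply]
    push_cast
    ring
  have hgM : MDiff g := by
    rw [UpperHalfPlane.mdifferentiable_iff]
    intro w hw
    have := (hgd ⟨w, hw⟩).differentiableAt
    exact this.differentiableWithinAt
  refine eq_const_mul_discriminant_pow hgM K fun z => ?_
  simp only [normalizedDerivOfComplex, (hgd z).deriv]
  field_simp

/-- Consequence: if `det Φ` is nonzero somewhere it is nonzero everywhere on `ℍ`. -/
theorem det_ne_zero_of_serre {Φ : ℍ → Matrix ι ι ℂ}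
    (hΦ : ∀ x j, MDiff fun z => Φ z x j)
    (k : ι → ℤ) (B : ι → ι → ℍ → ℂ)
    (hB : ∀ x j z, serreDerivative (k j) (fun w => Φ w x j) z = ∑ l, Φ z x l * B l j z)
    (hB0 : ∀ j z, B j j z = 0) (K : ℕ) (hK : ∑ j, k j = (K : ℤ))
    {z₀ : ℍ} (h0 : (Φ z₀).det ≠ 0) (z : ℍ) : (Φ z).det ≠ 0 := by
  obtain ⟨C, hC⟩ := det_pow_twelve_eq_const_mul_discriminant_pow hΦ k B hB hB0 K hK
  have hC0 : C ≠ 0 := by
    rintro rfl
    have := hC z₀
    rw [zero_mul] at this
    exact h0 (pow_eq_zero_iff (by norm_num) |>.mp this)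
  intro hz
  have := hC z
  rw [hz, zero_pow (by norm_num)] at this
  exact mul_ne_zero hC0 (pow_ne_zero _ (ModularForm.discriminant_ne_zero z)) this.symm

end Fermat.Agent.S20
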