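import Fermat.Agent.S20.DerivBdd
import Mathlib.NumberTheory.ModularForms.EisensteinSeries.E2.Summable
import Mathlib.NumberTheory.ModularForms.Basic

/-!
# The Serre derivative preserves boundedness at all cusps (for `SL(2, ℤ)`-translates)
-/

set_option autoImplicit false

namespace Fermat.Agent.S20

open UpperHalfPlane Derivative
open scoped Manifold Topology MatrixGroups ModularForm

/-- The Serre derivative of a holomorphic function bounded at `i∞` is bounded at `i∞`. -/
theorem isBoundedAtImInfty_serreDerivative {F : ℍ → ℂ} (k : ℂ) (hF : MDiff F)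
    (hb : IsBoundedAtImInfty F) : IsBoundedAtImInfty (serreDerivative k F) := by
  have h1 : IsBoundedAtImInfty (normalizedDerivOfComplex F) :=
    isBoundedAtImInfty_normalizedDeriv hF hb
  have h2 : IsBoundedAtImInfty (fun z : ℍ => k * 12⁻¹ * EisensteinSeries.E2 z * F z) := by
    have hE : IsBoundedAtImInfty EisensteinSeries.E2 := EisensteinSeries.isBoundedAtImInfty_E2
    have hc : IsBoundedAtImInfty (fun _ : ℍ => k * 12⁻¹) :=
      Filter.const_boundedAtFilter _ _
    exact (hc.mul hE).mul hb
  have : serreDerivative k F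
      = normalizedDerivOfComplex F - fun z : ℍ => k * 12⁻¹ * EisensteinSeries.E2 z * F z := by
    ext z; simp [serreDerivative]
  rw [this]
  exact h1.sub h2

/-- The Serre derivative of a holomorphic function vanishing at `i∞` vanishes at `i∞`. -/
theorem isZeroAtImInfty_serreDerivative {F : ℍ → ℂ} (k : ℂ) (hF : MDiff F)
    (hb : IsZeroAtImInfty F) : IsZeroAtImInfty (serreDerivative k F) := by
  have h1 : IsZeroAtImInfty (normalizedDerivOfComplex F) :=
    isZeroAtImInfty_normalizedDeriv hF hb
  have h2 : IsZeroAtImInfty (fun z : ℍ => k * 12⁻¹ * EisensteinSeries.E2 z * F z) := by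
    have hE : IsBoundedAtImInfty EisensteinSeries.E2 := EisensteinSeries.isBoundedAtImInfty_E2
    have hc : IsBoundedAtImInfty (fun _ : ℍ => k * 12⁻¹) :=
      Filter.const_boundedAtFilter _ _
    have := (hc.mul hE)
    exact Filter.BoundedAtFilter.mul_zeroAtFilter this hb
  have : serreDerivative k F
      = normalizedDerivOfComplex F - fun z : ℍ => k * 12⁻¹ * EisensteinSeries.E2 z * F z := by
    ext z; simp [serreDerivative]
  rw [this]
  have h3 := Filter.Tendsto.sub h1 h2
  rw [sub_zero] at h3
  exact h3

/-- Boundedness at every cusp (in the `SL(2, ℤ)`-translate formulation) is preserved by the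
Serre derivative. -/
theorem isBoundedAtImInfty_serreDerivative_slash {k : ℤ} {F : ℍ → ℂ} (hF : MDiff F)
    (γ : SL(2, ℤ)) (hb : IsBoundedAtImInfty (F ∣[k] γ)) :
    IsBoundedAtImInfty (serreDerivative k F ∣[k + 2] γ) := by
  rw [serreDerivative_slash_equivariant hF]
  exact isBoundedAtImInfty_serreDerivative k (hF.slash k _) hb

/-- Vanishing at every cusp (in the `SL(2, ℤ)`-translate formulation) is preserved by the
Serre derivative. -/
theorem isZeroAtImInfty_serreDerivative_slash {k : ℤ} {F : ℍ → ℂ} (hF : MDiff F)
    (γ : SL(2, ℤ)) (hb : IsZeroAtImInfty (F ∣[k] γ)) :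
    IsZeroAtImInfty (serreDerivative k F ∣[k + 2] γ) := by
  rw [serreDerivative_slash_equivariant hF]
  exact isZeroAtImInfty_serreDerivative k (hF.slash k _) hb

end Fermat.Agent.S20
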