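import Fermat.Agent.S20.Basic
import Fermat.Agent.S20.DetODE
import Fermat.Agent.S20.SerreClosure

/-!
# S20 glue (helper8000): rank = index and pointwise invertibility of the fundamental matrix

Skeleton-independent statements (only `Basic.lean` conventions `G0`, `Q`, `cj`, `mkMF`).
Data: a finite family `F i : ModularForm (G0 N) (wt i)` spanning all forms over level-one forms.
Inputs taken as hypotheses:
* `hsep` : a separating form `h` (`h ∣[k] g = h → g ∈ Γ₀(N)`);
* `hcard` (only for the two-sided inverse): `card ι = card (Q N)`  (or `card ι ≤ card (Q N)`).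

Outputs:
* `exists_right_inverse` : at some point `z₀` the fundamental matrix has a right inverse;
* `card_ge` : `card (Q N) ≤ card ι`;
* `card_eq_of_le`;
* `exists_inverse` : the fundamental matrix is invertible at EVERY point of `ℍ`
  (Serre derivative closure + `det_ne_zero_of_serre`).
-/

set_option autoImplicit false

open UpperHalfPlane ModularForm Matrix.SpecialLinearGroup Derivative
open scoped MatrixGroups ModularForm Manifold

namespace Fermat.Agent.S20.RankInv

variable {N : ℕ} [NeZero N]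

set_option linter.unusedSectionVars false

/-! ### generic points -/

/-- finitely many pairwise distinct holomorphic functions on `ℍ` take pairwise distinct values
at some point. -/
theorem exists_forall_ne {X : Type*} [Fintype X] (u : X → ℍ → ℂ) (hu : ∀ x, MDiff (u x))
    (hne : ∀ x y, x ≠ y → u x ≠ u y) : ∃ z₀ : ℍ, ∀ x y, x ≠ y → u x z₀ ≠ u y z₀ := by
  classical
  let s : Finset (X × X) := Finset.univ.filter fun p => p.1 ≠ p.2
  have hprod : ∏ p ∈ s, (u p.1 - u p.2) ≠ 0 := by
    intro h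
    rw [UpperHalfPlane.prod_eq_zero_iff (fun p _ => (hu p.1).sub (hu p.2))] at h
    obtain ⟨p, hp, h0⟩ := h
    exact hne p.1 p.2 (Finset.mem_filter.mp hp).2 (sub_eq_zero.mp h0)
  obtain ⟨z₀, hz₀⟩ : ∃ z₀, (∏ p ∈ s, (u p.1 - u p.2)) z₀ ≠ 0 := by
    by_contra hcon
    push Not at hcon
    exact hprod (funext hcon)
  refine ⟨z₀, fun x y hxy h => hz₀ ?_⟩
  rw [Finset.prod_apply]
  exact Finset.prod_eq_zero (i := (x, y)) (Finset.mem_filter.mpr ⟨Finset.mem_univ _, hxy⟩)
    (by simp [h])

/-! ### powers -/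

theorem pow_slash_SL2 (k : ℤ) (γ : SL(2, ℤ)) (f : ℍ → ℂ) (a : ℕ) :
    (f ^ a) ∣[(a : ℤ) * k] γ = (f ∣[k] γ) ^ a := by
  induction a with
  | zero => simpa using ModularForm.is_invariant_one γ
  | succ n ih =>
    rw [pow_succ, pow_succ, show ((n + 1 : ℕ) : ℤ) * k = (n : ℤ) * k + k by push_cast; ring,
      ModularForm.mul_slash_SL2, ih]

theorem isBoundedAtImInfty_pow {f : ℍ → ℂ} (hf : IsBoundedAtImInfty f) (a : ℕ) :
    IsBoundedAtImInfty (f ^ a) := by
  induction a with
  | zero =>
    rw [pow_zero]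
    exact Filter.const_boundedAtFilter _ (1 : ℂ)
  | succ n ih =>
    rw [pow_succ]
    exact ih.mul hf

/-- the `a`-th power of a modular form on `Γ₀(N)` -/
noncomputable def powMF {k : ℤ} (h : ModularForm (G0 N) k) (a : ℕ) :
    ModularForm (G0 N) ((a : ℤ) * k) :=
  mkMF N ((a : ℤ) * k) ((h : ℍ → ℂ) ^ a) ((ModularFormClass.holo h).pow a)
    (fun γ hγ => by rw [pow_slash_SL2, slash_eq_of_mem h hγ])
    (fun γ => by
      rw [pow_slash_SL2]
      exact isBoundedAtImInfty_pow (isBoundedAtImInfty_slash h γ) a)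

theorem coe_powMF {k : ℤ} (h : ModularForm (G0 N) k) (a : ℕ) :
    (powMF h a : ℍ → ℂ) = (h : ℍ → ℂ) ^ a := rfl

theorem cj_powMF {k : ℤ} (h : ModularForm (G0 N) k) (a : ℕ) (x : Q N) :
    cj N ((a : ℤ) * k) (powMF h a) x = (cj N k h x) ^ a := by
  unfold cj
  rw [coe_powMF, pow_slash_SL2]

/-- conjugates of a separating form are pairwise distinct -/
theorem cj_ne_of_sep {k : ℤ} (h : ModularForm (G0 N) k)
    (hsep : ∀ g : SL(2, ℤ), (h : ℍ → ℂ) ∣[k] g = h → g ∈ CongruenceSubgroup.Gamma0 N) :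
    ∀ x y : Q N, x ≠ y → cj N k h x ≠ cj N k h y := by
  intro x y hxy heq
  induction x using QuotientGroup.induction_on with
  | H a =>
    induction y using QuotientGroup.induction_on with
    | H b =>
      rw [cj_mk, cj_mk] at heq
      have h1 : (h : ℍ → ℂ) ∣[k] (a⁻¹ * b) = h := by
        rw [SlashAction.slash_mul, heq, ← SlashAction.slash_mul]
        simp
      exact hxy (QuotientGroup.eq.mpr (hsep _ h1))

theorem cj_mul_levelOne' (k k₁ k₂ : ℤ) (hk : k = k₁ + k₂) (r : ModularForm 𝒮ℒ k₁)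
    (f : ℍ → ℂ) (x : Q N) :
    cj N k ((r : ℍ → ℂ) * f) x = (r : ℍ → ℂ) * cj N k₂ f x := by
  subst hk
  exact cj_mul_levelOne N r f x

/-- level one forms of weight 2 vanish (weight given up to propositional equality) -/
theorem levelOne_eq_zero_of_weight_eq_two {k : ℤ} (hk : k = 2) (f : ModularForm 𝒮ℒ k) :
    f = 0 := by
  subst hk
  exact rank_zero_iff_forall_zero.mp ModularForm.levelOne_weight_two_rank_zero f

section family

variable {ι : Type} [Fintype ι] [DecidableEq ι] (wt : ι → ℤ)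
  (F : (i : ι) → ModularForm (G0 N) (wt i))

/-- the fundamental matrix `(F_i^x(z))_{x,i}` -/
noncomputable def fundM (z : ℍ) : Matrix (Q N) ι ℂ :=
  fun x i => cj N (wt i) (F i) x z

/-- conjugating a spanning identity -/
theorem cj_of_span {k : ℤ} (f : ModularForm (G0 N) k)
    (r : (i : ι) → ModularForm 𝒮ℒ (k - wt i)) (hr : ∀ z, f z = ∑ i, r i z * F i z)
    (x : Q N) (z : ℍ) :
    cj N k f x z = ∑ i, r i z * cj N (wt i) (F i) x z := by
  have hfun : (f : ℍ → ℂ) = ∑ i, (r i : ℍ → ℂ) * (F i : ℍ → ℂ) := by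
    funext z
    rw [hr z, Finset.sum_apply]
    rfl
  rw [hfun, cj_sum, Finset.sum_apply]
  refine Finset.sum_congr rfl fun i _ => ?_
  rw [cj_mul_levelOne' k (k - wt i) (wt i) (by ring) (r i)]
  rfl

variable (hspan : ∀ (k : ℤ) (f : ModularForm (G0 N) k),
    ∃ r : (i : ι) → ModularForm 𝒮ℒ (k - wt i), ∀ z, f z = ∑ i, r i z * F i z)

include hspan

/-- At a generic point the fundamental matrix has a right inverse. -/
theorem exists_right_inverse {k : ℤ} (h : ModularForm (G0 N) k)
    (hsep : ∀ g : SL(2, ℤ), (h : ℍ → ℂ) ∣[k] g = h → g ∈ CongruenceSubgroup.Gamma0 N) :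
    ∃ z₀ : ℍ, ∃ C : Matrix ι (Q N) ℂ, fundM wt F z₀ * C = 1 := by
  classical
  obtain ⟨z₀, hz₀⟩ := exists_forall_ne (fun x : Q N => cj N k h x)
    (fun x => cj_mdifferentiable h x) (cj_ne_of_sep h hsep)
  let e : Q N ≃ Fin (Fintype.card (Q N)) := Fintype.equivFin _
  let t : Fin (Fintype.card (Q N)) → ℂ := fun a => cj N k h (e.symm a) z₀
  have ht : Function.Injective t := by
    intro a b hab
    by_contra hne
    exact hz₀ (e.symm a) (e.symm b) (fun h' => hne (e.symm.injective h')) hab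
  have hV : (Matrix.vandermonde t).det ≠ 0 := Matrix.det_vandermonde_ne_zero_iff.mpr ht
  choose r hr using fun b : Fin (Fintype.card (Q N)) => hspan _ (powMF h (b : ℕ))
  let C₀ : Matrix ι (Fin (Fintype.card (Q N))) ℂ := fun i b => r b i z₀
  have hmul : fundM wt F z₀ * C₀ = (Matrix.vandermonde t).submatrix e id := by
    ext x b
    rw [Matrix.mul_apply, Matrix.submatrix_apply, Matrix.vandermonde_apply]
    have h1 := cj_of_span wt F (powMF h (b : ℕ)) (r b) (hr b) x z₀
    rw [cj_powMF] at h1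
    simp only [t, id, Equiv.symm_apply_apply]
    rw [← Pi.pow_apply, h1]
    exact Finset.sum_congr rfl fun i _ => mul_comm _ _
  refine ⟨z₀, C₀ * ((Matrix.vandermonde t)⁻¹.submatrix id e), ?_⟩
  have hsub : (Matrix.vandermonde t).submatrix e id * (Matrix.vandermonde t)⁻¹.submatrix id e
      = ((Matrix.vandermonde t) * (Matrix.vandermonde t)⁻¹).submatrix e e := by
    ext x y
    simp [Matrix.mul_apply]
  rw [← Matrix.mul_assoc, hmul, hsub, Matrix.mul_nonsing_inv _
    (isUnit_iff_ne_zero.mpr hV), Matrix.submatrix_one_equiv]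

/-- rank ≥ index -/
theorem card_ge {k : ℤ} (h : ModularForm (G0 N) k)
    (hsep : ∀ g : SL(2, ℤ), (h : ℍ → ℂ) ∣[k] g = h → g ∈ CongruenceSubgroup.Gamma0 N) :
    Nat.card (Q N) ≤ Fintype.card ι := by
  classical
  obtain ⟨z₀, C, hC⟩ := exists_right_inverse wt F hspan h hsep
  have h1 : (1 : Matrix (Q N) (Q N) ℂ).rank = Fintype.card (Q N) := Matrix.rank_one
  have h2 : (fundM wt F z₀ * C).rank ≤ (fundM wt F z₀).rank := Matrix.rank_mul_le_left _ _
  have h3 : (fundM wt F z₀).rank ≤ Fintype.card ι := Matrix.rank_le_card_width _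
  rw [Nat.card_eq_fintype_card]
  rw [hC, h1] at h2
  exact h2.trans h3

theorem card_eq_of_le {k : ℤ} (h : ModularForm (G0 N) k)
    (hsep : ∀ g : SL(2, ℤ), (h : ℍ → ℂ) ∣[k] g = h → g ∈ CongruenceSubgroup.Gamma0 N)
    (hle : Fintype.card ι ≤ Nat.card (Q N)) :
    Fintype.card ι = Nat.card (Q N) :=
  le_antisymm hle (card_ge wt F hspan h hsep)

/-- The fundamental matrix is invertible at every point of `ℍ`. -/
theorem exists_inverse {k : ℤ} (h : ModularForm (G0 N) k)
    (hsep : ∀ g : SL(2, ℤ), (h : ℍ → ℂ) ∣[k] g = h → g ∈ CongruenceSubgroup.Gamma0 N)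
    (hcard : Fintype.card ι = Nat.card (Q N)) (z : ℍ) :
    ∃ H : Matrix ι (Q N) ℂ, H * fundM wt F z = 1 ∧ fundM wt F z * H = 1 := by
  classical
  have hcard' : Fintype.card ι = Fintype.card (Q N) := by
    rw [hcard, Nat.card_eq_fintype_card]
  let e : ι ≃ Q N := Fintype.equivOfCardEq hcard'
  let Φ : ℍ → Matrix (Q N) (Q N) ℂ := fun w => (fundM wt F w).submatrix id e.symm
  have hfund : ∀ w, fundM wt F w = (Φ w).submatrix id e := by
    intro w
    ext x i
    simp [Φ]
  obtain ⟨z₀, C, hC⟩ := exists_right_inverse wt F hspan h hsep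
  have hdet₀ : (Φ z₀).det ≠ 0 := by
    refine Matrix.det_ne_zero_of_right_inverse (B := C.submatrix e.symm id) ?_
    rw [show Φ z₀ = (fundM wt F z₀).submatrix id e.symm from rfl]
    rw [Matrix.submatrix_mul_equiv, hC, Matrix.submatrix_id_id]
  -- nonnegativity of the weights
  have hwt : ∀ j : Q N, 0 ≤ wt (e.symm j) := by
    intro j
    by_contra hneg
    push Not at hneg
    have hF : F (e.symm j) = 0 := ModularForm.isZero_of_neg_weight hneg _
    refine hdet₀ (Matrix.det_eq_zero_of_column_eq_zero j fun x => ?_)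
    show cj N (wt (e.symm j)) (F (e.symm j)) x z₀ = 0
    rw [hF]
    unfold cj
    have : ((0 : ModularForm (G0 N) (wt (e.symm j))) : ℍ → ℂ) = 0 := rfl
    rw [this, SlashAction.zero_slash]
    rfl
  -- Serre derivative closure
  have hhol : ∀ i, MDiff (F i : ℍ → ℂ) := fun i => ModularFormClass.holo (F i)
  let SD : (i : ι) → ModularForm (G0 N) (wt i + 2) := fun i =>
    mkMF N (wt i + 2) (serreDerivative (wt i) (F i)) (serreDerivative_mdifferentiable _ (hhol i))
      (fun γ hγ => serreDerivative_slash_invariant (hhol i) (slash_eq_of_mem (F i) hγ))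
      (fun γ => isBoundedAtImInfty_serreDerivative_slash (hhol i) γ
        (isBoundedAtImInfty_slash (F i) γ))
  choose r hr using fun i : ι => hspan _ (SD i)
  let B : Q N → Q N → ℍ → ℂ := fun l j w => r (e.symm j) (e.symm l) w
  have hB : ∀ x j w, serreDerivative (wt (e.symm j)) (fun v => Φ v x j) w
      = ∑ l, Φ w x l * B l j w := by
    intro x j w
    have h1 : (fun v => Φ v x j) = cj N (wt (e.symm j)) (F (e.symm j)) x := rfl
    have h2 : serreDerivative (wt (e.symm j)) (cj N (wt (e.symm j)) (F (e.symm j)) x)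
        = cj N (wt (e.symm j) + 2) (SD (e.symm j)) x := by
      unfold cj
      rw [← serreDerivative_slash_equivariant (hhol _)]
      rfl
    rw [h1, h2, cj_of_span wt F (SD (e.symm j)) (r (e.symm j)) (hr (e.symm j)) x w]
    rw [← Equiv.sum_comp e.symm]
    exact Finset.sum_congr rfl fun l _ => mul_comm _ _
  have hB0 : ∀ j w, B j j w = 0 := by
    intro j w
    show r (e.symm j) (e.symm j) w = 0
    have h0 : r (e.symm j) (e.symm j) = 0 :=
      levelOne_eq_zero_of_weight_eq_two (by ring) _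
    rw [h0]
    rfl
  have hΦ : ∀ x j, MDiff fun w => Φ w x j := fun x j => cj_mdifferentiable (F (e.symm j)) x
  have hK : ∑ j, wt (e.symm j) = ((∑ j, wt (e.symm j)).toNat : ℤ) :=
    (Int.toNat_of_nonneg (Finset.sum_nonneg fun j _ => hwt j)).symm
  have hdet : (Φ z).det ≠ 0 :=
    det_ne_zero_of_serre hΦ (fun j => wt (e.symm j)) B hB hB0 _ hK hdet₀ z
  have hu : IsUnit (Φ z).det := isUnit_iff_ne_zero.mpr hdet
  refine ⟨(Φ z)⁻¹.submatrix e id, ?_, ?_⟩
  · rw [hfund z]
    have : (Φ z)⁻¹.submatrix e id * (Φ z).submatrix id e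
        = ((Φ z)⁻¹ * Φ z).submatrix e e := by
      ext i i'
      simp [Matrix.mul_apply]
    rw [this, Matrix.nonsing_inv_mul _ hu, Matrix.submatrix_one_equiv]
  · rw [hfund z, Matrix.submatrix_mul_equiv, Matrix.mul_nonsing_inv _ hu, Matrix.submatrix_id_id]

end family

end Fermat.Agent.S20.RankInv
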