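import Fermat.Agent.S20.Basic

/-!
SEP (helper4280): a modular form on `Γ₀(N)` whose conjugates are pairwise distinct, namely
`h(z) = N³ E₄(N z) = E₄ ∣[4] diag(N,1)`.
-/

set_option autoImplicit false

open UpperHalfPlane ModularForm Matrix.SpecialLinearGroup EisensteinSeries Filter
open scoped MatrixGroups ModularForm Manifold Topology

namespace Fermat.Agent.S20

/-- the upper triangular matrix `(a b; 0 d)` in `GL(2,ℝ)` (junk value `1` if `a d = 0`) -/
noncomputable def ut (a b d : ℝ) : GL (Fin 2) ℝ :=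
  if h : a * d ≠ 0 then
    Matrix.GeneralLinearGroup.mkOfDetNeZero !![a, b; 0, d] (by simpa [Matrix.det_fin_two] using h)
  else 1

theorem ut_val {a b d : ℝ} (h : a * d ≠ 0) :
    ((ut a b d : GL (Fin 2) ℝ) : Matrix (Fin 2) (Fin 2) ℝ) = !![a, b; 0, d] := by
  simp [ut, h, Matrix.GeneralLinearGroup.mkOfDetNeZero]

theorem tendsto_E4 : Tendsto (E₄ : ℍ → ℂ) atImInfty (𝓝 1) := by
  have hper := SlashInvariantFormClass.periodic_comp_ofComplex E₄ one_mem_strictPeriods_SL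
  have han := ModularFormClass.analyticAt_cuspFunction_zero E₄ one_pos one_mem_strictPeriods_SL
  have h0 : cuspFunction 1 E₄ 0 = 1 := by
    rw [cuspFunction_apply_zero one_pos han hper, ← qExpansion_coeff_zero one_pos han hper]
    exact E_qExpansion_coeff_zero _ ⟨2, rfl⟩
  have hcomp : (cuspFunction 1 E₄ ∘ fun τ : ℍ ↦ Function.Periodic.qParam 1 τ : ℍ → ℂ) = E₄ := by
    funext τ
    simpa using eq_cuspFunction τ one_ne_zero hper
  have := han.continuousAt.tendsto.comp (qParam_tendsto_atImInfty one_pos)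
  rw [hcomp, h0] at this
  exact this

theorem ut_det {a b d : ℝ} (h : a * d ≠ 0) : (ut a b d).det.val = a * d := by
  rw [Matrix.GeneralLinearGroup.val_det_apply, ut_val h, Matrix.det_fin_two_of]
  ring

theorem ut_one_zero {a b d : ℝ} (h : a * d ≠ 0) : (ut a b d) 1 0 = 0 := by
  have := ut_val (b := b) h
  change ((ut a b d : GL (Fin 2) ℝ) : Matrix (Fin 2) (Fin 2) ℝ) 1 0 = 0
  rw [this]; rfl

theorem ut_one_one {a b d : ℝ} (h : a * d ≠ 0) : (ut a b d) 1 1 = d := by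
  have := ut_val (b := b) h
  change ((ut a b d : GL (Fin 2) ℝ) : Matrix (Fin 2) (Fin 2) ℝ) 1 1 = d
  rw [this]; rfl

/-- the value at `i∞` of `E₄ ∣[4] (a b; 0 d)` -/
theorem tendsto_E4_slash_ut {a b d : ℝ} (ha : 0 < a) (hd : 0 < d) :
    Tendsto ((E₄ : ℍ → ℂ) ∣[(4 : ℤ)] (ut a b d)) atImInfty
      (𝓝 (((a * d : ℝ) : ℂ) ^ 3 * ((d : ℝ) : ℂ) ^ (-4 : ℤ))) := by
  have h : a * d ≠ 0 := (mul_pos ha hd).ne'
  have hdet : 0 < (ut a b d).det.val := by rw [ut_det h]; exact mul_pos ha hd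
  have hfun : ((E₄ : ℍ → ℂ) ∣[(4 : ℤ)] (ut a b d))
      = fun τ : ℍ => E₄ (ut a b d • τ) * (((a * d : ℝ) : ℂ) ^ 3 * ((d : ℝ) : ℂ) ^ (-4 : ℤ)) := by
    funext τ
    rw [ModularForm.slash_apply]
    have h1 : σ (ut a b d) (E₄ (ut a b d • τ)) = E₄ (ut a b d • τ) := by
      unfold σ
      rw [if_pos hdet]
      rfl
    have h2 : denom (ut a b d) τ = ((d : ℝ) : ℂ) := by
      simp [denom, ut_one_zero h, ut_one_one h]
    rw [h1, h2, ut_det h, abs_of_pos (mul_pos ha hd)]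
    norm_num
    ring
  rw [hfun]
  have := (tendsto_E4.comp (tendsto_smul_atImInfty (ut_one_zero (b := b) h))).mul_const
    (((a * d : ℝ) : ℂ) ^ 3 * ((d : ℝ) : ℂ) ^ (-4 : ℤ))
  simpa using this

/-- Hermite normal form of `diag(N,1) * γ` -/
theorem exists_hnf (N : ℕ) [NeZero N] (γ : SL(2, ℤ)) :
    ∃ (γ' : SL(2, ℤ)) (a d : ℕ) (b : ℤ), 0 < a ∧ 0 < d ∧ a * d = N ∧ a = Int.gcd N (γ 1 0) ∧
      ut N 0 1 * mapGL ℝ γ = mapGL ℝ γ' * ut a b d := by
  have hN : 0 < N := Nat.pos_of_ne_zero (NeZero.ne N)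
  set p := γ 0 0 with hp
  set q := γ 0 1 with hq
  set c := γ 1 0 with hc
  set s := γ 1 1 with hs
  have hdet : p * s - q * c = 1 := by
    have := γ.det_coe
    rw [Matrix.det_fin_two] at this
    exact this
  set g := Int.gcd (N : ℤ) c with hg
  have hgpos : 0 < g := Int.gcd_pos_of_ne_zero_left _ (by exact_mod_cast hN.ne')
  have hgN : g ∣ N := Int.natCast_dvd_natCast.mp (Int.gcd_dvd_left (N : ℤ) c)
  obtain ⟨d, hd⟩ := hgN
  have hdpos : 0 < d := by
    rcases Nat.eq_zero_or_pos d with h | h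
    · rw [h, mul_zero] at hd; omega
    · exact h
  obtain ⟨v, hv⟩ : (g : ℤ) ∣ c := Int.gcd_dvd_right (N : ℤ) c
  have hcop1 : IsCoprime (d : ℤ) v := by
    rw [Int.isCoprime_iff_gcd_eq_one]
    have h1 := Int.gcd_div_gcd_div_gcd (i := (N : ℤ)) (j := c) (by rw [← hg]; exact hgpos)
    rw [← hg] at h1
    have h2 : (N : ℤ) / (g : ℤ) = d := by
      rw [hd]; push_cast
      exact Int.mul_ediv_cancel_left _ (by exact_mod_cast hgpos.ne')
    have h3 : c / (g : ℤ) = v := by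
      rw [hv]
      exact Int.mul_ediv_cancel_left _ (by exact_mod_cast hgpos.ne')
    rw [h2, h3] at h1
    exact h1
  have hcop2 : IsCoprime p v := ⟨s, -q * g, by rw [hv] at hdet; linear_combination hdet⟩
  have hcop : IsCoprime ((d : ℤ) * p) v := IsCoprime.mul_left hcop1 hcop2
  obtain ⟨γ', h00, h10⟩ := hcop.exists_SL2_col 0
  set x := γ' 0 1 with hx
  set y := γ' 1 1 with hy
  have hdet' : (d : ℤ) * p * y - x * v = 1 := by
    have := γ'.det_coe
    rw [Matrix.det_fin_two, h00, h10] at this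
    exact this
  have hNd : (N : ℤ) = g * d := by exact_mod_cast hd
  refine ⟨γ', g, d, y * N * q - x * s, hgpos, hdpos, hd.symm, rfl, ?_⟩
  have hgd : ((g : ℝ)) * (d : ℝ) ≠ 0 := by positivity
  have hN1 : ((N : ℝ)) * 1 ≠ 0 := by positivity
  apply Units.ext
  rw [Units.val_mul, Units.val_mul, mapGL_coe_matrix, mapGL_coe_matrix]
  have e1 := ut_val (a := (N : ℝ)) (b := 0) (d := 1) hN1
  have e2 := ut_val (a := (g : ℝ)) (b := ((y * N * q - x * s : ℤ) : ℝ)) (d := (d : ℝ)) hgd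
  rw [e1, e2]
  have i1 : (d : ℤ) * p * g = N * p := by rw [hNd]; ring
  have i2 : v * g = c := by rw [hv]; ring
  have i3 : (d : ℤ) * p * (y * N * q - x * s) + x * d = N * q := by
    linear_combination ((N : ℤ) * q) * hdet' - (x * d) * hdet - (x * q * d) * hv
      + (x * q * v) * hNd
  have i4 : v * (y * N * q - x * s) + y * d = s := by
    linear_combination s * hdet' - (y * d) * hdet - (y * q * d) * hv + (y * q * v) * hNd
  ext i j
  fin_cases i <;> fin_cases j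
  · simp only [Matrix.mul_apply, Fin.sum_univ_two, Fin.zero_eta, Fin.isValue,
      Matrix.of_apply, Matrix.cons_val', Matrix.cons_val_zero, Matrix.cons_val_fin_one,
      Matrix.cons_val_one, Matrix.SpecialLinearGroup.map_apply_coe, RingHom.mapMatrix_apply,
      Matrix.map_apply, eq_intCast, ← hp, ← hc, h00, h10]
    have := congrArg (fun t : ℤ => (t : ℝ)) i1
    push_cast at this ⊢
    linarith
  · simp only [Matrix.mul_apply, Fin.sum_univ_two, Fin.zero_eta, Fin.isValue, Fin.mk_one,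
      Matrix.of_apply, Matrix.cons_val', Matrix.cons_val_zero, Matrix.cons_val_fin_one,
      Matrix.cons_val_one, Matrix.SpecialLinearGroup.map_apply_coe, RingHom.mapMatrix_apply,
      Matrix.map_apply, eq_intCast, ← hq, ← hs, ← hx, h00]
    have := congrArg (fun t : ℤ => (t : ℝ)) i3
    push_cast at this ⊢
    linarith
  · simp only [Matrix.mul_apply, Fin.sum_univ_two, Fin.zero_eta, Fin.isValue, Fin.mk_one,
      Matrix.of_apply, Matrix.cons_val', Matrix.cons_val_zero, Matrix.cons_val_fin_one,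
      Matrix.cons_val_one, Matrix.SpecialLinearGroup.map_apply_coe, RingHom.mapMatrix_apply,
      Matrix.map_apply, eq_intCast, ← hp, ← hc, h00, h10]
    have := congrArg (fun t : ℤ => (t : ℝ)) i2
    push_cast at this ⊢
    linarith
  · simp only [Matrix.mul_apply, Fin.sum_univ_two, Fin.zero_eta, Fin.isValue, Fin.mk_one,
      Matrix.of_apply, Matrix.cons_val', Matrix.cons_val_zero, Matrix.cons_val_fin_one,
      Matrix.cons_val_one, Matrix.SpecialLinearGroup.map_apply_coe, RingHom.mapMatrix_apply,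
      Matrix.map_apply, eq_intCast, ← hq, ← hs, ← hy, h10]
    have := congrArg (fun t : ℤ => (t : ℝ)) i4
    push_cast at this ⊢
    linarith

theorem E4_slash_mapGL (γ : SL(2, ℤ)) :
    (E₄ : ℍ → ℂ) ∣[(4 : ℤ)] (mapGL ℝ γ) = E₄ :=
  levelOne_slash E₄ γ

theorem mapGL_T_zpow_val (t : ℤ) :
    ((mapGL ℝ (ModularGroup.T ^ t) : GL (Fin 2) ℝ) : Matrix (Fin 2) (Fin 2) ℝ)
      = !![1, (t : ℝ); 0, 1] := by
  rw [mapGL_coe_matrix]
  ext i j
  rw [Matrix.SpecialLinearGroup.map_apply_coe, RingHom.mapMatrix_apply, Matrix.map_apply,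
    ModularGroup.coe_T_zpow]
  fin_cases i <;> fin_cases j <;> simp

theorem ut_shift {a b d : ℝ} (h : a * d ≠ 0) (t : ℤ) :
    mapGL ℝ (ModularGroup.T ^ t) * ut a b d = ut a (b + t * d) d := by
  apply Units.ext
  rw [Units.val_mul, mapGL_T_zpow_val, ut_val h, ut_val h]
  ext i j
  fin_cases i <;> fin_cases j <;> simp [Matrix.mul_apply, Fin.sum_univ_two]

theorem E4_slash_ut_shift {a b d : ℝ} (h : a * d ≠ 0) (t : ℤ) :
    (E₄ : ℍ → ℂ) ∣[(4 : ℤ)] (ut a (b + t * d) d) = (E₄ : ℍ → ℂ) ∣[(4 : ℤ)] (ut a b d) := by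
  rw [← ut_shift h t, SlashAction.slash_mul, E4_slash_mapGL]

/-- `E₄ ∣[4] (diag(N,1) γ)` in Hermite normal form -/
theorem E4_slash_diag_slash (N : ℕ) [NeZero N] (γ : SL(2, ℤ)) :
    ∃ (a d : ℕ) (b : ℤ), 0 < a ∧ 0 < d ∧ a * d = N ∧ a = Int.gcd N (γ 1 0) ∧
      ((E₄ : ℍ → ℂ) ∣[(4 : ℤ)] (ut N 0 1)) ∣[(4 : ℤ)] γ = (E₄ : ℍ → ℂ) ∣[(4 : ℤ)] (ut a b d) := by
  obtain ⟨γ', a, d, b, ha, hd, had, hag, hmat⟩ := exists_hnf N γ
  refine ⟨a, d, b, ha, hd, had, hag, ?_⟩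
  have h1 : ((E₄ : ℍ → ℂ) ∣[(4 : ℤ)] (ut N 0 1)) ∣[(4 : ℤ)] γ
      = (E₄ : ℍ → ℂ) ∣[(4 : ℤ)] (ut N 0 1 * mapGL ℝ γ) := by
    rw [SlashAction.slash_mul]; rfl
  rw [h1, hmat, SlashAction.slash_mul, E4_slash_mapGL]

theorem E4_slash_diag_slash_of_mem (N : ℕ) [NeZero N] {γ : SL(2, ℤ)}
    (hγ : γ ∈ CongruenceSubgroup.Gamma0 N) :
    ((E₄ : ℍ → ℂ) ∣[(4 : ℤ)] (ut N 0 1)) ∣[(4 : ℤ)] γ = (E₄ : ℍ → ℂ) ∣[(4 : ℤ)] (ut N 0 1) := by
  obtain ⟨a, d, b, ha, hd, had, hag, h⟩ := E4_slash_diag_slash N γ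
  have hN : 0 < N := Nat.pos_of_ne_zero (NeZero.ne N)
  have hdvd : (N : ℤ) ∣ γ 1 0 := by
    rw [CongruenceSubgroup.Gamma0_mem] at hγ
    exact (ZMod.intCast_zmod_eq_zero_iff_dvd _ _).mp hγ
  have haN : a = N := by
    rw [hag]
    exact_mod_cast Int.gcd_eq_left (Int.natCast_nonneg N) hdvd
  have hd1 : d = 1 := by
    rw [haN] at had
    exact Nat.eq_of_mul_eq_mul_left hN (by rw [had, mul_one])
  rw [h, haN, hd1]
  have hN1 : ((N : ℝ)) * ((1 : ℕ) : ℝ) ≠ 0 := by positivity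
  have := E4_slash_ut_shift (a := (N : ℝ)) (b := 0) (d := ((1 : ℕ) : ℝ)) hN1 b
  simp only [Nat.cast_one, mul_one, zero_add] at this
  simp only [Nat.cast_one]
  exact this

/-- the separating form `E₄ ∣[4] diag(N,1)` on `Γ₀(N)` -/
noncomputable def sepForm (N : ℕ) [NeZero N] : ModularForm (G0 N) 4 :=
  mkMF N 4 ((E₄ : ℍ → ℂ) ∣[(4 : ℤ)] (ut N 0 1))
    ((ModularFormClass.holo E₄).slash 4 _)
    (fun _ hγ => E4_slash_diag_slash_of_mem N hγ)
    (fun γ => by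
      obtain ⟨a, d, b, ha, hd, had, hag, h⟩ := E4_slash_diag_slash N γ
      rw [h]
      have had' : ((a : ℝ)) * (d : ℝ) ≠ 0 := by positivity
      exact IsBoundedAtImInfty.slash 4 (ut_one_zero had') (ModularFormClass.bdd_at_infty E₄))

theorem sepForm_coe (N : ℕ) [NeZero N] :
    (sepForm N : ℍ → ℂ) = (E₄ : ℍ → ℂ) ∣[(4 : ℤ)] (ut N 0 1) := rfl

/-- the stabiliser of the separating form is exactly `Γ₀(N)` -/
theorem mem_Gamma0_of_sepForm_slash (N : ℕ) [NeZero N] (γ : SL(2, ℤ))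
    (h : (sepForm N : ℍ → ℂ) ∣[(4 : ℤ)] γ = sepForm N) : γ ∈ CongruenceSubgroup.Gamma0 N := by
  have hN : 0 < N := Nat.pos_of_ne_zero (NeZero.ne N)
  rw [sepForm_coe] at h
  obtain ⟨a, d, b, ha, hd, had, hag, h'⟩ := E4_slash_diag_slash N γ
  rw [h] at h'
  have t1 := tendsto_E4_slash_ut (a := (N : ℝ)) (b := 0) (d := 1) (by exact_mod_cast hN) one_pos
  have t2 := tendsto_E4_slash_ut (a := (a : ℝ)) (b := (b : ℝ)) (d := (d : ℝ))
    (by exact_mod_cast ha) (by exact_mod_cast hd)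
  rw [← h'] at t2
  have hlim := tendsto_nhds_unique t1 t2
  have hadR : (a : ℝ) * (d : ℝ) = N := by exact_mod_cast had
  rw [hadR] at hlim
  have hNC : ((N : ℝ) : ℂ) ≠ 0 := by
    exact_mod_cast hN.ne'
  have hdC : ((d : ℝ) : ℂ) ≠ 0 := by
    exact_mod_cast hd.ne'
  have h4 : ((d : ℝ) : ℂ) ^ (4 : ℕ) = 1 := by
    have e : ((N : ℝ) * 1 : ℝ) = N := mul_one _
    rw [e] at hlim
    have h5 : ((1 : ℝ) : ℂ) ^ (-4 : ℤ) = ((d : ℝ) : ℂ) ^ (-4 : ℤ) :=
      mul_left_cancel₀ (pow_ne_zero 3 hNC) hlim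
    have h6 : ((d : ℝ) : ℂ) ^ (-4 : ℤ) * ((d : ℝ) : ℂ) ^ (4 : ℕ) = 1 := by
      rw [← zpow_natCast, ← zpow_add₀ hdC]; norm_num
    rw [← h5] at h6
    simpa using h6
  have hd1 : d = 1 := by
    have h7 : ((d ^ 4 : ℕ) : ℂ) = ((1 : ℕ) : ℂ) := by
      push_cast
      exact_mod_cast h4
    have h8 : d ^ 4 = 1 := by exact_mod_cast h7
    exact (Nat.pow_eq_one.mp h8).resolve_right (by norm_num)
  have haN : a = N := by rw [hd1, mul_one] at had; exact had
  rw [CongruenceSubgroup.Gamma0_mem]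
  rw [ZMod.intCast_zmod_eq_zero_iff_dvd]
  have : ((Int.gcd (N : ℤ) (γ 1 0) : ℕ) : ℤ) ∣ γ 1 0 := Int.gcd_dvd_right _ _
  rw [← hag, haN] at this
  exact this

/-- SEP: a form on `Γ₀(N)` with pairwise distinct conjugates -/
theorem exists_sep (N : ℕ) [NeZero N] :
    ∃ (kh : ℤ) (h : ModularForm (G0 N) kh), ∀ x y : Q N, cj N kh h x = cj N kh h y → x = y := by
  refine ⟨4, sepForm N, fun x y hxy => ?_⟩
  induction x using QuotientGroup.induction_on with
  | H g =>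
    induction y using QuotientGroup.induction_on with
    | H g' =>
      rw [cj_mk, cj_mk] at hxy
      rw [QuotientGroup.eq]
      apply mem_Gamma0_of_sepForm_slash
      have h1 := congrArg (fun f : ℍ → ℂ => f ∣[(4 : ℤ)] g') hxy
      simp only [← SlashAction.slash_mul] at h1
      rw [inv_mul_cancel, SlashAction.slash_one] at h1
      exact h1

end Fermat.Agent.S20
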