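import Fermat.Agent.S20.Basic
import Fermat.Prelude.Thm_ModularForm_sturm_bound_Gamma0
import Fermat.Prelude.Thm_CongruenceSubgroup_one_mem_strictPeriods_Gamma0

/-!
B3(count): a family of forms on Γ₀(N) that is independent over the level one forms has at most
`[SL(2,ℤ) : Γ₀(N)]` members (Sturm growth).
-/

set_option autoImplicit false

open UpperHalfPlane ModularForm
open scoped MatrixGroups ModularForm Manifold

namespace Fermat.Agent.S20

/-- the truncated q-expansion map -/
noncomputable def coeffMap (N : ℕ) (k : ℤ) (B : ℕ) :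
    ModularForm (G0 N) k →ₗ[ℂ] (Fin (B + 1) → ℂ) where
  toFun f n := (qExpansion 1 f).coeff n
  map_add' f g := by
    ext n
    simp [ModularForm.qExpansion_add one_pos
      (CongruenceSubgroup.one_mem_strictPeriods_Gamma0 N) f g]
  map_smul' c f := by
    ext n
    simp [ModularForm.qExpansion_smul one_pos
      (CongruenceSubgroup.one_mem_strictPeriods_Gamma0 N) c f]

theorem coeffMap_injective (N : ℕ) [NeZero N] (k : ℤ) :
    Function.Injective
      (coeffMap N k ((k * (CongruenceSubgroup.Gamma0 N).index).toNat / 12)) := by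
  rw [← LinearMap.ker_eq_bot, LinearMap.ker_eq_bot']
  intro f hf
  apply ModularForm.sturm_bound_Gamma0 N f
  intro n hn
  have := congrFun hf ⟨n, Nat.lt_succ_of_le hn⟩
  simpa [coeffMap] using this


instance instFiniteModularFormG0 (N : ℕ) [NeZero N] (k : ℤ) :
    Module.Finite ℂ (ModularForm (G0 N) k) :=
  Module.Finite.of_injective _ (coeffMap_injective N k)

theorem finrank_modularForm_G0_le (N : ℕ) [NeZero N] (k : ℤ) :
    Module.finrank ℂ (ModularForm (G0 N) k)
      ≤ (k * (CongruenceSubgroup.Gamma0 N).index).toNat / 12 + 1 := by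
  have h := LinearMap.finrank_le_finrank_of_injective (coeffMap_injective N k)
  simpa using h

theorem mul_slash_of_eq {k k₁ k₂ : ℤ} (h : k = k₁ + k₂) (f g : ℍ → ℂ) (γ : SL(2, ℤ)) :
    (f * g) ∣[k] γ = f ∣[k₁] γ * g ∣[k₂] γ := by
  subst h
  exact mul_slash_SL2 _ _ _ _ _

/-- the combination `∑ rᵢ Fᵢ` as a modular form on `Γ₀(N)` -/
noncomputable def comb (N : ℕ) [NeZero N] {ι : Type} [Fintype ι] (wt : ι → ℤ)
    (F : (i : ι) → ModularForm (G0 N) (wt i)) (k : ℤ)
    (r : (i : ι) → ModularForm 𝒮ℒ (k - wt i)) : ModularForm (G0 N) k :=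
  mkMF N k (fun z => ∑ i, r i z * F i z)
    (by
      have : (fun z => ∑ i, r i z * F i z) = ∑ i, (fun z => r i z * F i z) := by
        ext z; simp
      rw [this]
      exact MDifferentiable.sum fun i _ => (ModularFormClass.holo (r i)).mul (ModularFormClass.holo (F i)))
    (by
      intro γ hγ
      have : (fun z => ∑ i, r i z * F i z) = ∑ i, ((r i : ℍ → ℂ) * (F i : ℍ → ℂ)) := by
        ext z; simp
      rw [this, SlashAction.sum_slash]
      refine Finset.sum_congr rfl fun i _ => ?_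
      rw [mul_slash_of_eq (show k = (k - wt i) + wt i by ring), levelOne_slash,
        slash_eq_of_mem (F i) hγ])
    (by
      intro γ
      have : (fun z => ∑ i, r i z * F i z) = ∑ i, ((r i : ℍ → ℂ) * (F i : ℍ → ℂ)) := by
        ext z; simp
      rw [this, SlashAction.sum_slash]
      have h2 : ∀ i ∈ (Finset.univ : Finset ι),
          IsBoundedAtImInfty (((r i : ℍ → ℂ) * (F i : ℍ → ℂ)) ∣[k] γ) := by
        intro i _
        rw [mul_slash_of_eq (show k = (k - wt i) + wt i by ring), levelOne_slash]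
        exact (ModularFormClass.bdd_at_infty (r i)).mul (isBoundedAtImInfty_slash (F i) γ)
      rw [IsBoundedAtImInfty, Filter.BoundedAtFilter]
      exact Asymptotics.IsBigO.sum h2)

@[simp] theorem comb_apply (N : ℕ) [NeZero N] {ι : Type} [Fintype ι] (wt : ι → ℤ)
    (F : (i : ι) → ModularForm (G0 N) (wt i)) (k : ℤ)
    (r : (i : ι) → ModularForm 𝒮ℒ (k - wt i)) (z : ℍ) :
    comb N wt F k r z = ∑ i, r i z * F i z := rfl

/-- `comb` as a linear map -/
noncomputable def combₗ (N : ℕ) [NeZero N] {ι : Type} [Fintype ι] (wt : ι → ℤ)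
    (F : (i : ι) → ModularForm (G0 N) (wt i)) (k : ℤ) :
    ((i : ι) → ModularForm 𝒮ℒ (k - wt i)) →ₗ[ℂ] ModularForm (G0 N) k where
  toFun := comb N wt F k
  map_add' r s := by
    ext z
    simp [add_mul, Finset.sum_add_distrib]
  map_smul' c r := by
    ext z
    simp [Finset.mul_sum, mul_assoc]

theorem combₗ_injective (N : ℕ) [NeZero N] {ι : Type} [Fintype ι] (wt : ι → ℤ)
    (F : (i : ι) → ModularForm (G0 N) (wt i))
    (indep : ∀ (k : ℤ) (r : (i : ι) → ModularForm 𝒮ℒ (k - wt i)),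
      (∀ z, ∑ i, r i z * F i z = 0) → ∀ i, r i = 0) (k : ℤ) :
    Function.Injective (combₗ N wt F k) := by
  rw [← LinearMap.ker_eq_bot, LinearMap.ker_eq_bot']
  intro r hr
  funext i
  refine indep k r (fun z => ?_) i
  have := DFunLike.congr_fun hr z
  simpa [combₗ] using this

theorem sum_finrank_le (N : ℕ) [NeZero N] {ι : Type} [Fintype ι] (wt : ι → ℤ)
    (F : (i : ι) → ModularForm (G0 N) (wt i))
    (indep : ∀ (k : ℤ) (r : (i : ι) → ModularForm 𝒮ℒ (k - wt i)),
      (∀ z, ∑ i, r i z * F i z = 0) → ∀ i, r i = 0) (k : ℤ) :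
    ∑ i, Module.finrank ℂ (ModularForm 𝒮ℒ (k - wt i))
      ≤ (k * (CongruenceSubgroup.Gamma0 N).index).toNat / 12 + 1 := by
  have h1 := LinearMap.finrank_le_finrank_of_injective (combₗ_injective N wt F indep k)
  rw [Module.finrank_pi_fintype] at h1
  exact h1.trans (finrank_modularForm_G0_le N k)


theorem le_finrank_levelOne (m : ℤ) (h0 : 0 ≤ m) (he : Even m) :
    m.toNat / 12 ≤ Module.finrank ℂ (ModularForm 𝒮ℒ m) := by
  lift m to ℕ using h0
  have he' : Even m := by exact_mod_cast he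
  have h := ModularForm.dimension_level_one m he'
  have h2 : Module.finrank ℂ (ModularForm 𝒮ℒ (m : ℤ)) =
      if m ≡ 2 [MOD 12] then m / 12 else m / 12 + 1 := by
    unfold Module.finrank
    rw [h]
    split_ifs <;> simp
  rw [h2, Int.toNat_natCast]
  split_ifs <;> omega

theorem F_ne_zero_of_indep (N : ℕ) [NeZero N] {ι : Type} [Fintype ι] (wt : ι → ℤ)
    (F : (i : ι) → ModularForm (G0 N) (wt i))
    (indep : ∀ (k : ℤ) (r : (i : ι) → ModularForm 𝒮ℒ (k - wt i)),
      (∀ z, ∑ i, r i z * F i z = 0) → ∀ i, r i = 0) (i : ι) : F i ≠ 0 := by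
  classical
  intro h0
  let r : (j : ι) → ModularForm 𝒮ℒ ((wt i + 4) - wt j) := fun j =>
    if h : j = i then ModularForm.mcast (by rw [h]; ring) E₄ else 0
  have hr := indep (wt i + 4) r (fun z => ?_) i
  · have h1 : r i = ModularForm.mcast (by ring) E₄ := by simp [r]
    rw [h1, ModularForm.mcast_eq_zero_iff] at hr
    exact EisensteinSeries.E_ne_zero (by norm_num) ⟨2, rfl⟩ hr
  · apply Finset.sum_eq_zero
    intro j _
    by_cases h : j = i
    · subst h
      simp [h0]
    · simp [r, h]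


theorem neg_one_mem_G0 (N : ℕ) : (-1 : GL (Fin 2) ℝ) ∈ G0 N := by
  refine ⟨-1, ?_, ?_⟩
  · show (-1 : SL(2, ℤ)) ∈ CongruenceSubgroup.Gamma0 N
    rw [CongruenceSubgroup.Gamma0_mem]
    simp
  · ext i j
    simp

theorem even_nonneg_of_ne_zero (N : ℕ) [NeZero N] {k : ℤ} (f : ModularForm (G0 N) k)
    (hf : f ≠ 0) : Even k ∧ 0 ≤ k := by
  constructor
  · by_contra h
    rw [Int.not_even_iff_odd] at h
    exact hf (ModularForm.eq_zero_of_neg_one_mem (neg_one_mem_G0 N) h f)
  · by_contra h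
    exact hf (ModularForm.isZero_of_neg_weight (not_le.mp h) f)

/-- **B3(count)**: a family of forms on `Γ₀(N)` which is independent over the level one forms
has at most `[SL(2,ℤ) : Γ₀(N)]` members. -/
theorem card_le_of_indep (N : ℕ) [NeZero N] {ι : Type} [Fintype ι] (wt : ι → ℤ)
    (F : (i : ι) → ModularForm (G0 N) (wt i))
    (indep : ∀ (k : ℤ) (r : (i : ι) → ModularForm 𝒮ℒ (k - wt i)),
      (∀ z, ∑ i, r i z * F i z = 0) → ∀ i, r i = 0) :
    Fintype.card ι ≤ Nat.card (Q N) := by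
  classical
  have hne := F_ne_zero_of_indep N wt F indep
  have hev : ∀ i, Even (wt i) ∧ 0 ≤ wt i := fun i => even_nonneg_of_ne_zero N (F i) (hne i)
  -- a uniform bound on the weights
  obtain ⟨w0, hw0⟩ : ∃ w0 : ℕ, ∀ i, wt i ≤ 12 * (w0 : ℤ) := by
    refine ⟨(Finset.univ.sup fun i => (wt i).toNat), fun i => ?_⟩
    have h1 : (wt i).toNat ≤ Finset.univ.sup fun i => (wt i).toNat :=
      Finset.le_sup (f := fun i => (wt i).toNat) (Finset.mem_univ i)
    have h2 : wt i = ((wt i).toNat : ℤ) := (Int.toNat_of_nonneg (hev i).2).symm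
    have h3 : ((wt i).toNat : ℤ) ≤ ((Finset.univ.sup fun i => (wt i).toNat : ℕ) : ℤ) := by
      exact_mod_cast h1
    omega
  set μ := Nat.card (Q N) with hμ
  have hidx : (CongruenceSubgroup.Gamma0 N).index = μ := rfl
  by_contra hcard
  rw [not_le] at hcard
  set t : ℕ := w0 + μ * w0 + 2 with ht
  have hmain := sum_finrank_le N wt F indep (12 * (t : ℤ))
  have hlow : ∀ i, t - w0 ≤ Module.finrank ℂ (ModularForm 𝒮ℒ (12 * (t : ℤ) - wt i)) := by
    intro i
    have h1 : (0 : ℤ) ≤ 12 * (t : ℤ) - wt i := by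
      have := hw0 i
      have : (w0 : ℤ) ≤ t := by exact_mod_cast (by omega : w0 ≤ t)
      omega
    have h2 : Even (12 * (t : ℤ) - wt i) := by
      refine Even.sub ?_ (hev i).1
      exact Even.mul_right (by decide) _
    refine le_trans ?_ (le_finrank_levelOne _ h1 h2)
    have h3 : 12 * ((t : ℤ) - w0) ≤ 12 * (t : ℤ) - wt i := by
      have := hw0 i
      omega
    have h4 : (12 * (t - w0) : ℕ) ≤ (12 * (t : ℤ) - wt i).toNat := by
      rw [Int.le_toNat h1]
      have : (w0 : ℤ) ≤ t := by exact_mod_cast (by omega : w0 ≤ t)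
      push_cast [Nat.cast_sub (by omega : w0 ≤ t)]
      omega
    omega
  have hsum : Fintype.card ι * (t - w0)
      ≤ ∑ i, Module.finrank ℂ (ModularForm 𝒮ℒ (12 * (t : ℤ) - wt i)) := by
    calc Fintype.card ι * (t - w0) = ∑ _i : ι, (t - w0) := by simp
      _ ≤ _ := Finset.sum_le_sum fun i _ => hlow i
  have hup : (12 * (t : ℤ) * (CongruenceSubgroup.Gamma0 N).index).toNat / 12 + 1 = t * μ + 1 := by
    rw [hidx]
    have : (12 * (t : ℤ) * (μ : ℤ)).toNat = 12 * (t * μ) := by
      have : 12 * (t : ℤ) * (μ : ℤ) = ((12 * (t * μ) : ℕ) : ℤ) := by push_cast; ring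
      rw [this, Int.toNat_natCast]
    rw [this]
    omega
  rw [hup] at hmain
  have h5 : (μ + 1) * (t - w0) ≤ t * μ + 1 :=
    le_trans (Nat.mul_le_mul_right _ (Nat.succ_le_of_lt hcard)) (le_trans hsum hmain)
  have h6 : t - w0 = μ * w0 + 2 := by omega
  rw [h6, ht] at h5
  nlinarith [h5]

end Fermat.Agent.S20
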