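import Mathlib.NumberTheory.ModularForms.Derivative
import Mathlib.Analysis.Complex.Liouville
import Mathlib.Analysis.Complex.UpperHalfPlane.FunctionsBoundedAtInfty

/-!
# The normalised derivative preserves boundedness / vanishing at `i∞`

Cauchy estimate on a unit disc.  Used to show that the Serre derivative maps
`M_k(Γ)` to `M_{k+2}(Γ)`.
-/

set_option autoImplicit false

namespace Fermat.Agent.S20

open UpperHalfPlane
open scoped Manifold Topology

/-- Cauchy estimate: if `F` is holomorphic on `ℍ` and `‖F z‖ ≤ M` whenever `A ≤ im z`,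
then `‖deriv (F ∘ ofComplex) z‖ ≤ M` whenever `A + 2 ≤ im z` (here `0 ≤ A`). -/
theorem norm_deriv_comp_ofComplex_le {F : ℍ → ℂ} (hF : MDiff F) {M A : ℝ}
    (hA : 0 ≤ A) (hM : ∀ z : ℍ, A ≤ z.im → ‖F z‖ ≤ M) (z : ℍ) (hz : A + 2 ≤ z.im) :
    ‖deriv (F ∘ ofComplex) (z : ℂ)‖ ≤ M := by
  have hF' : DifferentiableOn ℂ (F ∘ ofComplex) upperHalfPlaneSet :=
    UpperHalfPlane.mdifferentiable_iff.mp hF
  have key : ∀ w ∈ Metric.closedBall (z : ℂ) 1, A + 1 ≤ w.im := by
    intro w hw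
    have h1 : |(w - (z : ℂ)).im| ≤ 1 :=
      (Complex.abs_im_le_norm _).trans (by simpa [dist_eq_norm] using hw)
    have := (abs_le.mp h1).1
    simp only [Complex.sub_im, UpperHalfPlane.coe_im] at this
    linarith
  have hsub : Metric.closedBall (z : ℂ) 1 ⊆ upperHalfPlaneSet := by
    intro w hw
    have := key w hw
    show 0 < w.im
    linarith
  have hd : DiffContOnCl ℂ (F ∘ ofComplex) (Metric.ball (z : ℂ) 1) :=
    (hF'.mono hsub).diffContOnCl_ball subset_rfl
  have hb : ∀ w ∈ Metric.sphere (z : ℂ) 1, ‖(F ∘ ofComplex) w‖ ≤ M := by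
    intro w hw
    have hw' : w ∈ Metric.closedBall (z : ℂ) 1 := Metric.sphere_subset_closedBall hw
    have hwim : 0 < w.im := hsub hw'
    have h3 : A ≤ (ofComplex w).im := by
      rw [ofComplex_apply_of_im_pos hwim]
      show A ≤ w.im
      have := key w hw'
      linarith
    simpa using hM (ofComplex w) h3
  have := Complex.norm_deriv_le_of_forall_mem_sphere_norm_le one_pos hd hb
  simpa using this

open Derivative in
/-- The normalised derivative `D = (2πi)⁻¹ d/dz` preserves boundedness at `i∞`. -/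
theorem isBoundedAtImInfty_normalizedDeriv {F : ℍ → ℂ} (hF : MDiff F)
    (hb : IsBoundedAtImInfty F) : IsBoundedAtImInfty (normalizedDerivOfComplex F) := by
  rw [isBoundedAtImInfty_iff] at hb ⊢
  obtain ⟨M, A, hMA⟩ := hb
  refine ⟨‖(2 * (Real.pi : ℂ) * Complex.I)⁻¹‖ * M, max A 0 + 2, fun z hz => ?_⟩
  have hM' : ∀ w : ℍ, max A 0 ≤ w.im → ‖F w‖ ≤ M := fun w hw => hMA w ((le_max_left _ _).trans hw)
  have := norm_deriv_comp_ofComplex_le hF (le_max_right A 0) hM' z hz
  simp only [normalizedDerivOfComplex, norm_mul]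
  exact mul_le_mul_of_nonneg_left this (norm_nonneg _)

open Derivative in
/-- The normalised derivative `D = (2πi)⁻¹ d/dz` preserves vanishing at `i∞`. -/
theorem isZeroAtImInfty_normalizedDeriv {F : ℍ → ℂ} (hF : MDiff F)
    (hb : IsZeroAtImInfty F) : IsZeroAtImInfty (normalizedDerivOfComplex F) := by
  rw [isZeroAtImInfty_iff] at hb ⊢
  intro ε hε
  have hcpos : 0 < ‖(2 * (Real.pi : ℂ) * Complex.I)⁻¹‖ := by
    rw [norm_pos_iff]
    exact inv_ne_zero (by simp [Real.pi_ne_zero])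
  obtain ⟨A, hA⟩ := hb (ε / ‖(2 * (Real.pi : ℂ) * Complex.I)⁻¹‖) (div_pos hε hcpos)
  refine ⟨max A 0 + 2, fun z hz => ?_⟩
  have hM' : ∀ w : ℍ, max A 0 ≤ w.im → ‖F w‖ ≤ ε / ‖(2 * (Real.pi : ℂ) * Complex.I)⁻¹‖ :=
    fun w hw => hA w ((le_max_left _ _).trans hw)
  have := norm_deriv_comp_ofComplex_le hF (le_max_right A 0) hM' z hz
  simp only [normalizedDerivOfComplex, norm_mul]
  calc ‖(2 * (Real.pi : ℂ) * Complex.I)⁻¹‖ * ‖deriv (F ∘ ofComplex) (z : ℂ)‖
      ≤ ‖(2 * (Real.pi : ℂ) * Complex.I)⁻¹‖ * (ε / ‖(2 * (Real.pi : ℂ) * Complex.I)⁻¹‖) :=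
        mul_le_mul_of_nonneg_left this hcpos.le
    _ = ε := by field_simp

end Fermat.Agent.S20
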