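import Mathlib.LinearAlgebra.Matrix.Determinant.Basic
import Mathlib.LinearAlgebra.Matrix.Trace
import Mathlib.Analysis.Calculus.Deriv.Mul
import Mathlib.Analysis.Calculus.Deriv.Add
import Mathlib.Analysis.Complex.Basic

/-!
# Derivative of a determinant (column form of Jacobi's formula)
-/

set_option autoImplicit false

namespace Fermat.Agent.S20

open Matrix Finset

variable {ι : Type*} [Fintype ι] [DecidableEq ι]

/-- Expansion of the determinant of a matrix with one column replaced. -/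
theorem det_updateCol_eq_sum_perm (M : Matrix ι ι ℂ) (j : ι) (v : ι → ℂ) :
    (M.updateCol j v).det
      = ∑ σ : Equiv.Perm ι, (Equiv.Perm.sign σ : ℂ) *
          ((∏ i ∈ univ.erase j, M (σ i) i) * v (σ j)) := by
  rw [Matrix.det_apply']
  refine Finset.sum_congr rfl fun σ _ => ?_
  congr 1
  rw [← Finset.prod_erase_mul _ _ (Finset.mem_univ j)]
  congr 1
  · refine Finset.prod_congr rfl fun i hi => ?_
    rw [Matrix.updateCol_ne (Finset.ne_of_mem_erase hi)]
  · rw [Matrix.updateCol_self]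

/-- **Jacobi's formula, column form.** If every entry of `Φ` is differentiable at `z`, the
derivative of `det Φ` is the sum over columns `j` of the determinant of `Φ z` with column `j`
replaced by its derivative. -/
theorem hasDerivAt_det {Φ : ℂ → Matrix ι ι ℂ} {Φ' : Matrix ι ι ℂ} {z : ℂ}
    (h : ∀ i j, HasDerivAt (fun w => Φ w i j) (Φ' i j) z) :
    HasDerivAt (fun w => (Φ w).det)
      (∑ j, ((Φ z).updateCol j (fun i => Φ' i j)).det) z := by
  have h1 : ∀ σ : Equiv.Perm ι, HasDerivAt (fun w => ∏ i, Φ w (σ i) i)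
      (∑ j, (∏ i ∈ univ.erase j, Φ z (σ i) i) * Φ' (σ j) j) z := by
    intro σ
    have := HasDerivAt.fun_finsetProd (u := (univ : Finset ι))
      (f := fun i w => Φ w (σ i) i) (f' := fun i => Φ' (σ i) i) (x := z)
      (fun i _ => h (σ i) i)
    simpa [smul_eq_mul] using this
  have h2 : HasDerivAt (fun w => ∑ σ : Equiv.Perm ι, (Equiv.Perm.sign σ : ℂ) * ∏ i, Φ w (σ i) i)
      (∑ σ : Equiv.Perm ι, (Equiv.Perm.sign σ : ℂ) *
        (∑ j, (∏ i ∈ univ.erase j, Φ z (σ i) i) * Φ' (σ j) j)) z :=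
    HasDerivAt.fun_sum fun σ _ => (h1 σ).const_mul _
  have e1 : (fun w => (Φ w).det)
      = fun w => ∑ σ : Equiv.Perm ι, (Equiv.Perm.sign σ : ℂ) * ∏ i, Φ w (σ i) i := by
    funext w; rw [Matrix.det_apply']
  have e2 : (∑ j, ((Φ z).updateCol j (fun i => Φ' i j)).det)
      = ∑ σ : Equiv.Perm ι, (Equiv.Perm.sign σ : ℂ) *
        (∑ j, (∏ i ∈ univ.erase j, Φ z (σ i) i) * Φ' (σ j) j) := by
    simp_rw [det_updateCol_eq_sum_perm, Finset.mul_sum]
    rw [Finset.sum_comm]
  rw [e1, e2]
  exact h2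

/-- If the columns of `Φ'` are linear combinations `Φ' = Φ z * B` of the columns of `Φ z`,
then Jacobi's formula gives `(det Φ)' = tr B * det Φ`. -/
theorem hasDerivAt_det_of_eq_mul {Φ : ℂ → Matrix ι ι ℂ} {B : Matrix ι ι ℂ} {z : ℂ}
    (h : ∀ i j, HasDerivAt (fun w => Φ w i j) ((Φ z * B) i j) z) :
    HasDerivAt (fun w => (Φ w).det) (B.trace * (Φ z).det) z := by
  have := hasDerivAt_det h
  have e : (∑ j, ((Φ z).updateCol j (fun i => (Φ z * B) i j)).det) = B.trace * (Φ z).det := by
    rw [Matrix.trace, Finset.sum_mul]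
    refine Finset.sum_congr rfl fun j _ => ?_
    have := Matrix.det_updateCol_sum (Φ z) j (fun l => B l j)
    simp only [smul_eq_mul] at this
    rw [Matrix.diag_apply, ← this]
    congr 2
    funext i
    rw [Matrix.mul_apply]
    exact Finset.sum_congr rfl fun l _ => mul_comm _ _
  rwa [e] at this

end Fermat.Agent.S20
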